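/-
S59lib / N3 / Lat2 (helper2): the level `M → M q` operators (`q ∣ M`) on the lattices
`L_M = Hom_par(Γ₀(M), ℤ)` and their behaviour under the form `PD.form`:

* `form_resL_resL_of_dvd : form_{M q} (res a) (res a') = q · form_M a a'`   (index `q`);
* `form_deg2L_cores2BL : form_{M q} (deg2 a) b = form_M a (cores2B b)`     (adjointness, via
  `PD.form_conj` for `δ = diag(q, 1)` and `PD.form_resLat_cores` for `Γ₀(M) ∩ Γ⁰(q) ≤ Γ₀(M)`).
-/
import Mathlib
import Fermat.Agent.S59lib.N3.Beta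
import Fermat.Agent.S41lib.PD.Assembly
import Fermat.Agent.S41lib.PD.Conj
import Fermat.Agent.S41lib.PD.Unimodular

set_option autoImplicit false
set_option linter.unusedSectionVars false
set_option linter.unusedVariables false

noncomputable section

namespace Fermat.Agent.S59lib.N3

open Matrix.SpecialLinearGroup CongruenceSubgroup
open Fermat.Agent.S16lib.LH Fermat.Agent.S29lib.H Fermat.Agent.S31lib.PET
open Fermat.Agent.S41lib.HC Fermat.Agent.S41lib.BR Fermat.Agent.S41lib.PD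
open Fermat.Agent.S43lib.B1 Fermat.Agent.S16lib.LG ModularCurve.Period
open Fermat.Agent.ProgramR.ES
open scoped MatrixGroups

/-! ### The index of `Γ₀(M q)` in `Γ₀(M)` for `q ∣ M` -/

/-- the lower unipotent matrix `(1 0; M k 1)` -/
def unipL (M : ℕ) (k : ℤ) : SL(2, ℤ) :=
  ⟨!![1, 0; (M : ℤ) * k, 1], by rw [Matrix.det_fin_two_of]; ring⟩

theorem unipL_mem (M : ℕ) (k : ℤ) : unipL M k ∈ Gamma0 M := by
  rw [Gamma0_mem]
  show ((((M : ℤ) * k : ℤ)) : ZMod M) = 0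
  simp

section Index

variable {M q : ℕ} [NeZero M] [Fact q.Prime] (hqM : q ∣ M)

include hqM in
theorem isUnit_upperLeft_zmod (g : SL(2, ℤ)) (hg : g ∈ Gamma0 M) :
    IsUnit (((g 0 0 : ℤ)) : ZMod q) := by
  have hdet := Matrix.SpecialLinearGroup.det_coe g
  rw [Matrix.det_fin_two] at hdet
  have hc : (((g 1 0 : ℤ)) : ZMod q) = 0 := by
    apply (ZMod.intCast_zmod_eq_zero_iff_dvd _ _).mpr
    have h1 : (M : ℤ) ∣ g 1 0 := (ZMod.intCast_zmod_eq_zero_iff_dvd _ _).mp (Gamma0_mem.mp hg)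
    exact (Int.natCast_dvd_natCast.mpr hqM).trans h1
  have h := congrArg (Int.cast : ℤ → ZMod q) hdet
  push_cast at h
  rw [hc, mul_zero, sub_zero] at h
  exact IsUnit.of_mul_eq_one _ h

include hqM in
/-- `(1 0; M x 1)`, `x : ZMod q`, is a system of representatives of `Γ₀(M q) \ Γ₀(M)` -/
theorem isTransversal_unipL :
    IsTransversal (Gamma0 M) (Gamma0 (M * q)) (fun x : ZMod q => unipL M (x.val : ℤ)) where
  mem x := unipL_mem M _
  inj := by
    intro x y hxy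
    rw [Gamma0_mem] at hxy
    have h1 : ((unipL M (x.val : ℤ) * (unipL M (y.val : ℤ))⁻¹ : SL(2, ℤ)) 1 0 : ℤ) =
        (M : ℤ) * ((x.val : ℤ) - (y.val : ℤ)) := by
      rw [Matrix.SpecialLinearGroup.coe_mul, Matrix.SpecialLinearGroup.coe_inv,
        Matrix.adjugate_fin_two, Matrix.mul_apply, Fin.sum_univ_two]
      simp [unipL]
      ring
    rw [h1] at hxy
    have h2 := (ZMod.intCast_zmod_eq_zero_iff_dvd _ _).mp hxy
    push_cast at h2
    have hM0 : (M : ℤ) ≠ 0 := by exact_mod_cast NeZero.ne M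
    have h3 : (q : ℤ) ∣ (x.val : ℤ) - (y.val : ℤ) := (mul_dvd_mul_iff_left hM0).mp h2
    have h4 : (((x.val : ℤ) - (y.val : ℤ) : ℤ) : ZMod q) = 0 :=
      (ZMod.intCast_zmod_eq_zero_iff_dvd _ _).mpr h3
    push_cast at h4
    rw [ZMod.natCast_zmod_val, ZMod.natCast_zmod_val] at h4
    exact sub_eq_zero.mp h4
  surj := by
    intro g hg
    obtain ⟨c₀, hc₀⟩ : (M : ℤ) ∣ g 1 0 :=
      (ZMod.intCast_zmod_eq_zero_iff_dvd _ _).mp (Gamma0_mem.mp hg)
    obtain ⟨u, hu⟩ := isUnit_upperLeft_zmod hqM g hg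
    refine ⟨-(c₀ : ZMod q) * ((u⁻¹ : (ZMod q)ˣ) : ZMod q), ?_⟩
    set x : ZMod q := -(c₀ : ZMod q) * ((u⁻¹ : (ZMod q)ˣ) : ZMod q) with hx
    rw [Gamma0_mem]
    have h1 : ((unipL M (x.val : ℤ) * g : SL(2, ℤ)) 1 0 : ℤ) =
        (M : ℤ) * ((x.val : ℤ) * g 0 0 + c₀) := by
      rw [Matrix.SpecialLinearGroup.coe_mul, Matrix.mul_apply, Fin.sum_univ_two]
      simp [unipL]
      rw [hc₀]
      ring
    rw [h1]
    apply (ZMod.intCast_zmod_eq_zero_iff_dvd _ _).mpr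
    push_cast
    apply mul_dvd_mul_left
    apply (ZMod.intCast_zmod_eq_zero_iff_dvd _ _).mp
    push_cast
    rw [ZMod.natCast_zmod_val, hx, ← hu]
    have : ((u⁻¹ : (ZMod q)ˣ) : ZMod q) * (u : ZMod q) = 1 := by
      rw [← Units.val_mul, inv_mul_cancel, Units.val_one]
    linear_combination (-(c₀ : ZMod q)) * this

include hqM in
/-- the index of `Γ₀(M q)` in `Γ₀(M)` is `q` when `q ∣ M` -/
theorem relIndex_gamma0_of_dvd [Fintype (SL(2, ℤ) ⧸ Gamma0 M)]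
    [Fintype (SL(2, ℤ) ⧸ Gamma0 (M * q))] : (Gamma0 (M * q)).relIndex (Gamma0 M) = q := by
  have hle := gamma0_mul_le M q
  have hbij := (isTransversal_unipL hqM).bijective hle
  have hcard : Fintype.card (SL(2, ℤ) ⧸ Gamma0 (M * q)) =
      Fintype.card (SL(2, ℤ) ⧸ Gamma0 M) * q := by
    rw [← Fintype.card_of_bijective hbij, Fintype.card_prod, ZMod.card]
  have h1 := Subgroup.relIndex_mul_index hle
  rw [Subgroup.index_eq_card, Subgroup.index_eq_card, Nat.card_eq_fintype_card,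
    Nat.card_eq_fintype_card, hcard, mul_comm] at h1
  have hpos : 0 < Fintype.card (SL(2, ℤ) ⧸ Gamma0 M) := Fintype.card_pos
  exact Nat.eq_of_mul_eq_mul_left hpos h1

end Index

/-! ### The mixed subgroup `Γ₀(M) ∩ Γ⁰(q)` and the conjugation `δ` -/

/-- `Γ₀(M) ∩ Γ⁰(q)` -/
def gammaMix (M q : ℕ) : Subgroup SL(2, ℤ) where
  carrier := {g | (M : ℤ) ∣ g 1 0 ∧ (q : ℤ) ∣ g 0 1}
  one_mem' := by
    constructor <;> simp
  mul_mem' := by
    rintro a b ⟨ha1, ha2⟩ ⟨hb1, hb2⟩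
    constructor
    · rw [Matrix.SpecialLinearGroup.coe_mul, Matrix.mul_apply, Fin.sum_univ_two]
      exact dvd_add (Dvd.dvd.mul_right ha1 _) (Dvd.dvd.mul_left hb1 _)
    · rw [Matrix.SpecialLinearGroup.coe_mul, Matrix.mul_apply, Fin.sum_univ_two]
      exact dvd_add (Dvd.dvd.mul_left hb2 _) (Dvd.dvd.mul_right ha2 _)
  inv_mem' := by
    rintro a ⟨ha1, ha2⟩
    constructor
    · rw [Matrix.SpecialLinearGroup.coe_inv, Matrix.adjugate_fin_two]
      simpa using ha1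
    · rw [Matrix.SpecialLinearGroup.coe_inv, Matrix.adjugate_fin_two]
      simpa using ha2

theorem mem_gammaMix {M q : ℕ} {g : SL(2, ℤ)} :
    g ∈ gammaMix M q ↔ (M : ℤ) ∣ g 1 0 ∧ (q : ℤ) ∣ g 0 1 := Iff.rfl

theorem gammaMix_le (M q : ℕ) : gammaMix M q ≤ Gamma0 M := by
  intro g hg
  rw [Gamma0_mem]
  exact (ZMod.intCast_zmod_eq_zero_iff_dvd _ _).mpr hg.1

theorem neg_one_mem_gammaMix (M q : ℕ) : (-1 : SL(2, ℤ)) ∈ gammaMix M q := by
  constructor <;> simp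

section Mix

variable {M q : ℕ} [NeZero M] [Fact q.Prime]

theorem cdel_mem_gammaMix (γ : ↥(Gamma0 (M * q))) :
    ((cdel M q γ : ↥(Gamma0 M)) : SL(2, ℤ)) ∈ gammaMix M q := by
  constructor
  · exact cdelMat_10 M q γ
  · show (q : ℤ) ∣ (q : ℤ) * ((γ : SL(2, ℤ)) : Matrix (Fin 2) (Fin 2) ℤ) 0 1
    exact Dvd.intro _ rfl

/-- `δ · δ⁻¹ : Γ₀(M q) →* Γ₀(M) ∩ Γ⁰(q)` -/
def cdelMixHom : ↥(Gamma0 (M * q)) →* ↥(gammaMix M q) where
  toFun γ := ⟨((cdel M q γ : ↥(Gamma0 M)) : SL(2, ℤ)), cdel_mem_gammaMix γ⟩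
  map_one' := by
    apply Subtype.ext
    show ((cdel M q 1 : ↥(Gamma0 M)) : SL(2, ℤ)) = 1
    rw [map_one]
    rfl
  map_mul' a b := by
    apply Subtype.ext
    show ((cdel M q (a * b) : ↥(Gamma0 M)) : SL(2, ℤ)) =
      ((cdel M q a : ↥(Gamma0 M)) : SL(2, ℤ)) * ((cdel M q b : ↥(Gamma0 M)) : SL(2, ℤ))
    rw [map_mul]
    rfl

theorem coe_cdelMixHom (γ : ↥(Gamma0 (M * q))) :
    ((cdelMixHom γ : ↥(gammaMix M q)) : SL(2, ℤ)) = ((cdel M q γ : ↥(Gamma0 M)) : SL(2, ℤ)) := rfl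

theorem cdelMixHom_bijective : Function.Bijective (cdelMixHom (M := M) (q := q)) := by
  have hq0 : (q : ℤ) ≠ 0 := by exact_mod_cast (Fact.out : q.Prime).ne_zero
  constructor
  · intro a b hab
    apply toMZ_injective
    have hdet : (dq q).det ≠ 0 := by
      rw [dq_det]
      exact hq0
    have h1 := cdel_int M q a
    have h2 := cdel_int M q b
    have h3 : toMZ (cdel M q a) = toMZ (cdel M q b) := by
      have := congrArg (fun g : ↥(gammaMix M q) => ((g : SL(2, ℤ)) : MZ)) hab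
      exact this
    rw [h3, ← h2] at h1
    -- cancel `δ` on the left
    have h4 : (dq q).adjugate * (dq q * toMZ a) = (dq q).adjugate * (dq q * toMZ b) := by
      rw [h1]
    rw [← Matrix.mul_assoc, ← Matrix.mul_assoc, Matrix.adjugate_mul, dq_det, Matrix.smul_mul,
      Matrix.smul_mul, Matrix.one_mul, Matrix.one_mul] at h4
    exact smul_right_injective _ hq0 h4
  · rintro ⟨g, hg1, hg2⟩
    obtain ⟨b', hb'⟩ := hg2
    have hdet := Matrix.SpecialLinearGroup.det_coe g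
    rw [Matrix.det_fin_two] at hdet
    let P : MZ := !![g 0 0, b'; (q : ℤ) * g 1 0, g 1 1]
    have hPdet : P.det = 1 := by
      rw [Matrix.det_fin_two_of]
      rw [hb'] at hdet
      linear_combination hdet
    have hP10 : ((M * q : ℕ) : ℤ) ∣ P 1 0 := by
      show ((M * q : ℕ) : ℤ) ∣ (q : ℤ) * g 1 0
      obtain ⟨k, hk⟩ := hg1
      rw [hk]
      push_cast
      exact ⟨k, by ring⟩
    refine ⟨ofMZ P hPdet hP10, ?_⟩
    apply Subtype.ext
    apply Subtype.ext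
    show cdelMat M q (ofMZ P hPdet hP10) = (g : MZ)
    ext i j
    fin_cases i <;> fin_cases j
    · rfl
    · show (q : ℤ) * b' = g 0 1
      rw [hb']
    · show (q : ℤ) * g 1 0 / (q : ℤ) = g 1 0
      exact Int.mul_ediv_cancel_left _ hq0
    · rfl

/-- `δ · δ⁻¹ : Γ₀(M q) ≃* Γ₀(M) ∩ Γ⁰(q)` -/
def cdelMix : ↥(Gamma0 (M * q)) ≃* ↥(gammaMix M q) :=
  MulEquiv.ofBijective cdelMixHom cdelMixHom_bijective

theorem coe_cdelMix (γ : ↥(Gamma0 (M * q))) :
    ((cdelMix γ : ↥(gammaMix M q)) : SL(2, ℤ)) = ((cdel M q γ : ↥(Gamma0 M)) : SL(2, ℤ)) := rfl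

theorem cdelMix_int (γ : ↥(Gamma0 (M * q))) :
    dq q * ((γ : SL(2, ℤ)) : MZ) = ((cdelMix γ : SL(2, ℤ)) : MZ) * dq q :=
  cdel_int M q γ

end Mix

/-! ### The transversal `(1 x; 0 1)` of `(Γ₀(M) ∩ Γ⁰(q)) \ Γ₀(M)` -/

section MixTrans

variable {M q : ℕ} [NeZero M] [Fact q.Prime] (hqM : q ∣ M)

theorem coe_unipT_apply (k : ℤ) :
    (((unipT M k : ↥(Gamma0 M)) : SL(2, ℤ)) : MZ) = !![1, k; 0, 1] := rfl

include hqM in
theorem isUnit_lowerRight_zmod (g : SL(2, ℤ)) (hg : g ∈ Gamma0 M) :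
    IsUnit (((g 1 1 : ℤ)) : ZMod q) := by
  have hdet := Matrix.SpecialLinearGroup.det_coe g
  rw [Matrix.det_fin_two] at hdet
  have hc : (((g 1 0 : ℤ)) : ZMod q) = 0 := by
    apply (ZMod.intCast_zmod_eq_zero_iff_dvd _ _).mpr
    have h1 : (M : ℤ) ∣ g 1 0 := (ZMod.intCast_zmod_eq_zero_iff_dvd _ _).mp (Gamma0_mem.mp hg)
    exact (Int.natCast_dvd_natCast.mpr hqM).trans h1
  have h := congrArg (Int.cast : ℤ → ZMod q) hdet
  push_cast at h
  rw [hc, mul_zero, sub_zero, mul_comm] at h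
  exact IsUnit.of_mul_eq_one _ h

include hqM in
theorem isTransversal_unipT :
    IsTransversal (Gamma0 M) (gammaMix M q)
      (fun x : ZMod q × Unit => ((unipT M (x.1.val : ℤ) : ↥(Gamma0 M)) : SL(2, ℤ))) where
  mem x := (unipT M _).2
  inj := by
    rintro ⟨x, ⟨⟩⟩ ⟨y, ⟨⟩⟩ hxy
    have h1 : ((((unipT M (x.val : ℤ) : ↥(Gamma0 M)) : SL(2, ℤ)) *
        (((unipT M (y.val : ℤ) : ↥(Gamma0 M)) : SL(2, ℤ)))⁻¹ : SL(2, ℤ)) 0 1 : ℤ) =
        (x.val : ℤ) - (y.val : ℤ) := by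
      rw [Matrix.SpecialLinearGroup.coe_mul, Matrix.SpecialLinearGroup.coe_inv,
        Matrix.adjugate_fin_two, Matrix.mul_apply, Fin.sum_univ_two, coe_unipT_apply,
        coe_unipT_apply]
      simp
      ring
    have h3 : (q : ℤ) ∣ (x.val : ℤ) - (y.val : ℤ) := by
      rw [← h1]
      exact hxy.2
    have h4 : (((x.val : ℤ) - (y.val : ℤ) : ℤ) : ZMod q) = 0 :=
      (ZMod.intCast_zmod_eq_zero_iff_dvd _ _).mpr h3
    push_cast at h4
    rw [ZMod.natCast_zmod_val, ZMod.natCast_zmod_val] at h4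
    rw [sub_eq_zero.mp h4]
  surj := by
    intro g hg
    obtain ⟨u, hu⟩ := isUnit_lowerRight_zmod hqM g hg
    set x : ZMod q := -((g 0 1 : ℤ) : ZMod q) * ((u⁻¹ : (ZMod q)ˣ) : ZMod q) with hx
    refine ⟨(x, ()), ?_⟩
    constructor
    · have h1 : ((((unipT M (x.val : ℤ) : ↥(Gamma0 M)) : SL(2, ℤ)) * g : SL(2, ℤ)) 1 0 : ℤ) =
          g 1 0 := by
        rw [Matrix.SpecialLinearGroup.coe_mul, Matrix.mul_apply, Fin.sum_univ_two,
          coe_unipT_apply]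
        simp
      rw [h1]
      exact (ZMod.intCast_zmod_eq_zero_iff_dvd _ _).mp (Gamma0_mem.mp hg)
    · have h1 : ((((unipT M (x.val : ℤ) : ↥(Gamma0 M)) : SL(2, ℤ)) * g : SL(2, ℤ)) 0 1 : ℤ) =
          g 0 1 + (x.val : ℤ) * g 1 1 := by
        rw [Matrix.SpecialLinearGroup.coe_mul, Matrix.mul_apply, Fin.sum_univ_two,
          coe_unipT_apply]
        simp
      rw [h1]
      apply (ZMod.intCast_zmod_eq_zero_iff_dvd _ _).mp
      push_cast
      rw [ZMod.natCast_zmod_val, hx, ← hu]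
      have : ((u⁻¹ : (ZMod q)ˣ) : ZMod q) * (u : ZMod q) = 1 := by
        rw [← Units.val_mul, inv_mul_cancel, Units.val_one]
      linear_combination (-((g 0 1 : ℤ) : ZMod q)) * this

/-- the coset datum of the transfer `H(Γ₀(M) ∩ Γ⁰(q)) → H(Γ₀(M))` -/
def mixData : CosetData ↥(Gamma0 M) ↥(gammaMix M q) (ZMod q × Unit) :=
  (betaData hqM).comp (CosetData.ofHom (cdelMix (M := M) (q := q)).toMonoidHom)

theorem mixData_c (γ : ↥(Gamma0 M)) (x : ZMod q × Unit) :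
    (mixData hqM).c γ x = cdelMix ((betaData hqM).c γ x.1) := rfl

theorem mixData_σ (γ : ↥(Gamma0 M)) (x : ZMod q × Unit) :
    (mixData hqM).σ γ x = (uPerm hqM γ x.1, ()) := rfl

theorem mixData_rel (γ : ↥(Gamma0 M)) (x : ZMod q × Unit) :
    ((unipT M (x.1.val : ℤ) : ↥(Gamma0 M)) : SL(2, ℤ)) * (γ : SL(2, ℤ)) =
      (((mixData hqM).c γ x : ↥(gammaMix M q)) : SL(2, ℤ)) *
        ((unipT M ((((mixData hqM).σ γ x).1).val : ℤ) : ↥(Gamma0 M)) : SL(2, ℤ)) := by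
  rw [mixData_c, mixData_σ, coe_cdelMix, cdel_betaData_c]
  simp only [Subgroup.coe_mul, Subgroup.coe_inv]
  group

theorem mixData_op {A : Type*} [AddCommGroup A] (ψ : H (Gamma0 (M * q)) A) :
    (mixData hqM).op A (ψ.comp (cdelMix (M := M) (q := q)).symm.toMonoidHom.toAdditive) =
      cores2B hqM A ψ := by
  ext γ
  show (mixData hqM).op A _ (Additive.ofMul γ) = cores2B hqM A ψ (Additive.ofMul γ)
  rw [CosetData.op_apply, cores2B_apply]
  rw [Fintype.sum_prod_type]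
  refine Finset.sum_congr rfl fun x _ => ?_
  rw [Fintype.sum_unique]
  show ψ (Additive.ofMul ((cdelMix (M := M) (q := q)).symm ((mixData hqM).c γ (x, ())))) = _
  rw [mixData_c, MulEquiv.symm_apply_apply]

end MixTrans

/-! ### The operators on the lattices -/

section LatOps

variable (M q : ℕ) [NeZero M] [Fact q.Prime]

/-- the second degeneracy map `L_M → L_{M q}` (any `M`) -/
def deg2L : ↥(VZ (Gamma0 M)) →ₗ[ℤ] ↥(VZ (Gamma0 (M * q))) :=
  ((CosetData.ofHom (cdel M q)).opₗ ℤ ℤ).restrict (p := VZ (Gamma0 M))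
    (q := VZ (Gamma0 (M * q))) (fun _ hφ => deg2_isParabolicHom M q hφ)

@[simp] theorem deg2L_coe (v : ↥(VZ (Gamma0 M))) :
    ((deg2L M q v : ↥(VZ (Gamma0 (M * q)))) : H (Gamma0 (M * q)) ℤ) = deg2 M q ℤ v.1 := rfl

variable {M q} (hqM : q ∣ M)

/-- the `δ`-twisted transfer `L_{M q} → L_M` (`q ∣ M`) -/
def cores2BL : ↥(VZ (Gamma0 (M * q))) →ₗ[ℤ] ↥(VZ (Gamma0 M)) :=
  ((betaData hqM).opₗ ℤ ℤ).restrict (p := VZ (Gamma0 (M * q)))
    (q := VZ (Gamma0 M)) (fun _ hψ => cores2B_isParabolicHom hqM hψ)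

@[simp] theorem cores2BL_coe (v : ↥(VZ (Gamma0 (M * q)))) :
    ((cores2BL hqM v : ↥(VZ (Gamma0 M))) : H (Gamma0 M) ℤ) = cores2B hqM ℤ v.1 := rfl

/-- `U_q` on `L_M` (`q ∣ M`) -/
def uL : Module.End ℤ ↥(VZ (Gamma0 M)) :=
  ((uData hqM).opₗ ℤ ℤ).restrict (p := VZ (Gamma0 M))
    (q := VZ (Gamma0 M)) (fun _ hφ => heckeU_isParabolicHom hqM hφ)

@[simp] theorem uL_coe (v : ↥(VZ (Gamma0 M))) :
    ((uL hqM v : ↥(VZ (Gamma0 M))) : H (Gamma0 M) ℤ) = heckeU hqM ℤ v.1 := rfl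

theorem cores2BL_resL (a : ↥(VZ (Gamma0 M))) : cores2BL hqM (resL M q a) = uL hqM a :=
  Subtype.ext (cores2B_res hqM a.1)

theorem cores2BL_deg2L (a : ↥(VZ (Gamma0 M))) : cores2BL hqM (deg2L M q a) = (q : ℤ) • a := by
  apply Subtype.ext
  rw [cores2BL_coe, deg2L_coe, cores2B_deg2, Submodule.coe_smul, natCast_zsmul]

end LatOps

/-! ### The form -/

section Form

variable {M q : ℕ} [NeZero M] [Fact q.Prime] (hqM : q ∣ M)
variable [Fintype (SL(2, ℤ) ⧸ Gamma0 M)] [Fintype (SL(2, ℤ) ⧸ Gamma0 (M * q))]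

include hqM in
/-- **Degree formula** for `q ∣ M`: `form_{M q} (res a) (res a') = q · form_M a a'`. -/
theorem form_resL_resL_of_dvd (a a' : ↥(VZ (Gamma0 M))) :
    form (Gamma0 (M * q)) (resL M q a) (resL M q a') = (q : ℤ) * form (Gamma0 M) a a' := by
  rw [form_resL_resL_relIndex, relIndex_gamma0_of_dvd hqM]

theorem trace_cdel (γ : ↥(Gamma0 (M * q))) :
    (((cdel M q γ : ↥(Gamma0 M)) : SL(2, ℤ)) : MZ).trace = ((γ : SL(2, ℤ)) : MZ).trace := by
  rw [Matrix.trace_fin_two, Matrix.trace_fin_two]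
  rfl

/-- transport of a class of level `M q` to `Γ₀(M) ∩ Γ⁰(q)` -/
def toMix (b : ↥(VZ (Gamma0 (M * q)))) : Lat (gammaMix M q) :=
  ⟨b.1.comp (cdelMix (M := M) (q := q)).symm.toMonoidHom.toAdditive, by
    intro g hg
    show b.1 (Additive.ofMul ((cdelMix (M := M) (q := q)).symm g)) = 0
    apply b.2
    have h1 := trace_cdel ((cdelMix (M := M) (q := q)).symm g)
    rw [← coe_cdelMix, MulEquiv.apply_symm_apply] at h1
    rw [← h1]
    exact hg⟩

theorem toMix_apply (b : ↥(VZ (Gamma0 (M * q)))) (g : ↥(gammaMix M q)) :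
    (toMix b).1 (Additive.ofMul g) =
      b.1 (Additive.ofMul ((cdelMix (M := M) (q := q)).symm g)) := rfl

/-- **Adjointness of `deg2` and `cores2B`** for the forms of levels `M q` and `M` (`q ∣ M`). -/
theorem form_deg2L_cores2BL (a : ↥(VZ (Gamma0 M))) (b : ↥(VZ (Gamma0 (M * q)))) :
    form (Gamma0 (M * q)) (deg2L M q a) b = form (Gamma0 M) a (cores2BL hqM b) := by
  classical
  have hbij := (isTransversal_unipT hqM).bijective (gammaMix_le M q)
  let _ : Fintype (SL(2, ℤ) ⧸ gammaMix M q) := Fintype.ofBijective _ hbij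
  have hq : (0 : ℤ) < (dq q).det := by
    rw [dq_det]
    exact_mod_cast (Fact.out : q.Prime).pos
  have e1 : form (Gamma0 (M * q)) (deg2L M q a) b =
      form (gammaMix M q) (resLat (gammaMix_le M q) a) (toMix b) := by
    refine form_conj (gamma0_neg_one_mem _) (neg_one_mem_gammaMix M q) (dq q) hq
      (cdelMix (M := M) (q := q)) cdelMix_int _ _ _ _ ?_ ?_
    · intro γ
      rw [deg2L_coe, deg2_apply, resLat_apply]
      rfl
    · intro γ
      rw [toMix_apply, MulEquiv.symm_apply_apply]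
  have e2 : form (gammaMix M q) (resLat (gammaMix_le M q) a) (toMix b) =
      form (Gamma0 M) a (cores2BL hqM b) := by
    refine form_resLat_cores (gammaMix_le M q) (neg_one_mem_gammaMix M q) (mixData hqM) _
      (isTransversal_unipT hqM) (mixData_rel hqM) a (toMix b) (cores2BL hqM b) ?_
    rw [cores2BL_coe]
    exact (mixData_op hqM b.1).symm
  rw [e1, e2]

end Form

end Fermat.Agent.S59lib.N3
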