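/-
S59lib / N3 / Cdel (helper2): the second degeneracy map at an ARBITRARY level.

`cdel M q : Γ₀(M q) →* Γ₀(M)`, `γ ↦ δ γ δ⁻¹ = (a, q b; c / q, d)` (`δ = diag(q, 1)`), with NO
hypothesis `q ∤ M` (S41lib's `conjDelta hqN` needs it); `deg2 M q : H(Γ₀(M)) → H(Γ₀(M q))`,
`φ ↦ φ ∘ cdel`.  For `q ∤ M` they agree with `conjDelta`, `deg`.  `deg2` preserves parabolic
classes and commutes with `T_ℓ` (`ℓ ∤ M q`).
-/
import Mathlib
import Fermat.Agent.S41lib.HC.Equivariance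
import Fermat.Agent.S41lib.HC.Parabolic
import Fermat.Agent.S43lib.B1.Comm

set_option autoImplicit false
set_option linter.unusedSectionVars false
set_option linter.unusedVariables false

noncomputable section

namespace Fermat.Agent.S59lib.N3

open UpperHalfPlane Matrix.SpecialLinearGroup CongruenceSubgroup ModularForm
open Fermat.Agent.S16lib.LH Fermat.Agent.S29lib.H Fermat.Agent.S31lib.PET
open Fermat.Agent.S41lib.HC Fermat.Agent.S43lib.B1 ModularCurve.Period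
open P2MW.S_ModularForm_heckeT_slash_eq_self_of_mem_Gamma0.ModularForm.HeckeSlashInvariance
open scoped MatrixGroups

/-- the integral matrix `δ = diag(q, 1)` -/
def dq (q : ℕ) : MZ := !![(q : ℤ), 0; 0, 1]

theorem dq_det (q : ℕ) : (dq q).det = q := by
  rw [dq, Matrix.det_fin_two_of]
  ring

section Cdel

variable (M q : ℕ) [NeZero q]

theorem dvd_lowerLeft (γ : ↥(Gamma0 (M * q))) :
    ((M * q : ℕ) : ℤ) ∣ ((γ : SL(2, ℤ)) : Matrix (Fin 2) (Fin 2) ℤ) 1 0 :=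
  (ZMod.intCast_zmod_eq_zero_iff_dvd _ _).mp (Gamma0_mem.mp γ.2)

theorem q_mul_div (γ : ↥(Gamma0 (M * q))) :
    (q : ℤ) * (((γ : SL(2, ℤ)) : Matrix (Fin 2) (Fin 2) ℤ) 1 0 / (q : ℤ)) =
      ((γ : SL(2, ℤ)) : Matrix (Fin 2) (Fin 2) ℤ) 1 0 := by
  apply Int.mul_ediv_cancel'
  refine Dvd.dvd.trans ?_ (dvd_lowerLeft M q γ)
  push_cast
  exact Dvd.intro_left _ rfl

/-- the matrix of `δ γ δ⁻¹` -/
def cdelMat (γ : ↥(Gamma0 (M * q))) : MZ :=
  !![((γ : SL(2, ℤ)) : Matrix (Fin 2) (Fin 2) ℤ) 0 0,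
    (q : ℤ) * ((γ : SL(2, ℤ)) : Matrix (Fin 2) (Fin 2) ℤ) 0 1;
    ((γ : SL(2, ℤ)) : Matrix (Fin 2) (Fin 2) ℤ) 1 0 / (q : ℤ),
    ((γ : SL(2, ℤ)) : Matrix (Fin 2) (Fin 2) ℤ) 1 1]

theorem cdelMat_det (γ : ↥(Gamma0 (M * q))) : (cdelMat M q γ).det = 1 := by
  have h := (γ : SL(2, ℤ)).det_coe
  rw [Matrix.det_fin_two] at h
  rw [cdelMat, Matrix.det_fin_two_of]
  have h2 := q_mul_div M q γ
  linear_combination h - ((γ : SL(2, ℤ)) : Matrix (Fin 2) (Fin 2) ℤ) 0 1 * h2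

theorem cdelMat_10 (γ : ↥(Gamma0 (M * q))) : (M : ℤ) ∣ cdelMat M q γ 1 0 := by
  show (M : ℤ) ∣ ((γ : SL(2, ℤ)) : Matrix (Fin 2) (Fin 2) ℤ) 1 0 / (q : ℤ)
  obtain ⟨k, hk⟩ := dvd_lowerLeft M q γ
  have hq0 : (q : ℤ) ≠ 0 := by exact_mod_cast NeZero.ne q
  refine ⟨k, ?_⟩
  rw [hk]
  push_cast
  rw [mul_comm (M : ℤ) (q : ℤ), mul_assoc, Int.mul_ediv_cancel_left _ hq0]

/-- `δ γ δ⁻¹` as an element of `Γ₀(M)` -/
def cdelFun (γ : ↥(Gamma0 (M * q))) : ↥(Gamma0 M) :=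
  ofMZ (cdelMat M q γ) (cdelMat_det M q γ) (cdelMat_10 M q γ)

@[simp] theorem toMZ_cdelFun (γ : ↥(Gamma0 (M * q))) : toMZ (cdelFun M q γ) = cdelMat M q γ := rfl

/-- the integral relation `δ γ = (δ γ δ⁻¹) δ` -/
theorem cdelFun_int (γ : ↥(Gamma0 (M * q))) :
    dq q * toMZ γ = toMZ (cdelFun M q γ) * dq q := by
  rw [toMZ_cdelFun]
  have h2 := q_mul_div M q γ
  ext i j
  fin_cases i <;> fin_cases j <;>
    simp [dq, cdelMat, toMZ, Matrix.mul_apply, Fin.sum_univ_two]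
  · ring
  · linear_combination -h2

/-- `γ ↦ δ γ δ⁻¹`, `Γ₀(M q) →* Γ₀(M)` -/
def cdel : ↥(Gamma0 (M * q)) →* ↥(Gamma0 M) :=
  MonoidHom.mk' (cdelFun M q) (by
    intro a b
    apply toMZ_injective
    have hq0 : (dq q).det ≠ 0 := by
      rw [dq_det]
      exact_mod_cast NeZero.ne q
    refine MZ_mul_right_cancel hq0 ?_
    rw [← cdelFun_int, toMZ_mul, toMZ_mul, ← Matrix.mul_assoc, cdelFun_int, Matrix.mul_assoc,
      cdelFun_int, Matrix.mul_assoc])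

@[simp] theorem cdel_apply (γ : ↥(Gamma0 (M * q))) : cdel M q γ = cdelFun M q γ := rfl

theorem cdel_int (γ : ↥(Gamma0 (M * q))) : dq q * toMZ γ = toMZ (cdel M q γ) * dq q :=
  cdelFun_int M q γ

theorem coe_heckeDiagMatrix :
    ((heckeDiagMatrix q : GL (Fin 2) ℝ) : Matrix (Fin 2) (Fin 2) ℝ) =
      (dq q).map (Int.castRingHom ℝ) := by
  rw [val_heckeDiagMatrix (NeZero.ne q), dq]
  ext i j
  fin_cases i <;> fin_cases j <;> simp

/-- the relation in `GL₂(ℝ)` -/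
theorem cdel_rel (γ : ↥(Gamma0 (M * q))) :
    heckeDiagMatrix q * (mapGL ℝ (γ : SL(2, ℤ)) : GL (Fin 2) ℝ) =
      (mapGL ℝ ((cdel M q γ : ↥(Gamma0 M)) : SL(2, ℤ)) : GL (Fin 2) ℝ) * heckeDiagMatrix q := by
  apply Units.ext
  rw [Units.val_mul, Units.val_mul, coe_mapGL_int, coe_mapGL_int, coe_heckeDiagMatrix,
    ← Matrix.map_mul, ← Matrix.map_mul]
  exact congrArg (fun A : MZ => A.map (Int.castRingHom ℝ)) (cdel_int M q γ)

end Cdel

/-! ### Agreement with `conjDelta` -/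

section Agree

variable {N q : ℕ} [NeZero N] [Fact q.Prime] (hqN : ¬ q ∣ N)

instance neZero_of_fact_prime : NeZero q := ⟨(Fact.out : q.Prime).ne_zero⟩

theorem cdel_eq_conjDelta (γ : ↥(Gamma0 (N * q))) : cdel N q γ = conjDelta hqN γ := by
  apply toMZ_injective
  have hq0 : (dq q).det ≠ 0 := by
    rw [dq_det]
    exact_mod_cast (Fact.out : q.Prime).ne_zero
  refine MZ_mul_right_cancel hq0 ?_
  rw [← cdel_int]
  have h := tCoc_rel_int hqN (inclMul N q γ) OnePoint.infty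
  rw [tPerm_inclMul, repInt_infty] at h
  exact h

end Agree

/-! ### The operator `deg2` -/

section Deg2

variable (M q : ℕ) [NeZero q]

/-- the second degeneracy map `φ ↦ φ ∘ (δ · δ⁻¹)`, `H(Γ₀(M)) → H(Γ₀(M q))`, any `M` -/
def deg2 (A : Type*) [AddCommGroup A] : H (Gamma0 M) A →+ H (Gamma0 (M * q)) A :=
  (CosetData.ofHom (cdel M q)).op A

@[simp] theorem deg2_apply {A : Type*} [AddCommGroup A] (φ : H (Gamma0 M) A)
    (γ : ↥(Gamma0 (M * q))) :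
    deg2 M q A φ (Additive.ofMul γ) = φ (Additive.ofMul (cdel M q γ)) :=
  CosetData.ofHom_op_apply _ φ γ

theorem deg2_isParabolicHom {A : Type*} [AddCommGroup A] {φ : H (Gamma0 M) A}
    (hφ : IsParabolicHom (Gamma0 M) φ) : IsParabolicHom (Gamma0 (M * q)) (deg2 M q A φ) :=
  (CosetData.ofHom (cdel M q)).op_isParabolicHom (fun _ => heckeDiagMatrix q)
    (fun γ' _ => cdel_rel M q γ') hφ

end Deg2

theorem deg2_eq_deg {N q : ℕ} [NeZero N] [Fact q.Prime] (hqN : ¬ q ∣ N) {A : Type*}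
    [AddCommGroup A] (φ : H (Gamma0 N) A) : deg2 N q A φ = deg hqN A φ := by
  ext γ
  show deg2 N q A φ (Additive.ofMul γ) = deg hqN A φ (Additive.ofMul γ)
  rw [deg2_apply, deg_apply, cdel_eq_conjDelta hqN]

/-! ### Commutation of `deg2` with `T_ℓ` -/

section DegT

variable {M q ℓ : ℕ} [NeZero M] [Fact q.Prime] [Fact ℓ.Prime]
  (hℓM : ¬ ℓ ∣ M) (hℓMq : ¬ ℓ ∣ M * q)

/-- the cocycles of `T_ℓ` at the two levels are intertwined by `δ`-conjugation -/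
theorem cdel_tCoc (γ' : ↥(Gamma0 (M * q))) (y : OnePoint (ZMod ℓ)) :
    mulPerm hℓMq (tPerm ℓ γ' y) = tPerm ℓ (cdel M q γ') (mulPerm hℓMq y) ∧
    cdel M q (tCoc hℓMq γ' y) * degUnip hℓMq (tPerm ℓ γ' y) =
      degUnip hℓMq y * tCoc hℓM (cdel M q γ') (mulPerm hℓMq y) := by
  have h1 := tCoc_rel hℓMq γ' y
  have h2 := cdel_rel M q (tCoc hℓMq γ' y)
  have h3 := heckeDiag_mul_heckeRep (N := M) hℓMq (tPerm ℓ γ' y)
  have h4 := heckeDiag_mul_heckeRep (N := M) hℓMq y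
  have h5 := cdel_rel M q γ'
  have h6 := tCoc_rel hℓM (cdel M q γ') (mulPerm hℓMq y)
  have hA : heckeDiagMatrix q * heckeRep ℓ y * (mapGL ℝ (γ' : SL(2, ℤ)) : GL (Fin 2) ℝ) =
      (mapGL ℝ ((cdel M q (tCoc hℓMq γ' y) * degUnip hℓMq (tPerm ℓ γ' y) : ↥(Gamma0 M)) :
        SL(2, ℤ)) : GL (Fin 2) ℝ) * heckeRep ℓ (mulPerm hℓMq (tPerm ℓ γ' y)) *
        heckeDiagMatrix q := by
    rw [mul_assoc, h1, ← mul_assoc, h2, mul_assoc, h3, Subgroup.coe_mul, map_mul]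
    simp only [mul_assoc]
  have hB : heckeDiagMatrix q * heckeRep ℓ y * (mapGL ℝ (γ' : SL(2, ℤ)) : GL (Fin 2) ℝ) =
      (mapGL ℝ ((degUnip hℓMq y * tCoc hℓM (cdel M q γ') (mulPerm hℓMq y) : ↥(Gamma0 M)) :
        SL(2, ℤ)) : GL (Fin 2) ℝ) *
        heckeRep ℓ (tPerm ℓ (cdel M q γ') (mulPerm hℓMq y)) * heckeDiagMatrix q := by
    rw [h4, mul_assoc, h5, ← mul_assoc, mul_assoc _ (heckeRep ℓ (mulPerm hℓMq y)), h6,
      Subgroup.coe_mul, map_mul]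
    simp only [mul_assoc]
  have hC := mul_right_cancel (hA.symm.trans hB)
  obtain ⟨hy, hc⟩ := heckeRep_coset_unique hC
  exact ⟨hy, Subtype.ext hc⟩

/-- `deg2 ∘ T_ℓ = T_ℓ ∘ deg2` -/
theorem deg2_heckeT {A : Type*} [AddCommGroup A] (φ : H (Gamma0 M) A) :
    deg2 M q A (heckeT hℓM A φ) = heckeT hℓMq A (deg2 M q A φ) := by
  have key : ((CosetData.ofHom (cdel M q)).comp (tData hℓM)).op A =
      ((tData hℓMq).comp (CosetData.ofHom (cdel M q))).op A := by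
    refine CosetData.op_eq_of_conj ((tData hℓMq).comp (CosetData.ofHom (cdel M q)))
      ((CosetData.ofHom (cdel M q)).comp (tData hℓM))
      (((Equiv.prodComm _ _).trans
        (Equiv.prodCongr (Equiv.refl Unit) (mulPerm hℓMq))))
      (fun p => (degUnip (N := M) hℓMq p.1)⁻¹) ?_ A
    rintro γ' ⟨y, ⟨⟩⟩
    show tCoc hℓM (cdel M q γ') (mulPerm hℓMq y) =
      (degUnip hℓMq y)⁻¹ * cdel M q (tCoc hℓMq γ' y) *
        ((degUnip (N := M) hℓMq (tPerm ℓ γ' y))⁻¹)⁻¹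
    rw [inv_inv, mul_assoc, (cdel_tCoc hℓM hℓMq γ' y).2, inv_mul_cancel_left]
  have := congrArg (fun F => F φ) key
  rw [CosetData.comp_op, CosetData.comp_op] at this
  exact this

end DegT

end Fermat.Agent.S59lib.N3
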