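/-
S59lib / N3 / Abs (helper2): the abstract congruence-module growth lemma.

`𝒪` a principal ideal domain, `M` a finite `𝒪`-module with a (right) perfect pairing `B`,
`Λ ≤ M` a saturated submodule.  The congruence module of `Λ` is `M ⧸ (Λ ⊔ Λ^⊥)`; it is the cokernel
of the Gram map `Λ → Hom(Λ, 𝒪)`.  If `j : M → M'` is injective on `Λ`, `Λ' = j Λ` is saturated in
`M'` and `B' (j x) (j y) = c₀ * B x y` on `Λ`, then
`length (M' ⧸ (Λ' ⊔ Λ'^⊥)) = length (M ⧸ (Λ ⊔ Λ^⊥)) + rank Λ • length (𝒪 ⧸ c₀)`.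
-/
import Mathlib

set_option autoImplicit false

noncomputable section

namespace Fermat.Agent.S59lib.N3

open Module

variable {𝒪 : Type*} [CommRing 𝒪] [IsDomain 𝒪] [IsPrincipalIdealRing 𝒪]

/-! ### Quotient of a free module by a scalar -/

section Scalar

variable {F : Type*} [AddCommGroup F] [Module 𝒪 F]

/-- the submodule `c F` -/
def scal (F : Type*) [AddCommGroup F] [Module 𝒪 F] (c : 𝒪) : Submodule 𝒪 F :=
  LinearMap.range (LinearMap.lsmul 𝒪 F c)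

theorem mem_scal {c : 𝒪} {x : F} : x ∈ scal F c ↔ ∃ y : F, c • y = x := Iff.rfl

theorem scal_pi (n : ℕ) (c : 𝒪) :
    scal (Fin n → 𝒪) c = Submodule.pi Set.univ (fun _ : Fin n => (Ideal.span {c} : Ideal 𝒪)) := by
  ext x
  rw [mem_scal, Submodule.mem_pi]
  constructor
  · rintro ⟨y, rfl⟩ i _
    exact Ideal.mem_span_singleton'.mpr ⟨y i, by simp [mul_comm]⟩
  · intro h
    have h' : ∀ i, ∃ a, a * c = x i := fun i => Ideal.mem_span_singleton'.mp (h i (Set.mem_univ i))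
    choose y hy using h'
    exact ⟨y, funext fun i => by simp [← hy i, mul_comm]⟩

theorem length_quot_scal_pi (n : ℕ) (c : 𝒪) :
    Module.length 𝒪 ((Fin n → 𝒪) ⧸ scal (Fin n → 𝒪) c) =
      n * Module.length 𝒪 (𝒪 ⧸ (Ideal.span {c} : Ideal 𝒪)) := by
  rw [(Submodule.quotEquivOfEq _ _ (scal_pi n c)).length_eq,
    (Submodule.quotientPi (fun _ : Fin n => (Ideal.span {c} : Ideal 𝒪))).length_eq,
    Module.length_pi]
  simp

theorem length_quot_scal [Module.Free 𝒪 F] [Module.Finite 𝒪 F] (c : 𝒪) :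
    Module.length 𝒪 (F ⧸ scal F c) =
      Module.finrank 𝒪 F * Module.length 𝒪 (𝒪 ⧸ (Ideal.span {c} : Ideal 𝒪)) := by
  classical
  let b := Module.finBasis 𝒪 F
  let e : F ≃ₗ[𝒪] (Fin (Module.finrank 𝒪 F) → 𝒪) := b.equivFun
  have hmap : (scal F c).map (e : F →ₗ[𝒪] (Fin (Module.finrank 𝒪 F) → 𝒪)) =
      scal (Fin (Module.finrank 𝒪 F) → 𝒪) c := by
    ext x
    rw [Submodule.mem_map, mem_scal]
    constructor
    · rintro ⟨y, ⟨z, rfl⟩, rfl⟩
      exact ⟨e z, by simp⟩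
    · rintro ⟨y, rfl⟩
      exact ⟨c • e.symm y, ⟨e.symm y, rfl⟩, by simp⟩
  rw [← length_quot_scal_pi]
  exact (Submodule.Quotient.equiv (scal F c) (scal _ c) e hmap).length_eq

end Scalar

/-! ### The congruence module as the cokernel of the Gram map -/

section Cong

variable {M : Type*} [AddCommGroup M] [Module 𝒪 M]

/-- a submodule is saturated -/
def IsSat (Λ : Submodule 𝒪 M) : Prop := ∀ (a : 𝒪) (m : M), a ≠ 0 → a • m ∈ Λ → m ∈ Λ

/-- the right orthogonal `{m | ∀ x ∈ Λ, B x m = 0}` -/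
def rorth (B : M →ₗ[𝒪] M →ₗ[𝒪] 𝒪) (Λ : Submodule 𝒪 M) : Submodule 𝒪 M where
  carrier := {m | ∀ x ∈ Λ, B x m = 0}
  zero_mem' := by intro x _; simp
  add_mem' := by
    intro a b ha hb x hx
    rw [map_add, ha x hx, hb x hx, add_zero]
  smul_mem' := by
    intro c a ha x hx
    rw [map_smul, ha x hx, smul_zero]

theorem mem_rorth {B : M →ₗ[𝒪] M →ₗ[𝒪] 𝒪} {Λ : Submodule 𝒪 M} {m : M} :
    m ∈ rorth B Λ ↔ ∀ x ∈ Λ, B x m = 0 := Iff.rfl

/-- `m ↦ (x ↦ B x m)`, `M → Hom(Λ, 𝒪)` -/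
def pairTo (B : M →ₗ[𝒪] M →ₗ[𝒪] 𝒪) (Λ : Submodule 𝒪 M) : M →ₗ[𝒪] (Λ →ₗ[𝒪] 𝒪) :=
  (LinearMap.lcomp 𝒪 𝒪 Λ.subtype) ∘ₗ B.flip

@[simp] theorem pairTo_apply (B : M →ₗ[𝒪] M →ₗ[𝒪] 𝒪) (Λ : Submodule 𝒪 M) (m : M) (x : Λ) :
    pairTo B Λ m x = B x m := rfl

theorem ker_pairTo (B : M →ₗ[𝒪] M →ₗ[𝒪] 𝒪) (Λ : Submodule 𝒪 M) :
    LinearMap.ker (pairTo B Λ) = rorth B Λ := by
  ext m
  rw [LinearMap.mem_ker, mem_rorth]
  constructor
  · intro h x hx
    have := LinearMap.congr_fun h ⟨x, hx⟩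
    simpa using this
  · intro h
    ext x
    simpa using h x x.2

/-- the Gram map `Λ → Hom(Λ, 𝒪)`, `x ↦ (y ↦ B y x)` -/
def gram (B : M →ₗ[𝒪] M →ₗ[𝒪] 𝒪) (Λ : Submodule 𝒪 M) : Λ →ₗ[𝒪] (Λ →ₗ[𝒪] 𝒪) :=
  pairTo B Λ ∘ₗ Λ.subtype

@[simp] theorem gram_apply (B : M →ₗ[𝒪] M →ₗ[𝒪] 𝒪) (Λ : Submodule 𝒪 M) (x y : Λ) :
    gram B Λ x y = B y x := rfl

variable [Module.Finite 𝒪 M]

/-- a saturated submodule of a finite module over a PID is a direct summand: a retraction -/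
theorem exists_retraction {Λ : Submodule 𝒪 M} (hsat : IsSat Λ) :
    ∃ P : M →ₗ[𝒪] Λ, ∀ x : Λ, P x = x := by
  classical
  have hmk : ∀ m : M, Λ.mkQ m = 0 ↔ m ∈ Λ := fun m => by
    rw [Submodule.mkQ_apply, Submodule.Quotient.mk_eq_zero]
  have : Module.IsTorsionFree 𝒪 (M ⧸ Λ) := by
    refine ⟨fun a ha => ?_⟩
    have ha0 : a ≠ 0 := ha.ne_zero
    intro x y hxy
    obtain ⟨x, rfl⟩ := Submodule.mkQ_surjective Λ x
    obtain ⟨y, rfl⟩ := Submodule.mkQ_surjective Λ y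
    have h1 : Λ.mkQ (a • (x - y)) = 0 := by
      rw [smul_sub, map_sub, map_smul, map_smul]
      exact sub_eq_zero.mpr hxy
    have h3 := hsat a (x - y) ha0 ((hmk _).mp h1)
    have h4 : Λ.mkQ (x - y) = 0 := (hmk _).mpr h3
    rw [map_sub] at h4
    exact sub_eq_zero.mp h4
  obtain ⟨s, hs⟩ := Module.projective_lifting_property Λ.mkQ LinearMap.id
    (Submodule.mkQ_surjective Λ)
  have hs' : ∀ z, Λ.mkQ (s z) = z := fun z => LinearMap.congr_fun hs z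
  have hmem : ∀ m : M, m - s (Λ.mkQ m) ∈ Λ := by
    intro m
    rw [← hmk, map_sub, hs', sub_self]
  refine ⟨LinearMap.codRestrict Λ (LinearMap.id - s ∘ₗ Λ.mkQ) (fun m => hmem m), ?_⟩
  intro x
  apply Subtype.ext
  have hx0 : Λ.mkQ (x : M) = 0 := (hmk _).mpr x.2
  show (x : M) - s (Λ.mkQ (x : M)) = x
  rw [hx0, map_zero, sub_zero]

/-- `M → Hom(Λ, 𝒪)` is onto for a perfect pairing and a saturated `Λ` -/
theorem pairTo_surjective {B : M →ₗ[𝒪] M →ₗ[𝒪] 𝒪}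
    (hperf : ∀ f : M →ₗ[𝒪] 𝒪, ∃ m, ∀ x, B x m = f x) {Λ : Submodule 𝒪 M} (hsat : IsSat Λ) :
    Function.Surjective (pairTo B Λ) := by
  intro f
  obtain ⟨P, hP⟩ := exists_retraction hsat
  obtain ⟨m, hm⟩ := hperf (f ∘ₗ P)
  refine ⟨m, ?_⟩
  ext x
  rw [pairTo_apply, hm]
  simp [hP x]

/-- the congruence module is the cokernel of the Gram map -/
def congEquiv {B : M →ₗ[𝒪] M →ₗ[𝒪] 𝒪}
    (hperf : ∀ f : M →ₗ[𝒪] 𝒪, ∃ m, ∀ x, B x m = f x) {Λ : Submodule 𝒪 M} (hsat : IsSat Λ) :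
    (M ⧸ (Λ ⊔ rorth B Λ)) ≃ₗ[𝒪] ((Λ →ₗ[𝒪] 𝒪) ⧸ LinearMap.range (gram B Λ)) := by
  let ψ : M →ₗ[𝒪] ((Λ →ₗ[𝒪] 𝒪) ⧸ LinearMap.range (gram B Λ)) :=
    (LinearMap.range (gram B Λ)).mkQ ∘ₗ pairTo B Λ
  have hψ : Function.Surjective ψ :=
    (Submodule.mkQ_surjective _).comp (pairTo_surjective hperf hsat)
  have hker : LinearMap.ker ψ = Λ ⊔ rorth B Λ := by
    ext m
    rw [LinearMap.mem_ker]
    show (LinearMap.range (gram B Λ)).mkQ (pairTo B Λ m) = 0 ↔ _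
    rw [Submodule.mkQ_apply, Submodule.Quotient.mk_eq_zero, Submodule.mem_sup]
    constructor
    · rintro ⟨x, hx⟩
      refine ⟨x, x.2, m - x, ?_, by abel⟩
      rw [← ker_pairTo, LinearMap.mem_ker, map_sub, ← hx]
      exact sub_eq_zero.mpr rfl
    · rintro ⟨x, hx, y, hy, rfl⟩
      refine ⟨⟨x, hx⟩, ?_⟩
      rw [map_add]
      have : pairTo B Λ y = 0 := by
        rw [← LinearMap.mem_ker, ker_pairTo]
        exact hy
      rw [this, add_zero]
      rfl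
  exact (Submodule.quotEquivOfEq _ _ hker.symm).trans (LinearMap.quotKerEquivOfSurjective ψ hψ)

end Cong

/-! ### Growth of the congruence module -/

section Growth

theorem length_coker_smul {D X : Type*} [AddCommGroup D] [Module 𝒪 D] [Module.IsTorsionFree 𝒪 D]
    [AddCommGroup X] [Module 𝒪 X] (g : X →ₗ[𝒪] D) (c : 𝒪) (hc : c ≠ 0) :
    Module.length 𝒪 (D ⧸ LinearMap.range (c • g)) =
      Module.length 𝒪 (D ⧸ LinearMap.range g) + Module.length 𝒪 (D ⧸ scal D c) := by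
  have h1 : LinearMap.range g ≤ (LinearMap.range (c • g)).comap (LinearMap.lsmul 𝒪 D c) := by
    rintro _ ⟨x, rfl⟩
    exact ⟨x, rfl⟩
  have h2 : LinearMap.range (c • g) ≤ (scal D c).comap LinearMap.id := by
    rintro _ ⟨x, rfl⟩
    exact ⟨g x, rfl⟩
  let f₁ := Submodule.mapQ (LinearMap.range g) (LinearMap.range (c • g)) (LinearMap.lsmul 𝒪 D c) h1
  let f₂ := Submodule.mapQ (LinearMap.range (c • g)) (scal D c) LinearMap.id h2
  have hf₁ : Function.Injective f₁ := by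
    rw [← LinearMap.ker_eq_bot, LinearMap.ker_eq_bot']
    intro y hy
    obtain ⟨d, rfl⟩ := Submodule.mkQ_surjective _ y
    have hy' : Submodule.Quotient.mk (c • d) = (0 : D ⧸ LinearMap.range (c • g)) := hy
    rw [Submodule.Quotient.mk_eq_zero] at hy'
    obtain ⟨x, hx⟩ := hy'
    have hx' : c • g x = c • d := hx
    have : g x = d := smul_right_injective D hc hx'
    rw [Submodule.mkQ_apply, Submodule.Quotient.mk_eq_zero]
    exact ⟨x, this⟩
  have hf₂ : Function.Surjective f₂ := by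
    intro y
    obtain ⟨d, rfl⟩ := Submodule.mkQ_surjective _ y
    exact ⟨Submodule.Quotient.mk d, rfl⟩
  have hex : Function.Exact f₁ f₂ := by
    intro y
    obtain ⟨d, rfl⟩ := Submodule.mkQ_surjective _ y
    constructor
    · intro hy
      have hy' : Submodule.Quotient.mk d = (0 : D ⧸ scal D c) := hy
      rw [Submodule.Quotient.mk_eq_zero] at hy'
      obtain ⟨d', rfl⟩ := hy'
      exact ⟨Submodule.Quotient.mk d', rfl⟩
    · rintro ⟨y', hy'⟩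
      obtain ⟨d', rfl⟩ := Submodule.mkQ_surjective _ y'
      rw [← hy']
      show Submodule.Quotient.mk (c • d') = (0 : D ⧸ scal D c)
      rw [Submodule.Quotient.mk_eq_zero]
      exact ⟨d', rfl⟩
  exact Module.length_eq_add_of_exact f₁ f₂ hf₁ hf₂ hex

variable {M M' : Type*} [AddCommGroup M] [Module 𝒪 M] [AddCommGroup M'] [Module 𝒪 M']

/-- **Growth of the congruence module** under a map `j` that multiplies the Gram form of `Λ` by
`c₀` and maps `Λ` onto a saturated submodule. -/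
theorem length_cong_growth [Module.Finite 𝒪 M] [Module.Free 𝒪 M] [Module.Finite 𝒪 M']
    {B : M →ₗ[𝒪] M →ₗ[𝒪] 𝒪} {B' : M' →ₗ[𝒪] M' →ₗ[𝒪] 𝒪}
    (hperf : ∀ f : M →ₗ[𝒪] 𝒪, ∃ m, ∀ x, B x m = f x)
    (hperf' : ∀ f : M' →ₗ[𝒪] 𝒪, ∃ m, ∀ x, B' x m = f x)
    {Λ : Submodule 𝒪 M} (hsat : IsSat Λ) (j : M →ₗ[𝒪] M')
    (hinj : ∀ x ∈ Λ, j x = 0 → x = 0) (hsat' : IsSat (Λ.map j))
    (c₀ : 𝒪) (hc₀ : c₀ ≠ 0) (hgram : ∀ x ∈ Λ, ∀ y ∈ Λ, B' (j x) (j y) = c₀ * B x y) :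
    Module.length 𝒪 (M' ⧸ (Λ.map j ⊔ rorth B' (Λ.map j))) =
      Module.length 𝒪 (M ⧸ (Λ ⊔ rorth B Λ)) +
        Module.finrank 𝒪 Λ * Module.length 𝒪 (𝒪 ⧸ (Ideal.span {c₀} : Ideal 𝒪)) := by
  classical
  -- the equivalence `Λ ≃ Λ.map j`
  let jΛ : Λ →ₗ[𝒪] (Λ.map j) :=
    LinearMap.codRestrict (Λ.map j) (j ∘ₗ Λ.subtype) (fun x => Submodule.mem_map_of_mem x.2)
  have hjΛ : ∀ x : Λ, ((jΛ x : Λ.map j) : M') = j x := fun x => rfl
  have hbij : Function.Bijective jΛ := by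
    constructor
    · rw [← LinearMap.ker_eq_bot, LinearMap.ker_eq_bot']
      intro x hx
      apply Subtype.ext
      have : j x = 0 := by rw [← hjΛ, hx]; rfl
      exact hinj x x.2 this
    · rintro ⟨y, hy⟩
      obtain ⟨x, hx, rfl⟩ := Submodule.mem_map.mp hy
      exact ⟨⟨x, hx⟩, Subtype.ext rfl⟩
  let e : Λ ≃ₗ[𝒪] (Λ.map j) := LinearEquiv.ofBijective jΛ hbij
  have he : ∀ x : Λ, ((e x : Λ.map j) : M') = j x := fun x => rfl
  let eD : ((Λ.map j) →ₗ[𝒪] 𝒪) ≃ₗ[𝒪] (Λ →ₗ[𝒪] 𝒪) :=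
    LinearEquiv.arrowCongr e.symm (LinearEquiv.refl 𝒪 𝒪)
  have heD : ∀ (f : (Λ.map j) →ₗ[𝒪] 𝒪) (x : Λ), eD f x = f (e x) := fun f x => by
    simp [eD, LinearEquiv.arrowCongr_apply]
  have hmap : (LinearMap.range (gram B' (Λ.map j))).map (eD : _ →ₗ[𝒪] _) =
      LinearMap.range (c₀ • gram B Λ) := by
    have hkey : ∀ x : Λ, eD (gram B' (Λ.map j) (e x)) = (c₀ • gram B Λ) x := by
      intro x
      ext y
      rw [heD, gram_apply, he, he, hgram y y.2 x x.2]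
      rfl
    ext f
    rw [Submodule.mem_map]
    constructor
    · rintro ⟨_, ⟨x', rfl⟩, rfl⟩
      obtain ⟨x, rfl⟩ := e.surjective x'
      exact ⟨x, (hkey x).symm⟩
    · rintro ⟨x, rfl⟩
      exact ⟨gram B' (Λ.map j) (e x), ⟨e x, rfl⟩, hkey x⟩
  rw [(congEquiv hperf' hsat').length_eq, (congEquiv hperf hsat).length_eq,
    (Submodule.Quotient.equiv _ _ eD hmap).length_eq, length_coker_smul _ c₀ hc₀,
    length_quot_scal, Module.finrank_linearMap, Module.finrank_self, mul_one]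

end Growth

/-! ### The bridge to `M[𝔭] + M[Ann 𝔭]` -/

section Bridge

variable {M : Type*} [AddCommGroup M] [Module 𝒪 M]
variable {T : Type*} [CommRing T] [Algebra 𝒪 T] [Module T M] [IsScalarTower 𝒪 T M]

/-- the `I`-torsion of a `T`-module, as an `𝒪`-submodule -/
def tors (I : Ideal T) : Submodule 𝒪 M where
  carrier := {m | ∀ t ∈ I, t • m = 0}
  zero_mem' := by intro t _; simp
  add_mem' := by
    intro a b ha hb t ht
    rw [smul_add, ha t ht, hb t ht, add_zero]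
  smul_mem' := by
    intro c a ha t ht
    rw [smul_comm, ha t ht, smul_zero]

theorem mem_tors {I : Ideal T} {m : M} : m ∈ (tors I : Submodule 𝒪 M) ↔ ∀ t ∈ I, t • m = 0 :=
  Iff.rfl

/-- `M[𝔭]` is saturated in a torsion-free module -/
theorem isSat_tors [Module.IsTorsionFree 𝒪 M] (I : Ideal T) : IsSat (tors I : Submodule 𝒪 M) := by
  intro a m ha h t ht
  have := h t ht
  rw [smul_comm] at this
  exact (smul_eq_zero_iff_right ha).mp this

/-- For an augmentation `π : T → 𝒪` with kernel `𝔭` and a `T`-equivariant nondegenerate pairing,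
the orthogonal of `M[𝔭]` is `M[Ann 𝔭]`, as soon as `π (Ann 𝔭) ≠ 0`. -/
theorem rorth_tors_eq [Module.IsTorsionFree 𝒪 M] {B : M →ₗ[𝒪] M →ₗ[𝒪] 𝒪}
    (hadj : ∀ (t : T) (x y : M), B (t • x) y = B x (t • y))
    (hnd : ∀ m : M, (∀ x, B x m = 0) → m = 0)
    (π : T →ₐ[𝒪] 𝒪) {s₀ : T} (hs₀ : ∀ t ∈ RingHom.ker π, s₀ * t = 0) (hπs₀ : π s₀ ≠ 0) :
    rorth B (tors (RingHom.ker π) : Submodule 𝒪 M) =
      tors (Submodule.annihilator (RingHom.ker π : Ideal T) : Ideal T) := by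
  ext m
  rw [mem_rorth, mem_tors]
  constructor
  · intro h s hs
    apply hnd
    intro y
    rw [← hadj]
    apply h
    intro t ht
    rw [smul_smul]
    have : t * s = 0 := by
      rw [mul_comm]
      exact (Submodule.mem_annihilator.mp hs) t ht
    rw [this, zero_smul]
  · intro h x hx
    have hs₀ann : s₀ ∈ (Submodule.annihilator (RingHom.ker π : Ideal T) : Ideal T) := by
      rw [Submodule.mem_annihilator]
      intro t ht
      exact hs₀ t ht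
    have h1 : s₀ • m = 0 := h s₀ hs₀ann
    have h2 : s₀ • x = π s₀ • x := by
      have hk : s₀ - algebraMap 𝒪 T (π s₀) ∈ RingHom.ker π := by
        rw [RingHom.mem_ker, map_sub, AlgHom.commutes, Algebra.algebraMap_self_apply, sub_self]
      have := hx _ hk
      rw [sub_smul, algebraMap_smul] at this
      exact sub_eq_zero.mp this
    have h3 : π s₀ • B x m = 0 := by
      rw [← LinearMap.smul_apply, ← map_smul, ← h2, hadj, h1, map_zero]
    exact (smul_eq_zero_iff_right hπs₀).mp h3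

end Bridge

end Fermat.Agent.S59lib.N3
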