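/-
S59lib / N3 / Bound (helper2): upper bounds for the congruence module `M ⧸ (Λ + Λ^⊥)`.

* `length_cong_le` : `η M ⊆ Λ + Λ^⊥` ⇒ `length ≤ rank Λ · length 𝒪/η`;
* `length_cong_tors_le` : for a self-adjoint `T`-action, `π : T → 𝒪`, `s₀ ∈ Ann (ker π)`:
  `length (M ⧸ (M[𝔭] + M[𝔭]^⊥)) ≤ rank M[𝔭] · length 𝒪/(π s₀)`.
-/
import Mathlib
import Fermat.Agent.S59lib.N3.Abs

set_option autoImplicit false

noncomputable section

namespace Fermat.Agent.S59lib.N3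

open Module

variable {𝒪 : Type*} [CommRing 𝒪] [IsDomain 𝒪] [IsPrincipalIdealRing 𝒪]

section Bound

variable {M : Type*} [AddCommGroup M] [Module 𝒪 M] [Module.Finite 𝒪 M] [Module.Free 𝒪 M]

/-- **Upper bound for the congruence module**: if `η M ⊆ Λ + Λ^⊥` then
`length (M ⧸ (Λ + Λ^⊥)) ≤ rank Λ · length (𝒪 ⧸ η)`. -/
theorem length_cong_le {B : M →ₗ[𝒪] M →ₗ[𝒪] 𝒪}
    (hperf : ∀ f : M →ₗ[𝒪] 𝒪, ∃ m, ∀ x, B x m = f x) {Λ : Submodule 𝒪 M} (hsat : IsSat Λ)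
    (η : 𝒪) (hη : ∀ m : M, η • m ∈ Λ ⊔ rorth B Λ) :
    Module.length 𝒪 (M ⧸ (Λ ⊔ rorth B Λ)) ≤
      Module.finrank 𝒪 Λ * Module.length 𝒪 (𝒪 ⧸ (Ideal.span {η} : Ideal 𝒪)) := by
  classical
  rw [(congEquiv hperf hsat).length_eq]
  -- `η` kills the cokernel of the Gram map
  have hle : scal (Λ →ₗ[𝒪] 𝒪) η ≤ LinearMap.range (gram B Λ) := by
    rintro _ ⟨f, rfl⟩
    obtain ⟨m, rfl⟩ := pairTo_surjective hperf hsat f
    obtain ⟨x, hx, z, hz, hxz⟩ := Submodule.mem_sup.mp (hη m)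
    refine ⟨⟨x, hx⟩, ?_⟩
    show gram B Λ ⟨x, hx⟩ = η • pairTo B Λ m
    rw [← map_smul, ← hxz, map_add]
    have : pairTo B Λ z = 0 := by
      rw [← LinearMap.mem_ker, ker_pairTo]
      exact hz
    rw [this, add_zero]
    rfl
  have hsurj : Function.Surjective
      (Submodule.mapQ (scal (Λ →ₗ[𝒪] 𝒪) η) (LinearMap.range (gram B Λ)) LinearMap.id hle) := by
    intro y
    obtain ⟨d, rfl⟩ := Submodule.mkQ_surjective _ y
    exact ⟨Submodule.Quotient.mk d, rfl⟩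
  refine (Module.length_le_of_surjective _ hsurj).trans ?_
  rw [length_quot_scal, Module.finrank_linearMap, Module.finrank_self, mul_one]

/-- **`η_T`-bound**: for a self-adjoint `T`-action and an augmentation `π : T → 𝒪`, every
`s₀ ∈ Ann (ker π)` gives `length (M ⧸ (M[𝔭] + M[𝔭]^⊥)) ≤ rank M[𝔭] · length (𝒪 ⧸ π s₀)`. -/
theorem length_cong_tors_le {T : Type*} [CommRing T] [Algebra 𝒪 T] [Module T M]
    [IsScalarTower 𝒪 T M] {B : M →ₗ[𝒪] M →ₗ[𝒪] 𝒪}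
    (hperf : ∀ f : M →ₗ[𝒪] 𝒪, ∃ m, ∀ x, B x m = f x)
    (hadj : ∀ (t : T) (x y : M), B (t • x) y = B x (t • y))
    (π : T →ₐ[𝒪] 𝒪) (s₀ : T) (hs₀ : ∀ t ∈ RingHom.ker π, s₀ * t = 0) :
    Module.length 𝒪 (M ⧸ ((tors (RingHom.ker π) : Submodule 𝒪 M) ⊔
        rorth B (tors (RingHom.ker π) : Submodule 𝒪 M))) ≤
      Module.finrank 𝒪 (tors (RingHom.ker π) : Submodule 𝒪 M) *
        Module.length 𝒪 (𝒪 ⧸ (Ideal.span {π s₀} : Ideal 𝒪)) := by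
  apply length_cong_le hperf (isSat_tors _)
  intro m
  have hk : algebraMap 𝒪 T (π s₀) - s₀ ∈ RingHom.ker π := by
    rw [RingHom.mem_ker, map_sub, AlgHom.commutes, Algebra.algebraMap_self_apply, sub_self]
  have hsplit : π s₀ • m = s₀ • m + (algebraMap 𝒪 T (π s₀) - s₀) • m := by
    rw [sub_smul, algebraMap_smul]
    abel
  rw [hsplit]
  apply Submodule.add_mem_sup
  · intro t ht
    rw [smul_smul, mul_comm, hs₀ t ht, zero_smul]
  · intro x hx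
    rw [← hadj, hx _ hk, LinearMap.map_zero₂]

end Bound

end Fermat.Agent.S59lib.N3
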