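/-
S59lib / N3 / Gram (helper2): the three degeneracy maps `L_N → L_{N q²}` (`q ∤ N`), their Gram
matrix, the action of `U_q`, and the `U_q = 0` combination `j = q ξ₀ - ξ₁ T_q + ξ₂`:

`form_{N q²} (j x) (j y) = form_N x (q (q - 1) ((q + 1)² - T_q²) y)`,  `U_q ∘ j = 0`,
`T_ℓ ∘ j = j ∘ T_ℓ` (`ℓ ∤ N q`).
-/
import Mathlib
import Fermat.Agent.S59lib.N3.Lat2
import Fermat.Agent.S41lib.PD.Isometry
import Fermat.Agent.S41lib.PD.ResCoresGamma0
import Fermat.Agent.S41lib.BR.LatticeComm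

set_option autoImplicit false
set_option linter.unusedSectionVars false
set_option linter.unusedVariables false

noncomputable section

namespace Fermat.Agent.S59lib.N3

open Matrix.SpecialLinearGroup CongruenceSubgroup
open Fermat.Agent.S16lib.LH Fermat.Agent.S29lib.H Fermat.Agent.S31lib.PET
open Fermat.Agent.S41lib.HC Fermat.Agent.S41lib.BR Fermat.Agent.S41lib.PD
open Fermat.Agent.S43lib.B1 Fermat.Agent.S16lib.LG ModularCurve.Period
open Fermat.Agent.ProgramR.ES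
open scoped MatrixGroups

variable {N q : ℕ} [NeZero N] [Fact q.Prime] (hqN : ¬ q ∣ N)

/-! ### First level: `N → N q` -/

section First

theorem deg2L_eq_degL (x : ↥(VZ (Gamma0 N))) : deg2L N q x = degL hqN x :=
  Subtype.ext (deg2_eq_deg hqN x.1)

/-- `U_q (res x) = res (T_q x) - deg x` -/
theorem uL_resL (x : ↥(VZ (Gamma0 N))) :
    uL (dvd_mul_left q N) (resL N q x) =
      resL N q (tL (Fact.out : q.Prime) hqN x) - deg2L N q x := by
  apply Subtype.ext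
  have h := res_heckeT_self hqN x.1
  rw [Submodule.coe_sub, uL_coe, resL_coe, resL_coe, tL_coe, deg2L_coe, deg2_eq_deg hqN, h]
  abel

/-- `U_q (deg x) = q • res x` -/
theorem uL_deg2L (x : ↥(VZ (Gamma0 N))) :
    uL (dvd_mul_left q N) (deg2L N q x) = (q : ℤ) • resL N q x := by
  apply Subtype.ext
  rw [uL_coe, deg2L_coe, heckeU_deg2, Submodule.coe_smul, resL_coe, natCast_zsmul]

variable [Fintype (SL(2, ℤ) ⧸ Gamma0 N)] [Fintype (SL(2, ℤ) ⧸ Gamma0 (N * q))]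

/-- `T_q` is self-adjoint -/
theorem form_tL_self (x y : ↥(VZ (Gamma0 N))) :
    form (Gamma0 N) (tL (Fact.out : q.Prime) hqN x) y =
      form (Gamma0 N) x (tL (Fact.out : q.Prime) hqN y) := by
  have h := hsaB_of_alIsometry alIsometry (Fact.out : q.Prime) hqN x y
  rwa [formBil_apply, formBil_apply] at h

theorem form_resL_deg2L (x y : ↥(VZ (Gamma0 N))) :
    form (Gamma0 (N * q)) (resL N q x) (deg2L N q y) =
      form (Gamma0 N) x (tL (Fact.out : q.Prime) hqN y) := by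
  rw [deg2L_eq_degL hqN, form_resL_coresAL hqN, coresAL_degL]

theorem form_deg2L_resL (x y : ↥(VZ (Gamma0 N))) :
    form (Gamma0 (N * q)) (deg2L N q x) (resL N q y) =
      form (Gamma0 N) x (tL (Fact.out : q.Prime) hqN y) := by
  rw [form_swap (gamma0_neg_one_mem _), form_resL_deg2L hqN, form_swap (gamma0_neg_one_mem _),
    neg_neg, form_tL_self hqN]

include hqN in
theorem form_deg2L_deg2L (x y : ↥(VZ (Gamma0 N))) :
    form (Gamma0 (N * q)) (deg2L N q x) (deg2L N q y) =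
      ((q : ℤ) + 1) * form (Gamma0 N) x y := by
  obtain ⟨x', y', z', w', h⟩ := exists_alData (M := N) (Fact.out : q.Prime) hqN
  rw [deg2L_eq_degL hqN, deg2L_eq_degL hqN, ← alWL_resL hqN x' y' z' w' h,
    ← alWL_resL hqN x' y' z' w' h y, form_alWL, form_resL_resL hqN]

end First

/-! ### The three maps -/

section Three

/-- `res ∘ deg = deg ∘ res` -/
theorem resL_deg2L (x : ↥(VZ (Gamma0 N))) :
    resL (N * q) q (deg2L N q x) = deg2L (N * q) q (resL N q x) := by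
  apply Subtype.ext
  apply AddMonoidHom.ext
  intro γ
  obtain ⟨γ, rfl⟩ := Additive.ofMul.surjective γ
  rw [resL_coe, res_apply, deg2L_coe, deg2_apply, deg2L_coe, deg2_apply, resL_coe, res_apply]
  congr 2

/-- `ξ₀ = res ∘ res` -/
def xi0 (N q : ℕ) [NeZero N] [Fact q.Prime] :
    ↥(VZ (Gamma0 N)) →ₗ[ℤ] ↥(VZ (Gamma0 (N * q * q))) :=
  (resL (N * q) q).comp (resL N q)

/-- `ξ₁ = res ∘ deg = deg ∘ res` -/
def xi1 (N q : ℕ) [NeZero N] [Fact q.Prime] :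
    ↥(VZ (Gamma0 N)) →ₗ[ℤ] ↥(VZ (Gamma0 (N * q * q))) :=
  (resL (N * q) q).comp (deg2L N q)

/-- `ξ₂ = deg ∘ deg` -/
def xi2 (N q : ℕ) [NeZero N] [Fact q.Prime] :
    ↥(VZ (Gamma0 N)) →ₗ[ℤ] ↥(VZ (Gamma0 (N * q * q))) :=
  (deg2L (N * q) q).comp (deg2L N q)

theorem xi0_apply (x : ↥(VZ (Gamma0 N))) : xi0 N q x = resL (N * q) q (resL N q x) := rfl
theorem xi1_apply (x : ↥(VZ (Gamma0 N))) : xi1 N q x = resL (N * q) q (deg2L N q x) := rfl
theorem xi1_apply' (x : ↥(VZ (Gamma0 N))) : xi1 N q x = deg2L (N * q) q (resL N q x) :=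
  resL_deg2L x
theorem xi2_apply (x : ↥(VZ (Gamma0 N))) : xi2 N q x = deg2L (N * q) q (deg2L N q x) := rfl

/-- the `U_q = 0` combination `j = q ξ₀ - ξ₁ T_q + ξ₂` -/
def jmap : ↥(VZ (Gamma0 N)) →ₗ[ℤ] ↥(VZ (Gamma0 (N * q * q))) :=
  (q : ℤ) • xi0 N q - (xi1 N q).comp (tL (Fact.out : q.Prime) hqN) + xi2 N q

theorem jmap_apply (x : ↥(VZ (Gamma0 N))) :
    jmap hqN x = (q : ℤ) • xi0 N q x - xi1 N q (tL (Fact.out : q.Prime) hqN x) + xi2 N q x := rfl

/-! ### The action of `U_q` -/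

theorem uL_resL_of_dvd {M : ℕ} [NeZero M] (hqM : q ∣ M) (u : ↥(VZ (Gamma0 M))) :
    uL (dvd_mul_left q M) (resL M q u) = resL M q (uL hqM u) :=
  Subtype.ext (heckeU_res hqM u.1)

theorem uL_deg2L_gen {M : ℕ} [NeZero M] (u : ↥(VZ (Gamma0 M))) :
    uL (dvd_mul_left q M) (deg2L M q u) = (q : ℤ) • resL M q u := by
  apply Subtype.ext
  rw [uL_coe, deg2L_coe, heckeU_deg2, Submodule.coe_smul, resL_coe, natCast_zsmul]

theorem uL_xi0 (x : ↥(VZ (Gamma0 N))) :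
    uL (dvd_mul_left q (N * q)) (xi0 N q x) =
      xi0 N q (tL (Fact.out : q.Prime) hqN x) - xi1 N q x := by
  rw [xi0_apply, uL_resL_of_dvd (dvd_mul_left q N), uL_resL hqN, map_sub]
  rfl

theorem uL_xi1 (x : ↥(VZ (Gamma0 N))) :
    uL (dvd_mul_left q (N * q)) (xi1 N q x) = (q : ℤ) • xi0 N q x := by
  rw [xi1_apply', uL_deg2L_gen]
  rfl

theorem uL_xi2 (x : ↥(VZ (Gamma0 N))) :
    uL (dvd_mul_left q (N * q)) (xi2 N q x) = (q : ℤ) • xi1 N q x := by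
  rw [xi2_apply, uL_deg2L_gen]
  rfl

/-- **`U_q ∘ j = 0`** -/
theorem uL_jmap (x : ↥(VZ (Gamma0 N))) : uL (dvd_mul_left q (N * q)) (jmap hqN x) = 0 := by
  rw [jmap_apply, map_add, map_sub, map_smul, uL_xi0 hqN, uL_xi1, uL_xi2, smul_sub]
  abel

end Three

/-! ### The Gram matrix -/

section GramSec

variable [Fintype (SL(2, ℤ) ⧸ Gamma0 N)] [Fintype (SL(2, ℤ) ⧸ Gamma0 (N * q))]
  [Fintype (SL(2, ℤ) ⧸ Gamma0 (N * q * q))]

include hqN in
theorem gram00 (x y : ↥(VZ (Gamma0 N))) :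
    form (Gamma0 (N * q * q)) (xi0 N q x) (xi0 N q y) =
      (q : ℤ) * (((q : ℤ) + 1) * form (Gamma0 N) x y) := by
  rw [xi0_apply, xi0_apply, form_resL_resL_of_dvd (dvd_mul_left q N), form_resL_resL hqN]

theorem gram01 (x y : ↥(VZ (Gamma0 N))) :
    form (Gamma0 (N * q * q)) (xi0 N q x) (xi1 N q y) =
      (q : ℤ) * form (Gamma0 N) x (tL (Fact.out : q.Prime) hqN y) := by
  rw [xi0_apply, xi1_apply, form_resL_resL_of_dvd (dvd_mul_left q N), form_resL_deg2L hqN]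

theorem gram10 (x y : ↥(VZ (Gamma0 N))) :
    form (Gamma0 (N * q * q)) (xi1 N q x) (xi0 N q y) =
      (q : ℤ) * form (Gamma0 N) x (tL (Fact.out : q.Prime) hqN y) := by
  rw [xi0_apply, xi1_apply, form_resL_resL_of_dvd (dvd_mul_left q N), form_deg2L_resL hqN]

include hqN in
theorem gram11 (x y : ↥(VZ (Gamma0 N))) :
    form (Gamma0 (N * q * q)) (xi1 N q x) (xi1 N q y) =
      (q : ℤ) * (((q : ℤ) + 1) * form (Gamma0 N) x y) := by
  rw [xi1_apply, xi1_apply, form_resL_resL_of_dvd (dvd_mul_left q N), form_deg2L_deg2L hqN]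

theorem gram20 (x y : ↥(VZ (Gamma0 N))) :
    form (Gamma0 (N * q * q)) (xi2 N q x) (xi0 N q y) =
      form (Gamma0 N) x (tL (Fact.out : q.Prime) hqN (tL (Fact.out : q.Prime) hqN y)) -
        ((q : ℤ) + 1) * form (Gamma0 N) x y := by
  rw [xi2_apply, xi0_apply, form_deg2L_cores2BL (dvd_mul_left q N), cores2BL_resL, uL_resL hqN,
    ← formBil_apply (gamma0_neg_one_mem _), map_sub, formBil_apply, formBil_apply,
    form_deg2L_resL hqN, form_deg2L_deg2L hqN]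

theorem gram21 (x y : ↥(VZ (Gamma0 N))) :
    form (Gamma0 (N * q * q)) (xi2 N q x) (xi1 N q y) =
      (q : ℤ) * form (Gamma0 N) x (tL (Fact.out : q.Prime) hqN y) := by
  rw [xi2_apply, xi1_apply', form_deg2L_cores2BL (dvd_mul_left q N), cores2BL_deg2L,
    form_smul_right (gamma0_neg_one_mem _), form_deg2L_resL hqN]

include hqN in
theorem gram22 (x y : ↥(VZ (Gamma0 N))) :
    form (Gamma0 (N * q * q)) (xi2 N q x) (xi2 N q y) =
      (q : ℤ) * (((q : ℤ) + 1) * form (Gamma0 N) x y) := by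
  rw [xi2_apply, xi2_apply, form_deg2L_cores2BL (dvd_mul_left q N), cores2BL_deg2L,
    form_smul_right (gamma0_neg_one_mem _), form_deg2L_deg2L hqN]

theorem gram02 (x y : ↥(VZ (Gamma0 N))) :
    form (Gamma0 (N * q * q)) (xi0 N q x) (xi2 N q y) =
      form (Gamma0 N) x (tL (Fact.out : q.Prime) hqN (tL (Fact.out : q.Prime) hqN y)) -
        ((q : ℤ) + 1) * form (Gamma0 N) x y := by
  rw [form_swap (gamma0_neg_one_mem _), gram20 hqN, form_swap (gamma0_neg_one_mem _) x y,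
    ← form_tL_self hqN, ← form_tL_self hqN,
    form_swap (gamma0_neg_one_mem _) x (tL (Fact.out : q.Prime) hqN (tL (Fact.out : q.Prime) hqN y))]
  ring

theorem gram12 (x y : ↥(VZ (Gamma0 N))) :
    form (Gamma0 (N * q * q)) (xi1 N q x) (xi2 N q y) =
      (q : ℤ) * form (Gamma0 N) x (tL (Fact.out : q.Prime) hqN y) := by
  rw [form_swap (gamma0_neg_one_mem _), gram21 hqN, ← form_tL_self hqN,
    form_swap (gamma0_neg_one_mem _) x (tL (Fact.out : q.Prime) hqN y)]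
  ring

/-- **The Gram formula**: `form_{N q²} (j x) (j y) = q (q - 1) ((q + 1)² ⟨x, y⟩ - ⟨x, T_q² y⟩)`. -/
theorem form_jmap (x y : ↥(VZ (Gamma0 N))) :
    form (Gamma0 (N * q * q)) (jmap hqN x) (jmap hqN y) =
      (q : ℤ) * ((q : ℤ) - 1) * ((((q : ℤ) + 1) ^ 2) * form (Gamma0 N) x y -
        form (Gamma0 N) x (tL (Fact.out : q.Prime) hqN (tL (Fact.out : q.Prime) hqN y))) := by
  have hneg := gamma0_neg_one_mem (N * q * q)
  rw [jmap_apply, jmap_apply]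
  simp only [← formBil_apply hneg, map_add, map_sub, map_smul, LinearMap.add_apply,
    LinearMap.sub_apply, LinearMap.smul_apply]
  simp only [formBil_apply, gram00 hqN, gram01 hqN, gram02 hqN, gram10 hqN, gram11 hqN,
    gram12 hqN, gram20 hqN, gram21 hqN, gram22 hqN, ← form_tL_self hqN, smul_eq_mul]
  ring

end GramSec

/-! ### Hecke equivariance, `ℓ ∤ N q` -/

section Equivariance

variable {ℓ : ℕ} (hℓ : ℓ.Prime)

theorem deg2L_tL {M : ℕ} [NeZero M] (hℓM : ¬ ℓ ∣ M) (hℓMq : ¬ ℓ ∣ M * q)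
    (a : ↥(VZ (Gamma0 M))) :
    deg2L M q (tL hℓ hℓM a) = tL hℓ hℓMq (deg2L M q a) := by
  have : Fact ℓ.Prime := ⟨hℓ⟩
  exact Subtype.ext (deg2_heckeT hℓM hℓMq a.1)

variable (hℓN : ¬ ℓ ∣ N) (hℓNq : ¬ ℓ ∣ N * q) (hℓNqq : ¬ ℓ ∣ N * q * q)

include hℓNq in
theorem xi0_tL (a : ↥(VZ (Gamma0 N))) :
    xi0 N q (tL hℓ hℓN a) = tL hℓ hℓNqq (xi0 N q a) := by
  rw [xi0_apply, xi0_apply, resL_tL hℓ hℓN hℓNq, resL_tL hℓ hℓNq hℓNqq]

include hℓNq in
theorem xi1_tL (a : ↥(VZ (Gamma0 N))) :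
    xi1 N q (tL hℓ hℓN a) = tL hℓ hℓNqq (xi1 N q a) := by
  rw [xi1_apply, xi1_apply, deg2L_tL hℓ hℓN hℓNq, resL_tL hℓ hℓNq hℓNqq]

include hℓNq in
theorem xi2_tL (a : ↥(VZ (Gamma0 N))) :
    xi2 N q (tL hℓ hℓN a) = tL hℓ hℓNqq (xi2 N q a) := by
  rw [xi2_apply, xi2_apply, deg2L_tL hℓ hℓN hℓNq, deg2L_tL hℓ hℓNq hℓNqq]

include hℓNq in
/-- **`j ∘ T_ℓ = T_ℓ ∘ j`** for `ℓ ∤ N q` -/
theorem jmap_tL (a : ↥(VZ (Gamma0 N))) :
    jmap hqN (tL hℓ hℓN a) = tL hℓ hℓNqq (jmap hqN a) := by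
  have hc : tL (Fact.out : q.Prime) hqN (tL hℓ hℓN a) =
      tL hℓ hℓN (tL (Fact.out : q.Prime) hqN a) := by
    have h := tL_comm (Fact.out : q.Prime) hqN hℓ hℓN
    exact congrArg (fun f => f a) h.eq
  rw [jmap_apply, jmap_apply, map_add, map_sub, map_smul, xi0_tL hℓ hℓN hℓNq hℓNqq, hc,
    xi1_tL hℓ hℓN hℓNq hℓNqq, xi2_tL hℓ hℓN hℓNq hℓNqq]

end Equivariance

end Fermat.Agent.S59lib.N3
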