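/-
S59lib / N3 / GrpExt (helper2): abstract group theory for the saturation step.

* `transfer_of_normal`: the transfer `G → A` of `ϕ : H → A` restricted to a normal subgroup `K ≤ H`
  of `G` on which `ϕ` is `G`-invariant is `ϕ ^ [G : H]`.
* `transfer_eq_one_of_conj_pow`: the transfer kills `g` as soon as `ϕ` kills all the
  `t⁻¹ g ^ m t ∈ H`.
* `exists_extension_of_inverting`: extension of an invariant homomorphism `Ψ : ker ρ → A` across a
  cyclic quotient inverted by an element of the ambient group (`A` uniquely `2`-divisible).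
* `exists_extension_of_index`: extension from a subgroup of index prime to the exponent of `A`.
-/
import Mathlib

set_option autoImplicit false
set_option linter.unusedSectionVars false
set_option linter.unusedVariables false

noncomputable section

namespace Fermat.Agent.S59lib.N3

open Subgroup MonoidHom

section Transfer

variable {G : Type*} [Group G] {H : Subgroup G} [H.FiniteIndex] {A : Type*} [CommGroup A]
  (ϕ : H →* A)

/-- the transfer on a normal subgroup `K ≤ H` of `G` on which `ϕ` is `G`-invariant -/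
theorem transfer_of_normal (K : Subgroup G) [K.Normal] (hKH : K ≤ H)
    (hinv : ∀ (g k : G) (hk : k ∈ K) (h' : g⁻¹ * k * g ∈ H),
      ϕ ⟨g⁻¹ * k * g, h'⟩ = ϕ ⟨k, hKH hk⟩)
    (k : G) (hk : k ∈ K) : transfer ϕ k = ϕ ⟨k, hKH hk⟩ ^ H.index := by
  classical
  let T : H.LeftTransversal := default
  rw [transfer_def ϕ T k]
  unfold leftTransversals.diff
  simp only
  have hfix : ∀ q : G ⧸ H, k⁻¹ • q = q := by
    intro q
    induction q using QuotientGroup.induction_on with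
    | H g =>
      show ((k⁻¹ * g : G) : G ⧸ H) = (g : G ⧸ H)
      rw [QuotientGroup.eq]
      apply hKH
      have h1 : (k⁻¹ * g)⁻¹ * g = g⁻¹ * k * g := by group
      rw [h1]
      have := ‹K.Normal›.conj_mem k hk g⁻¹
      simpa using this
  have hterm : ∀ q : G ⧸ H,
      ((T.2.leftQuotientEquiv q : G))⁻¹ * ((k • T).2.leftQuotientEquiv q : G) =
        ((T.2.leftQuotientEquiv q : G))⁻¹ * k * (T.2.leftQuotientEquiv q : G) := by
    intro q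
    rw [smul_apply_eq_smul_apply_inv_smul, hfix q, smul_eq_mul, mul_assoc]
  let _ := H.fintypeQuotientOfFiniteIndex
  have hprod : ∀ q : G ⧸ H, ∀ hq,
      ϕ ⟨((T.2.leftQuotientEquiv q : G))⁻¹ * ((k • T).2.leftQuotientEquiv q : G), hq⟩ =
        ϕ ⟨k, hKH hk⟩ := by
    intro q hq
    have h2 : (⟨((T.2.leftQuotientEquiv q : G))⁻¹ * ((k • T).2.leftQuotientEquiv q : G), hq⟩ : H) =
        ⟨((T.2.leftQuotientEquiv q : G))⁻¹ * k * (T.2.leftQuotientEquiv q : G),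
          by rw [← hterm q]; exact hq⟩ := Subtype.ext (hterm q)
    rw [h2]
    exact hinv _ k hk _
  rw [Finset.prod_congr rfl (fun q _ => hprod q _), Finset.prod_const, Finset.card_univ,
    index_eq_card, Nat.card_eq_fintype_card]

/-- the transfer kills `g` as soon as `ϕ` kills all the `t⁻¹ g ^ m t ∈ H` -/
theorem transfer_eq_one_of_conj_pow (g : G)
    (h : ∀ (t : G) (m : ℕ) (hm : t⁻¹ * g ^ m * t ∈ H), ϕ ⟨t⁻¹ * g ^ m * t, hm⟩ = 1) :
    transfer ϕ g = 1 := by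
  classical
  let _ := H.fintypeQuotientOfFiniteIndex
  let _ : Fintype (Quotient (MulAction.orbitRel (zpowers g) (G ⧸ H))) := Fintype.ofFinite _
  rw [transfer_eq_prod_quotient_orbitRel_zpowers_quot ϕ g]
  exact Finset.prod_eq_one fun q _ => h _ _ _

end Transfer

section Inverting

variable {C G₀ : Type*} [Group C] [Group G₀] (ρ : C →* G₀) {A : Type*} [CommGroup A]
  (Ψ : ρ.ker →* A)

/-- the kernel of `Ψ`, as a subgroup of `C` -/
def kerIn : Subgroup C := (Ψ.ker).map ρ.ker.subtype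

theorem mem_kerIn {x : C} : x ∈ kerIn ρ Ψ ↔ ∃ hx : x ∈ ρ.ker, Ψ ⟨x, hx⟩ = 1 := by
  constructor
  · rintro ⟨y, hy, rfl⟩
    exact ⟨y.2, hy⟩
  · rintro ⟨hx, h⟩
    exact ⟨⟨x, hx⟩, h, rfl⟩

variable (hinv : ∀ (g k : C) (hk : k ∈ ρ.ker) (h' : g⁻¹ * k * g ∈ ρ.ker),
  Ψ ⟨g⁻¹ * k * g, h'⟩ = Ψ ⟨k, hk⟩)

include hinv in
theorem kerIn_normal : (kerIn ρ Ψ).Normal := by
  constructor
  intro k hk g
  obtain ⟨hk1, hk2⟩ := (mem_kerIn ρ Ψ).mp hk
  have h1 : g * k * g⁻¹ ∈ ρ.ker := ρ.normal_ker.conj_mem k hk1 g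
  refine (mem_kerIn ρ Ψ).mpr ⟨h1, ?_⟩
  have h2 := hinv g⁻¹ k hk1 (by simpa using h1)
  have h3 : (⟨g * k * g⁻¹, h1⟩ : ρ.ker) = ⟨g⁻¹⁻¹ * k * g⁻¹, by simpa using h1⟩ :=
    Subtype.ext (by simp)
  rw [h3, h2, hk2]

theorem kerIn_key (u v : C) (hu : u ∈ ρ.ker) (hv : v ∈ ρ.ker)
    (h : (QuotientGroup.mk u : C ⧸ kerIn ρ Ψ) = QuotientGroup.mk v) :
    Ψ ⟨u, hu⟩ = Ψ ⟨v, hv⟩ := by
  rw [QuotientGroup.eq] at h
  obtain ⟨h1, h2⟩ := (mem_kerIn ρ Ψ).mp h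
  have h3 : (⟨v, hv⟩ : ρ.ker) = ⟨u, hu⟩ * ⟨u⁻¹ * v, h1⟩ := Subtype.ext (by simp)
  rw [h3, map_mul, h2, mul_one]

include hinv in
theorem kerIn_central [(kerIn ρ Ψ).Normal] (k : C) (hk : k ∈ ρ.ker) (y : C ⧸ kerIn ρ Ψ) :
    Commute (QuotientGroup.mk k : C ⧸ kerIn ρ Ψ) y := by
  induction y using QuotientGroup.induction_on with
  | H g =>
    have h1 : g⁻¹ * k * g ∈ ρ.ker := by
      have := ρ.normal_ker.conj_mem k hk g⁻¹
      simpa using this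
    have h2 : (QuotientGroup.mk (g⁻¹ * k * g) : C ⧸ kerIn ρ Ψ) = QuotientGroup.mk k := by
      rw [QuotientGroup.eq]
      have h3 : (g⁻¹ * k * g)⁻¹ * k ∈ ρ.ker := ρ.ker.mul_mem (ρ.ker.inv_mem h1) hk
      refine (mem_kerIn ρ Ψ).mpr ⟨h3, ?_⟩
      have h4 : (⟨(g⁻¹ * k * g)⁻¹ * k, h3⟩ : ρ.ker) = (⟨g⁻¹ * k * g, h1⟩ : ρ.ker)⁻¹ * ⟨k, hk⟩ :=
        Subtype.ext (by simp)
      rw [h4, map_mul, map_inv, hinv g k hk h1, inv_mul_cancel]
    show (QuotientGroup.mk k : C ⧸ kerIn ρ Ψ) * QuotientGroup.mk g =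
      QuotientGroup.mk g * QuotientGroup.mk k
    have h5 : k * g = g * (g⁻¹ * k * g) := by group
    calc (QuotientGroup.mk k : C ⧸ kerIn ρ Ψ) * QuotientGroup.mk g
        = QuotientGroup.mk (k * g) := (QuotientGroup.mk_mul _ k g).symm
      _ = QuotientGroup.mk (g * (g⁻¹ * k * g)) := by rw [← h5]
      _ = QuotientGroup.mk g * QuotientGroup.mk (g⁻¹ * k * g) := QuotientGroup.mk_mul _ _ _
      _ = QuotientGroup.mk g * QuotientGroup.mk k := by rw [h2]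

include hinv in
/-- **Extension across a cyclic quotient inverted by `n`.**  `Ψ : ker ρ → A` invariant under `C`,
`S ≤ G₀` with `ρ⁻¹(S)` generated by `s` modulo `ker ρ`, `n` inverting `S`, `A` uniquely
`2`-divisible: then `Ψ` extends to `ρ⁻¹(S)`. -/
theorem exists_extension_of_inverting (S : Subgroup G₀) (s n : C)
    (hs : ∀ x : C, ρ x ∈ S → ∃ i : ℤ, ρ x = ρ s ^ i)
    (hn : ∀ t ∈ S, ρ n * t * (ρ n)⁻¹ = t⁻¹)
    (r : ℕ) (hr : ∀ a : A, (a ^ 2) ^ r = a) :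
    ∃ ψ' : S.comap ρ →* A, ∀ (k : C) (hk : k ∈ ρ.ker) (hk' : k ∈ S.comap ρ),
      ψ' ⟨k, hk'⟩ = Ψ ⟨k, hk⟩ := by
  classical
  have hnorm : (kerIn ρ Ψ).Normal := kerIn_normal ρ Ψ hinv
  set π : C → C ⧸ kerIn ρ Ψ := fun g => QuotientGroup.mk g with hπ
  have hπmul : ∀ a b : C, π (a * b) = π a * π b := fun a b => QuotientGroup.mk_mul _ a b
  have hπinv : ∀ a : C, π a⁻¹ = (π a)⁻¹ := fun a => QuotientGroup.mk_inv _ a
  have hπzpow : ∀ (a : C) (i : ℤ), π (a ^ i) = π a ^ i := fun a i => QuotientGroup.mk_zpow _ a i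
  -- decomposition of the elements of `ρ⁻¹ S`
  have hdec : ∀ x : C, ρ x ∈ S → ∃ (i : ℤ) (z : C ⧸ kerIn ρ Ψ), (∀ y, Commute z y) ∧
      π x = π s ^ i * z := by
    intro x hx
    obtain ⟨i, hi⟩ := hs x hx
    have hk : (s ^ i)⁻¹ * x ∈ ρ.ker := by
      rw [MonoidHom.mem_ker, map_mul, map_inv, map_zpow, hi, inv_mul_cancel]
    refine ⟨i, π ((s ^ i)⁻¹ * x), kerIn_central ρ Ψ hinv _ hk, ?_⟩
    rw [← hπzpow, ← hπmul, mul_inv_cancel_left]
  have hcomm : ∀ a b : C, ρ a ∈ S → ρ b ∈ S → π a * π b = π b * π a := by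
    intro a b ha hb
    obtain ⟨i, z₁, hz₁, e₁⟩ := hdec a ha
    obtain ⟨j, z₂, hz₂, e₂⟩ := hdec b hb
    rw [e₁, e₂]
    have h1 : Commute (π s ^ i) (π s ^ j * z₂) :=
      Commute.mul_right (Commute.zpow_zpow_self (π s) i j) (hz₂ _).symm
    exact (Commute.mul_left h1 (hz₁ _)).eq
  -- the conjugate
  have hstarS : ∀ x : C, ρ x ∈ S → ρ (n * x * n⁻¹) ∈ S := by
    intro x hx
    rw [map_mul, map_mul, map_inv, hn _ hx]
    exact S.inv_mem hx
  have hmem : ∀ x : C, ρ x ∈ S → x * (n * x * n⁻¹) ∈ ρ.ker := by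
    intro x hx
    rw [MonoidHom.mem_ker, map_mul, map_mul, map_mul, map_inv, hn _ hx, mul_inv_cancel]
  -- the extension
  have hmul : ∀ (x y : C) (hx : ρ x ∈ S) (hy : ρ y ∈ S) (hxy : ρ (x * y) ∈ S),
      Ψ ⟨(x * y) * (n * (x * y) * n⁻¹), hmem _ hxy⟩ =
        Ψ ⟨x * (n * x * n⁻¹), hmem _ hx⟩ * Ψ ⟨y * (n * y * n⁻¹), hmem _ hy⟩ := by
    intro x y hx hy hxy
    rw [← map_mul]
    have hv : x * (n * x * n⁻¹) * (y * (n * y * n⁻¹)) ∈ ρ.ker :=
      ρ.ker.mul_mem (hmem _ hx) (hmem _ hy)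
    have h1 : (⟨x * (n * x * n⁻¹), hmem _ hx⟩ * ⟨y * (n * y * n⁻¹), hmem _ hy⟩ : ρ.ker) =
        ⟨x * (n * x * n⁻¹) * (y * (n * y * n⁻¹)), hv⟩ := rfl
    rw [h1]
    apply kerIn_key ρ Ψ
    show π ((x * y) * (n * (x * y) * n⁻¹)) = π (x * (n * x * n⁻¹) * (y * (n * y * n⁻¹)))
    have e1 : (x * y) * (n * (x * y) * n⁻¹) = x * y * (n * x * n⁻¹) * (n * y * n⁻¹) := by group
    have hgen : ∀ a b c d : C, π b * π c = π c * π b → π (a * b * c * d) = π (a * c * (b * d)) := by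
      intro a b c d hbc
      rw [hπmul, hπmul, hπmul, hπmul, hπmul, hπmul, mul_assoc (π a), hbc]
      simp only [mul_assoc]
    rw [e1]
    exact hgen _ _ _ _ (hcomm y (n * x * n⁻¹) hy (hstarS x hx))
  let ψ' : S.comap ρ →* A :=
    { toFun := fun x => Ψ ⟨(x : C) * (n * (x : C) * n⁻¹), hmem _ x.2⟩ ^ r
      map_one' := by
        have h1 : (⟨((1 : S.comap ρ) : C) * (n * ((1 : S.comap ρ) : C) * n⁻¹),
            hmem _ (1 : S.comap ρ).2⟩ : ρ.ker) = 1 := Subtype.ext (by simp)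
        rw [h1, map_one, one_pow]
      map_mul' := by
        intro x y
        have h := hmul (x : C) (y : C) x.2 y.2 (x * y).2
        show Ψ ⟨((x * y : S.comap ρ) : C) * (n * ((x * y : S.comap ρ) : C) * n⁻¹), _⟩ ^ r = _
        rw [← mul_pow]
        congr 1 }
  refine ⟨ψ', ?_⟩
  intro k hk hk'
  show Ψ ⟨k * (n * k * n⁻¹), _⟩ ^ r = Ψ ⟨k, hk⟩
  have h1 : n * k * n⁻¹ ∈ ρ.ker := ρ.normal_ker.conj_mem k hk n
  have h2 : Ψ ⟨n * k * n⁻¹, h1⟩ = Ψ ⟨k, hk⟩ := by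
    have := hinv n⁻¹ k hk (by simpa using h1)
    have h3 : (⟨n * k * n⁻¹, h1⟩ : ρ.ker) = ⟨n⁻¹⁻¹ * k * n⁻¹, by simpa using h1⟩ :=
      Subtype.ext (by simp)
    rw [h3, this]
  have h3 : (⟨k * (n * k * n⁻¹), hmem _ hk'⟩ : ρ.ker) = ⟨k, hk⟩ * ⟨n * k * n⁻¹, h1⟩ := rfl
  rw [h3, map_mul, h2, ← sq, hr]

end Inverting

section Index

variable {C G₀ : Type*} [Group C] [Group G₀] (ρ : C →* G₀) {A : Type*} [CommGroup A]
  (Ψ : ρ.ker →* A)

/-- **Extension from a subgroup of index prime to the exponent of `A`**, keeping the vanishing on a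
conjugation- and power-stable class `Par`. -/
theorem exists_extension_of_index
    (hinv : ∀ (g k : C) (hk : k ∈ ρ.ker) (h' : g⁻¹ * k * g ∈ ρ.ker),
      Ψ ⟨g⁻¹ * k * g, h'⟩ = Ψ ⟨k, hk⟩)
    (P : Subgroup C) [P.FiniteIndex] (hKP : ρ.ker ≤ P) (ψ' : P →* A)
    (hψ' : ∀ (k : C) (hk : k ∈ ρ.ker), ψ' ⟨k, hKP hk⟩ = Ψ ⟨k, hk⟩)
    (p : ℕ) (hp1 : 1 < p) (hA : ∀ a : A, a ^ p = 1) (hp : Nat.Coprime P.index p)
    (Par : C → Prop) (hPar : ∀ (g t : C) (m : ℕ), Par g → Par (t⁻¹ * g ^ m * t))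
    (hψPar : ∀ x : P, Par (x : C) → ψ' x = 1) :
    ∃ c : C →* A, (∀ (k : C) (hk : k ∈ ρ.ker), c k = Ψ ⟨k, hk⟩) ∧ ∀ g, Par g → c g = 1 := by
  obtain ⟨e, -, he⟩ := Nat.exists_mul_mod_eq_one_of_coprime hp hp1
  have hpow : ∀ a : A, a ^ (P.index * e) = a := by
    intro a
    conv_lhs => rw [← Nat.div_add_mod (P.index * e) p, he, pow_add, pow_mul, hA, one_pow,
      one_mul, pow_one]
  refine ⟨(powMonoidHom e).comp (transfer ψ'), ?_, ?_⟩
  · intro k hk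
    have hnK : (ρ.ker).Normal := ρ.normal_ker
    have h1 := transfer_of_normal ψ' ρ.ker hKP (fun g k hk h' => by
      have hk'' : g⁻¹ * k * g ∈ ρ.ker := by
        have := ρ.normal_ker.conj_mem k hk g⁻¹
        simpa using this
      have e1 := hψ' _ hk''
      rw [hψ' k hk, ← hinv g k hk hk'', ← e1]) k hk
    show (transfer ψ' k) ^ e = _
    rw [h1, hψ' k hk, ← pow_mul, hpow]
  · intro g hg
    show (transfer ψ' g) ^ e = 1
    rw [transfer_eq_one_of_conj_pow ψ' g (fun t m hm => hψPar ⟨_, hm⟩ (hPar g t m hg)), one_pow]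

end Index

end Fermat.Agent.S59lib.N3
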