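/-
S59lib / N3 / Sat2a (helper2): the reduction `Γ₀(N) → SL(2, 𝔽_q)` (`q ∤ N`): surjectivity, the
subgroups `Γ₀(N q)`, `Γ₀(N) ∩ Γ⁰(q)` and `Γ₀(N) ∩ Γ(q)`, generation, powers of unipotent and
parabolic elements.
-/
import Mathlib
import Fermat.Agent.S59lib.N3.Lat2
import Fermat.Agent.S48lib.X1.Igusa.GrpFacts
import Fermat.Agent.S41lib.HC.Parabolic

set_option autoImplicit false
set_option linter.unusedSectionVars false
set_option linter.unusedVariables false

noncomputable section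

namespace Fermat.Agent.S59lib.N3

open Matrix Matrix.SpecialLinearGroup CongruenceSubgroup
open Fermat.Agent.S41lib.HC Fermat.Agent.S41lib.PD Fermat.Agent.ProgramR.ES
open scoped MatrixGroups

/-! ### Unipotent elements of `SL(2, R)` -/

section Unip

variable {R : Type*} [CommRing R]

theorem sq_sub_one_of_trace_two (M : Matrix (Fin 2) (Fin 2) R) (hdet : M.det = 1)
    (htr : M.trace = 2) : (M - 1) * (M - 1) = 0 := by
  rw [Matrix.det_fin_two] at hdet
  rw [Matrix.trace_fin_two] at htr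
  ext i j
  fin_cases i <;> fin_cases j
  · simp only [Matrix.mul_apply, Fin.sum_univ_two, Matrix.sub_apply, Fin.zero_eta, Fin.isValue,
      Matrix.one_apply_eq, Fin.mk_one, ne_eq, one_ne_zero, not_false_eq_true, Matrix.one_apply_ne,
      zero_ne_one, sub_zero, Matrix.zero_apply]
    linear_combination (M 0 0) * htr - hdet
  · simp only [Matrix.mul_apply, Fin.sum_univ_two, Matrix.sub_apply, Fin.zero_eta, Fin.isValue,
      Matrix.one_apply_eq, Fin.mk_one, ne_eq, one_ne_zero, not_false_eq_true, Matrix.one_apply_ne,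
      zero_ne_one, sub_zero, Matrix.zero_apply]
    linear_combination (M 0 1) * htr
  · simp only [Matrix.mul_apply, Fin.sum_univ_two, Matrix.sub_apply, Fin.zero_eta, Fin.isValue,
      Matrix.one_apply_eq, Fin.mk_one, ne_eq, one_ne_zero, not_false_eq_true, Matrix.one_apply_ne,
      zero_ne_one, sub_zero, Matrix.zero_apply]
    linear_combination (M 1 0) * htr
  · simp only [Matrix.mul_apply, Fin.sum_univ_two, Matrix.sub_apply, Fin.zero_eta, Fin.isValue,
      Matrix.one_apply_eq, Fin.mk_one, ne_eq, one_ne_zero, not_false_eq_true, Matrix.one_apply_ne,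
      zero_ne_one, sub_zero, Matrix.zero_apply]
    linear_combination (M 1 1) * htr - hdet

theorem one_add_pow_of_sq_zero (ν : Matrix (Fin 2) (Fin 2) R) (h : ν * ν = 0) (n : ℕ) :
    (1 + ν) ^ n = 1 + (n : R) • ν := by
  induction n with
  | zero => simp
  | succ n ih =>
    rw [pow_succ, ih, add_mul, one_mul, Matrix.smul_mul, mul_add, mul_one, h, add_zero]
    push_cast
    rw [add_smul, one_smul]
    abel

theorem pow_eq_of_sq_zero (M : Matrix (Fin 2) (Fin 2) R) (h : (M - 1) * (M - 1) = 0) (n : ℕ) :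
    M ^ n = 1 + (n : R) • (M - 1) := by
  have h1 := one_add_pow_of_sq_zero (M - 1) h n
  rwa [add_sub_cancel] at h1

/-- an element of `SL(2, 𝔽_q)` of trace `2` has order dividing `q` -/
theorem sl2_pow_eq_one_of_trace_two {q : ℕ} [Fact q.Prime] (Y : SL(2, ZMod q))
    (htr : (Y : Matrix (Fin 2) (Fin 2) (ZMod q)).trace = 2) : Y ^ q = 1 := by
  apply Subtype.ext
  rw [Matrix.SpecialLinearGroup.coe_pow,
    pow_eq_of_sq_zero _ (sq_sub_one_of_trace_two _ Y.det_coe htr) q]
  simp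

end Unip

/-! ### The reduction map -/

section Red

open Fermat.Agent.S48lib.X1.Igusa

variable (N q : ℕ)

/-- reduction modulo `q` on `Γ₀(N)` -/
def redQ : ↥(Gamma0 N) →* SL(2, ZMod q) :=
  (Matrix.SpecialLinearGroup.map (Int.castRingHom (ZMod q))).comp (Gamma0 N).subtype

theorem redQ_apply (g : ↥(Gamma0 N)) (i j : Fin 2) :
    redQ N q g i j = (((g : SL(2, ℤ)) i j : ℤ) : ZMod q) := rfl

theorem mem_ker_redQ {g : ↥(Gamma0 N)} :
    g ∈ (redQ N q).ker ↔ (g : SL(2, ℤ)) ∈ Gamma q := Iff.rfl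

variable {N q}

theorem redQ_surjective [NeZero N] [Fact q.Prime] (hqN : ¬ q ∣ N) :
    Function.Surjective (redQ N q) := by
  intro Y
  have hcop : Nat.Coprime N q :=
    ((Nat.Prime.coprime_iff_not_dvd (Fact.out : q.Prime)).mpr hqN).symm
  let e := ZMod.chineseRemainder hcop
  let M₀ : Matrix (Fin 2) (Fin 2) (ZMod N × ZMod q) :=
    fun i j => ((1 : Matrix (Fin 2) (Fin 2) (ZMod N)) i j, Y i j)
  have hdet₀ : M₀.det = 1 := by
    have hY := Y.det_coe
    rw [Matrix.det_fin_two] at hY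
    rw [Matrix.det_fin_two]
    apply Prod.ext
    · simp [M₀]
    · simpa [M₀] using hY
  have hdetZ : (e.symm.toRingHom.mapMatrix M₀).det = 1 := by
    rw [← RingHom.map_det, hdet₀, map_one]
  obtain ⟨γ, hγ⟩ := slmod_surjective (N * q) ⟨e.symm.toRingHom.mapMatrix M₀, hdetZ⟩
  have hent : ∀ i j, ((γ i j : ℤ) : ZMod N × ZMod q) = M₀ i j := by
    intro i j
    have h1 := congrArg (fun W : SL(2, ZMod (N * q)) => W i j) hγ
    have h2 : ((γ i j : ℤ) : ZMod (N * q)) = e.symm (M₀ i j) := h1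
    have h3 := congrArg e h2
    rwa [map_intCast, RingEquiv.apply_symm_apply] at h3
  have hmem : γ ∈ Gamma0 N := by
    rw [Gamma0_mem]
    have := congrArg Prod.fst (hent 1 0)
    simpa [M₀] using this
  refine ⟨⟨γ, hmem⟩, ?_⟩
  apply Matrix.SpecialLinearGroup.ext
  intro i j
  rw [redQ_apply]
  have := congrArg Prod.snd (hent i j)
  simpa [M₀] using this

end Red

/-! ### Subgroups and generation -/

section Sub

variable {N q : ℕ} [NeZero N] [Fact q.Prime] (hqN : ¬ q ∣ N)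

include hqN in
theorem mem_gamma0_mul_iff (g : ↥(Gamma0 N)) :
    (g : SL(2, ℤ)) ∈ Gamma0 (N * q) ↔ redQ N q g 1 0 = 0 := by
  have hcop : IsCoprime (N : ℤ) (q : ℤ) := by
    have : Nat.Coprime N q :=
      ((Nat.Prime.coprime_iff_not_dvd (Fact.out : q.Prime)).mpr hqN).symm
    exact Nat.isCoprime_iff_coprime.mpr this
  have hN : (N : ℤ) ∣ (g : SL(2, ℤ)) 1 0 := by
    have := g.2
    rw [Gamma0_mem] at this
    exact (ZMod.intCast_zmod_eq_zero_iff_dvd _ _).mp this
  rw [Gamma0_mem, redQ_apply, ZMod.intCast_zmod_eq_zero_iff_dvd, ZMod.intCast_zmod_eq_zero_iff_dvd]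
  push_cast
  constructor
  · intro h
    exact dvd_trans (dvd_mul_left _ _) h
  · intro h
    exact hcop.mul_dvd hN h

theorem mem_gammaMix_iff (g : ↥(Gamma0 N)) :
    (g : SL(2, ℤ)) ∈ gammaMix N q ↔ redQ N q g 0 1 = 0 := by
  have hN : (N : ℤ) ∣ (g : SL(2, ℤ)) 1 0 := by
    have := g.2
    rw [Gamma0_mem] at this
    exact (ZMod.intCast_zmod_eq_zero_iff_dvd _ _).mp this
  rw [mem_gammaMix, redQ_apply, ZMod.intCast_zmod_eq_zero_iff_dvd]
  exact ⟨fun h => h.2, fun h => ⟨hN, h⟩⟩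

theorem redQ_unipT (t : ℤ) :
    (redQ N q (unipT N t) : Matrix (Fin 2) (Fin 2) (ZMod q)) = !![1, (t : ZMod q); 0, 1] := by
  ext i j
  rw [redQ_apply]
  fin_cases i <;> fin_cases j <;> simp [unipT]

theorem redQ_inv_apply_one_zero (g : ↥(Gamma0 N)) :
    redQ N q g⁻¹ 1 0 = - redQ N q g 1 0 := by
  rw [map_inv, Matrix.SpecialLinearGroup.coe_inv, Matrix.adjugate_fin_two]
  simp

/-- `Γ₀(N)` is generated by `Γ₀(N q)` and `Γ₀(N) ∩ Γ⁰(q)`. -/
theorem gamma0_induction (Pr : ↥(Gamma0 N) → Prop)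
    (hmul : ∀ x y, Pr x → Pr y → Pr (x * y))
    (h1 : ∀ x : ↥(Gamma0 N), redQ N q x 1 0 = 0 → Pr x)
    (h2 : ∀ x : ↥(Gamma0 N), redQ N q x 0 1 = 0 → Pr x) : ∀ g, Pr g := by
  have hU : ∀ t : ℤ, Pr (unipT N t) ∧ Pr (unipT N t)⁻¹ := by
    intro t
    have h0 : redQ N q (unipT N t) 1 0 = 0 := by
      rw [redQ_unipT]; simp
    refine ⟨h1 _ h0, h1 _ ?_⟩
    rw [redQ_inv_apply_one_zero, h0, neg_zero]
  have aux : ∀ g : ↥(Gamma0 N), redQ N q g 1 1 ≠ 0 → Pr g := by
    intro g hd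
    obtain ⟨t, ht⟩ := ZMod.intCast_surjective (-(redQ N q g 0 1) / redQ N q g 1 1)
    have hy : redQ N q (unipT N t * g) 0 1 = 0 := by
      rw [map_mul, Matrix.SpecialLinearGroup.coe_mul, redQ_unipT, Matrix.mul_apply,
        Fin.sum_univ_two]
      simp only [Matrix.of_apply, Matrix.cons_val', Matrix.cons_val_zero, Matrix.cons_val_one,
        Matrix.empty_val', Matrix.cons_val_fin_one, Matrix.head_cons, one_mul]
      rw [ht]
      field_simp
      ring
    have hg : g = (unipT N t)⁻¹ * (unipT N t * g) := by group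
    rw [hg]
    exact hmul _ _ (hU t).2 (h2 _ hy)
  intro g
  by_cases hd : redQ N q g 1 1 = 0
  · have hdet := (redQ N q g).det_coe
    rw [Matrix.det_fin_two, hd, mul_zero, zero_sub] at hdet
    have hc : redQ N q g 1 0 ≠ 0 := by
      intro h0
      rw [h0, mul_zero, neg_zero] at hdet
      exact zero_ne_one hdet
    have hd' : redQ N q (g * unipT N 1) 1 1 ≠ 0 := by
      rw [map_mul, Matrix.SpecialLinearGroup.coe_mul, redQ_unipT, Matrix.mul_apply,
        Fin.sum_univ_two]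
      simp only [Matrix.of_apply, Matrix.cons_val', Matrix.cons_val_zero, Matrix.cons_val_one,
        Matrix.empty_val', Matrix.cons_val_fin_one, Matrix.head_cons, mul_one]
      rw [hd, add_zero]
      simpa using hc
    have hg : g = (g * unipT N 1) * (unipT N 1)⁻¹ := by group
    rw [hg]
    exact hmul _ _ (aux _ hd') (hU 1).2
  · exact aux g hd

theorem ker_redQ_one_zero (g : ↥(Gamma0 N)) (hg : g ∈ (redQ N q).ker) :
    redQ N q g 1 0 = 0 ∧ redQ N q g 0 1 = 0 := by
  rw [MonoidHom.mem_ker] at hg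
  rw [hg]
  simp

end Sub

/-! ### The index of `Γ₀(N q)` in `Γ₀(N)`, `q ∤ N` -/

section Index

variable {N q : ℕ} [NeZero N] [Fact q.Prime] (hqN : ¬ q ∣ N)

include hqN in
theorem relIndex_gamma0 : (Gamma0 (N * q)).relIndex (Gamma0 N) = q + 1 := by
  classical
  have : NeZero (N * q) := ⟨Nat.mul_ne_zero (NeZero.ne N) (Fact.out : q.Prime).ne_zero⟩
  let _ : Fintype (SL(2, ℤ) ⧸ Gamma0 N) := Fintype.ofFinite _
  let _ : Fintype (SL(2, ℤ) ⧸ Gamma0 (N * q)) := Fintype.ofFinite _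
  have hle := gamma0_mul_le N q
  have hbij := (isTransversal_alphaRep hqN).bijective hle
  have hcard : Fintype.card (SL(2, ℤ) ⧸ Gamma0 (N * q)) =
      Fintype.card (SL(2, ℤ) ⧸ Gamma0 N) * (q + 1) := by
    rw [← Fintype.card_of_bijective hbij, Fintype.card_prod]
    congr 1
    rw [← Nat.card_eq_fintype_card]
    have : Nat.card (OnePoint (ZMod q)) = Nat.card (Option (ZMod q)) := rfl
    rw [this, Nat.card_eq_fintype_card, Fintype.card_option, ZMod.card]
  have h1 := Subgroup.relIndex_mul_index hle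
  rw [Subgroup.index_eq_card, Subgroup.index_eq_card, Nat.card_eq_fintype_card,
    Nat.card_eq_fintype_card, hcard, mul_comm] at h1
  have hpos : 0 < Fintype.card (SL(2, ℤ) ⧸ Gamma0 N) := Fintype.card_pos
  exact Nat.eq_of_mul_eq_mul_left hpos h1

end Index

end Fermat.Agent.S59lib.N3
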