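/-
S59lib / N3 / Torus (helper2): the non-split torus of `SL(2, 𝔽_q)`: a cyclic subgroup `torus q` of
order `q + 1` (index `q (q - 1)`), inverted by an element `torusInv q` of `SL(2, 𝔽_q)`.
Realised through the multiplication of the norm one elements of `𝔽_{q²} = GaloisField q 2` on
`𝔽_{q²} ≃ 𝔽_q²`, the inverting element being a Frobenius-semilinear map of determinant one.
-/
import Mathlib

set_option autoImplicit false
set_option linter.unusedSectionVars false
set_option linter.unusedVariables false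

noncomputable section

namespace Fermat.Agent.S59lib.N3

open Matrix
open scoped MatrixGroups

section Torus

variable (q : ℕ) [Fact q.Prime]

local notation "𝔽" => ZMod q
local notation "𝔼" => GaloisField q 2

/-- a basis of `𝔽_{q²}` over `𝔽_q` -/
def tBasis : Module.Basis (Fin 2) 𝔽 𝔼 :=
  Module.finBasisOfFinrankEq 𝔽 𝔼 (GaloisField.finrank q two_ne_zero)

/-- the matrix of the multiplication by `x` -/
def mulMat (x : 𝔼) : Matrix (Fin 2) (Fin 2) 𝔽 := Algebra.leftMulMatrix (tBasis q) x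

theorem det_mulMat (x : 𝔼) : (mulMat q x).det = Algebra.norm 𝔽 x :=
  (Algebra.norm_eq_matrix_det (tBasis q) x).symm

theorem mulMat_mul (x y : 𝔼) : mulMat q (x * y) = mulMat q x * mulMat q y :=
  map_mul (Algebra.leftMulMatrix (tBasis q)) x y

theorem mulMat_one : mulMat q (1 : 𝔼) = 1 := map_one (Algebra.leftMulMatrix (tBasis q))

theorem mulMat_injective : Function.Injective (mulMat q) :=
  Algebra.leftMulMatrix_injective (tBasis q)

/-- the norm one units of `𝔽_{q²}` -/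
def normOne : Subgroup 𝔼ˣ := (Units.map (Algebra.norm 𝔽 : 𝔼 →* 𝔽)).ker

theorem mem_normOne {x : 𝔼ˣ} : x ∈ normOne q ↔ Algebra.norm 𝔽 (x : 𝔼) = 1 := by
  rw [normOne, MonoidHom.mem_ker, Units.ext_iff]
  rfl

/-- the torus, as a homomorphism -/
def torusHom : normOne q →* SL(2, 𝔽) where
  toFun x := ⟨mulMat q ((x : 𝔼ˣ) : 𝔼), by rw [det_mulMat]; exact (mem_normOne q).mp x.2⟩
  map_one' := Subtype.ext (mulMat_one q)
  map_mul' x y := Subtype.ext (mulMat_mul q _ _)

theorem torusHom_coe (x : normOne q) :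
    ((torusHom q x : SL(2, 𝔽)) : Matrix (Fin 2) (Fin 2) 𝔽) = mulMat q ((x : 𝔼ˣ) : 𝔼) := rfl

theorem torusHom_injective : Function.Injective (torusHom q) := by
  intro x y h
  have h1 := congrArg (fun t : SL(2, 𝔽) => (t : Matrix (Fin 2) (Fin 2) 𝔽)) h
  simp only [torusHom_coe] at h1
  exact Subtype.ext (Units.ext (mulMat_injective q h1))

/-- the non-split torus of `SL(2, 𝔽_q)` -/
def torus : Subgroup SL(2, 𝔽) := (torusHom q).range

instance torus_isCyclic : IsCyclic (torus q) :=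
  isCyclic_of_surjective (torusHom q).rangeRestrict (torusHom q).rangeRestrict_surjective

/-! ### Cardinalities -/

theorem card_normOne : Nat.card (normOne q) = q + 1 := by
  have hq : 1 < q := (Fact.out : q.Prime).one_lt
  have hsurj := FiniteField.unitsMap_norm_surjective 𝔽 𝔼
  have h1 := Subgroup.card_mul_index (normOne q)
  have h2 : (normOne q).index = Nat.card 𝔽ˣ := by
    rw [normOne, Subgroup.index_ker, MonoidHom.range_eq_top.mpr hsurj]
    exact Nat.card_congr Subgroup.topEquiv.toEquiv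
  have h3 : Nat.card 𝔼ˣ = q ^ 2 - 1 := by
    rw [Nat.card_units, GaloisField.card q 2 two_ne_zero]
  have h4 : Nat.card 𝔽ˣ = q - 1 := by
    rw [Nat.card_units, Nat.card_eq_fintype_card, ZMod.card]
  rw [h2, h3, h4] at h1
  have h5 : q ^ 2 - 1 = (q + 1) * (q - 1) := by
    obtain ⟨k, rfl⟩ : ∃ k, q = k + 1 := ⟨q - 1, by omega⟩
    simp only [Nat.add_sub_cancel]
    ring_nf
    omega
  rw [h5] at h1
  exact Nat.eq_of_mul_eq_mul_right (by omega) h1

theorem card_torus : Nat.card (torus q) = q + 1 := by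
  rw [← card_normOne q]
  exact (Nat.card_congr (MonoidHom.ofInjective (torusHom_injective q)).toEquiv).symm

/-- `SL(2, 𝔽) ≃ ker det` -/
def slEquivKerDet : SL(2, 𝔽) ≃ (Matrix.GeneralLinearGroup.det (n := Fin 2) (R := 𝔽)).ker where
  toFun g := ⟨Matrix.SpecialLinearGroup.toGL g, by
    rw [MonoidHom.mem_ker]
    apply Units.ext
    simp⟩
  invFun k := ⟨((k : GL (Fin 2) 𝔽) : Matrix (Fin 2) (Fin 2) 𝔽), by
    have h := k.2
    rw [MonoidHom.mem_ker] at h
    have h1 := congrArg (fun u : 𝔽ˣ => (u : 𝔽)) h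
    simpa using h1⟩
  left_inv g := by
    apply Subtype.ext
    rfl
  right_inv k := by
    apply Subtype.ext
    apply Units.ext
    rfl

theorem card_SL2 : Nat.card SL(2, 𝔽) = q * (q ^ 2 - 1) := by
  have hq : 1 < q := (Fact.out : q.Prime).one_lt
  have h0 : Nat.card SL(2, 𝔽) =
      Nat.card (Matrix.GeneralLinearGroup.det (n := Fin 2) (R := 𝔽)).ker :=
    Nat.card_congr (slEquivKerDet q)
  have hsurj : Function.Surjective (Matrix.GeneralLinearGroup.det (n := Fin 2) (R := 𝔽)) := by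
    intro u
    refine ⟨Matrix.GeneralLinearGroup.mk'' !![(u : 𝔽), 0; 0, 1] (by simp), ?_⟩
    apply Units.ext
    simp [Matrix.det_fin_two_of]
  have h1 := Subgroup.card_mul_index (Matrix.GeneralLinearGroup.det (n := Fin 2) (R := 𝔽)).ker
  have h2 : (Matrix.GeneralLinearGroup.det (n := Fin 2) (R := 𝔽)).ker.index = Nat.card 𝔽ˣ := by
    rw [Subgroup.index_ker, MonoidHom.range_eq_top.mpr hsurj]
    exact Nat.card_congr Subgroup.topEquiv.toEquiv
  have h4 : Nat.card 𝔽ˣ = q - 1 := by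
    rw [Nat.card_units, Nat.card_eq_fintype_card, ZMod.card]
  have h3 : Nat.card (GL (Fin 2) 𝔽) = (q ^ 2 - 1) * (q ^ 2 - q) := by
    rw [Matrix.card_GL_field, Fin.prod_univ_two, ZMod.card]
    simp
  rw [h2, h3, h4, ← h0] at h1
  have h5 : q ^ 2 - q = q * (q - 1) := by
    obtain ⟨k, rfl⟩ : ∃ k, q = k + 1 := ⟨q - 1, by omega⟩
    simp only [Nat.add_sub_cancel]
    ring_nf
    omega
  rw [h5, ← mul_assoc] at h1
  have h6 := Nat.eq_of_mul_eq_mul_right (by omega) h1
  rw [h6, mul_comm]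

theorem index_torus : (torus q).index = q * (q - 1) := by
  have hq : 1 < q := (Fact.out : q.Prime).one_lt
  have h1 := Subgroup.card_mul_index (torus q)
  rw [card_torus, card_SL2] at h1
  have h5 : q ^ 2 - 1 = (q + 1) * (q - 1) := by
    obtain ⟨k, rfl⟩ : ∃ k, q = k + 1 := ⟨q - 1, by omega⟩
    simp only [Nat.add_sub_cancel]
    ring_nf
    omega
  rw [h5] at h1
  have h2 : (q + 1) * (torus q).index = (q + 1) * (q * (q - 1)) := by
    rw [h1]; ring
  exact Nat.eq_of_mul_eq_mul_left (by omega) h2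

/-! ### The inverting element -/

/-- the matrix of the Frobenius of `𝔽_{q²}` over `𝔽_q` -/
def frobMat : Matrix (Fin 2) (Fin 2) 𝔽 :=
  LinearMap.toMatrix (tBasis q) (tBasis q) (FiniteField.frobeniusAlgHom 𝔽 𝔼).toLinearMap

theorem frobMat_mul_mulMat (x : 𝔼) :
    frobMat q * mulMat q x = mulMat q (x ^ q) * frobMat q := by
  rw [frobMat, mulMat, mulMat, Algebra.leftMulMatrix_apply, Algebra.leftMulMatrix_apply,
    ← LinearMap.toMatrix_comp, ← LinearMap.toMatrix_comp]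
  congr 1
  apply LinearMap.ext
  intro y
  simp only [LinearMap.comp_apply, AlgHom.toLinearMap_apply,
    FiniteField.coe_frobeniusAlgHom, ZMod.card]
  show (x * y) ^ q = x ^ q * y ^ q
  rw [mul_pow]

theorem isUnit_det_frobMat : IsUnit (frobMat q).det := by
  have hinj : Function.Injective (FiniteField.frobeniusAlgHom 𝔽 𝔼).toLinearMap :=
    (FiniteField.frobeniusAlgHom 𝔽 𝔼).toRingHom.injective
  let e : 𝔼 ≃ₗ[𝔽] 𝔼 := LinearEquiv.ofInjectiveEndo _ hinj
  have he : (e : 𝔼 →ₗ[𝔽] 𝔼) = (FiniteField.frobeniusAlgHom 𝔽 𝔼).toLinearMap :=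
    LinearMap.ext fun x => rfl
  have := LinearEquiv.isUnit_det e (tBasis q) (tBasis q)
  rw [he] at this
  exact this

theorem pow_q_of_norm_one (x : 𝔼) (hx : Algebra.norm 𝔽 x = 1) : x ^ q * x = 1 := by
  have hq : 1 < q := (Fact.out : q.Prime).one_lt
  have h := FiniteField.algebraMap_norm_eq_pow (K := 𝔽) (K' := 𝔼) (x := x)
  rw [hx, map_one, GaloisField.card q 2 two_ne_zero, Nat.card_eq_fintype_card, ZMod.card] at h
  have h5 : (q ^ 2 - 1) / (q - 1) = q + 1 := by
    have : q ^ 2 - 1 = (q + 1) * (q - 1) := by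
      obtain ⟨k, rfl⟩ : ∃ k, q = k + 1 := ⟨q - 1, by omega⟩
      simp only [Nat.add_sub_cancel]
      ring_nf
      omega
    rw [this, Nat.mul_div_cancel _ (by omega)]
  rw [h5, pow_succ] at h
  exact h.symm

theorem exists_torusInv : ∃ n : SL(2, 𝔽), ∀ t ∈ torus q, n * t * n⁻¹ = t⁻¹ := by
  obtain ⟨d, hd⟩ := isUnit_det_frobMat q
  obtain ⟨μ, hμ⟩ := FiniteField.norm_surjective 𝔽 𝔼 ((d⁻¹ : 𝔽ˣ) : 𝔽)
  have hdet : (frobMat q * mulMat q μ).det = 1 := by
    rw [Matrix.det_mul, det_mulMat, hμ, ← hd, Units.mul_inv]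
  obtain ⟨n, hn⟩ : ∃ n : SL(2, 𝔽), (n : Matrix (Fin 2) (Fin 2) 𝔽) = frobMat q * mulMat q μ :=
    ⟨⟨_, hdet⟩, rfl⟩
  refine ⟨n, ?_⟩
  rintro t ⟨x, rfl⟩
  have hx := (mem_normOne q).mp x.2
  have key : n * torusHom q x = (torusHom q x)⁻¹ * n := by
    rw [← map_inv]
    apply Subtype.ext
    show (n : Matrix (Fin 2) (Fin 2) 𝔽) * mulMat q ((x : 𝔼ˣ) : 𝔼) =
      mulMat q (((x⁻¹ : normOne q) : 𝔼ˣ) : 𝔼) * (n : Matrix (Fin 2) (Fin 2) 𝔽)
    have hinv : (((x⁻¹ : normOne q) : 𝔼ˣ) : 𝔼) = ((x : 𝔼ˣ) : 𝔼) ^ q := by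
      have h1 := pow_q_of_norm_one q _ hx
      have h2 : ((x : 𝔼ˣ) : 𝔼) ≠ 0 := (x : 𝔼ˣ).ne_zero
      have h3 : (((x⁻¹ : normOne q) : 𝔼ˣ) : 𝔼) = (((x : 𝔼ˣ) : 𝔼))⁻¹ := by
        rw [Subgroup.coe_inv, Units.val_inv_eq_inv_val]
      rw [h3]
      exact inv_eq_of_mul_eq_one_left h1
    rw [hn, hinv, Matrix.mul_assoc, ← mulMat_mul, mul_comm μ, mulMat_mul, ← Matrix.mul_assoc,
      frobMat_mul_mulMat, Matrix.mul_assoc]
  rw [key, mul_assoc, mul_inv_cancel, mul_one]

/-- an element of `SL(2, 𝔽_q)` inverting the torus -/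
def torusInv : SL(2, 𝔽) := (exists_torusInv q).choose

theorem torusInv_spec (t : SL(2, 𝔽)) (ht : t ∈ torus q) :
    torusInv q * t * (torusInv q)⁻¹ = t⁻¹ := (exists_torusInv q).choose_spec t ht

end Torus

end Fermat.Agent.S59lib.N3
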