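/-
S59lib / N3 / Sat2b (helper2): the second saturation step, mod `p`.

`u₁, u₂ : Γ₀(N q) → 𝔽_p` parabolic with `res u₁ + deg u₂ = 0` on `Γ₀(N q²)` (`q ∤ N`, `p` odd,
`p ≠ q`): there is a parabolic `c : Γ₀(N) → 𝔽_p` with `u₁ - deg c` and `u₂ + res c` killing
`{g ∈ Γ₀(N q) : d ≡ 1 mod q}`.
-/
import Mathlib
import Fermat.Agent.S59lib.N3.Sat2a
import Fermat.Agent.S59lib.N3.GrpExt
import Fermat.Agent.S59lib.N3.Torus

set_option autoImplicit false
set_option linter.unusedSectionVars false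
set_option linter.unusedVariables false

noncomputable section

namespace Fermat.Agent.S59lib.N3

open Matrix Matrix.SpecialLinearGroup CongruenceSubgroup ModularCurve.Period
open Fermat.Agent.S41lib.HC Fermat.Agent.S41lib.PD Fermat.Agent.ProgramR.ES
open Fermat.Agent.S31lib.PET
open scoped MatrixGroups

/-! ### The coefficient group -/

/-- `𝔽_p`, multiplicatively -/
abbrev AP (p : ℕ) := Multiplicative (ZMod p)

theorem AP_pow_p {p : ℕ} [Fact p.Prime] (a : AP p) : a ^ p = 1 := by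
  apply Multiplicative.toAdd.injective
  rw [toAdd_pow, toAdd_one, nsmul_eq_mul, ZMod.natCast_self, zero_mul]

theorem AP_eq_one_of_pow {p : ℕ} [Fact p.Prime] (a : AP p) (m : ℕ) (hm : Nat.Coprime m p)
    (h : a ^ m = 1) : a = 1 := by
  have h1 : orderOf a ∣ m := orderOf_dvd_of_pow_eq_one h
  have h2 : orderOf a ∣ p := orderOf_dvd_of_pow_eq_one (AP_pow_p a)
  have h3 : orderOf a ∣ 1 := by
    have := Nat.dvd_gcd h1 h2
    rwa [hm] at this
  exact orderOf_eq_one_iff.mp (Nat.dvd_one.mp h3)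

/-! ### The two subgroups -/

section Defs

variable (N q : ℕ) [NeZero N] [Fact q.Prime]

/-- `Γ₀(N q)` inside `Γ₀(N)` -/
def subP1 : Subgroup ↥(Gamma0 N) := (Gamma0 (N * q)).subgroupOf (Gamma0 N)

/-- `Γ₀(N) ∩ Γ⁰(q)` inside `Γ₀(N)` -/
def subP2 : Subgroup ↥(Gamma0 N) := (gammaMix N q).subgroupOf (Gamma0 N)

theorem mem_subP1 {g : ↥(Gamma0 N)} : g ∈ subP1 N q ↔ (g : SL(2, ℤ)) ∈ Gamma0 (N * q) := Iff.rfl

theorem mem_subP2 {g : ↥(Gamma0 N)} : g ∈ subP2 N q ↔ (g : SL(2, ℤ)) ∈ gammaMix N q := Iff.rfl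

def toP1 : subP1 N q →* ↥(Gamma0 (N * q)) :=
  (Subgroup.subgroupOfEquivOfLe (gamma0_mul_le N q)).toMonoidHom

def toP2 : subP2 N q →* ↥(gammaMix N q) :=
  (Subgroup.subgroupOfEquivOfLe (gammaMix_le N q)).toMonoidHom

theorem coe_toP1 (x : subP1 N q) :
    ((toP1 N q x : ↥(Gamma0 (N * q))) : SL(2, ℤ)) = ((x : ↥(Gamma0 N)) : SL(2, ℤ)) := rfl

theorem coe_toP2 (x : subP2 N q) :
    ((toP2 N q x : ↥(gammaMix N q)) : SL(2, ℤ)) = ((x : ↥(Gamma0 N)) : SL(2, ℤ)) := rfl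

variable {N q} {p : ℕ}

/-- `u₂` on `Γ₀(N q) ⊂ Γ₀(N)`, multiplicatively -/
def psi2 (u₂ : H (Gamma0 (N * q)) (ZMod p)) : subP1 N q →* AP p :=
  (AddMonoidHom.toMultiplicativeRight u₂).comp (toP1 N q)

/-- `u₁` transported to `Γ₀(N) ∩ Γ⁰(q)` through `δ`, multiplicatively -/
def psi1 (u₁ : H (Gamma0 (N * q)) (ZMod p)) : subP2 N q →* AP p :=
  (AddMonoidHom.toMultiplicativeRight u₁).comp
    ((cdelMix (M := N) (q := q)).symm.toMonoidHom.comp (toP2 N q))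

theorem psi2_apply (u₂ : H (Gamma0 (N * q)) (ZMod p)) (x : subP1 N q) :
    psi2 u₂ x = Multiplicative.ofAdd (u₂ (Additive.ofMul (toP1 N q x))) := rfl

theorem psi1_apply (u₁ : H (Gamma0 (N * q)) (ZMod p)) (x : subP2 N q) :
    psi1 u₁ x = Multiplicative.ofAdd
      (u₁ (Additive.ofMul ((cdelMix (M := N) (q := q)).symm (toP2 N q x)))) := rfl

end Defs

/-! ### The common restriction to `Γ₀(N) ∩ Γ(q)` and its invariance -/

section Main

variable {N q p : ℕ} [NeZero N] [Fact q.Prime] [Fact p.Prime] (hqN : ¬ q ∣ N)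
variable (u₁ u₂ : H (Gamma0 (N * q)) (ZMod p))

include hqN in
theorem ker_le_subP1 : (redQ N q).ker ≤ subP1 N q := by
  intro g hg
  rw [mem_subP1, mem_gamma0_mul_iff hqN]
  exact (ker_redQ_one_zero g hg).1

theorem ker_le_subP2 : (redQ N q).ker ≤ subP2 N q := by
  intro g hg
  rw [mem_subP2, mem_gammaMix_iff]
  exact (ker_redQ_one_zero g hg).2

variable (hrel : res (N * q) q (ZMod p) u₁ + deg2 (N * q) q (ZMod p) u₂ = 0)

include hrel in
theorem psi_agree (x : ↥(Gamma0 N)) (h1 : x ∈ subP1 N q) (h2 : x ∈ subP2 N q) :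
    psi1 u₁ ⟨x, h2⟩ * psi2 u₂ ⟨x, h1⟩ = 1 := by
  have hD : (x : SL(2, ℤ)) ∈ gammaMix (N * q) q := by
    refine ⟨?_, h2.2⟩
    exact (ZMod.intCast_zmod_eq_zero_iff_dvd _ _).mp (Gamma0_mem.mp h1)
  set γ' : ↥(Gamma0 (N * q * q)) := (cdelMix (M := N * q) (q := q)).symm ⟨x, hD⟩ with hγ'
  have hγ : cdelMix (M := N * q) (q := q) γ' = ⟨x, hD⟩ := MulEquiv.apply_symm_apply _ _
  have hcoe : ((cdel (N * q) q γ' : ↥(Gamma0 (N * q))) : SL(2, ℤ)) = (x : SL(2, ℤ)) := by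
    rw [← coe_cdelMix, hγ]
  have hA : cdel (N * q) q γ' = toP1 N q ⟨x, h1⟩ := Subtype.ext hcoe
  have hB : inclMul (N * q) q γ' = (cdelMix (M := N) (q := q)).symm (toP2 N q ⟨x, h2⟩) := by
    rw [MulEquiv.eq_symm_apply]
    apply Subtype.ext
    rw [coe_cdelMix, coe_toP2]
    exact hcoe
  have h := congrArg (fun F : H (Gamma0 (N * q * q)) (ZMod p) => F (Additive.ofMul γ')) hrel
  simp only [AddMonoidHom.add_apply, res_apply, deg2_apply, AddMonoidHom.zero_apply] at h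
  rw [hA, hB] at h
  rw [psi1_apply, psi2_apply, ← ofAdd_add, h, ofAdd_zero]

/-- the common restriction `Ψ = ψ₁ = ψ₂⁻¹` to `Γ₀(N) ∩ Γ(q)` -/
def psiK : (redQ N q).ker →* AP p := (psi1 u₁).comp (Subgroup.inclusion ker_le_subP2)

theorem psiK_apply (k : ↥(Gamma0 N)) (hk : k ∈ (redQ N q).ker) :
    psiK u₁ ⟨k, hk⟩ = psi1 u₁ ⟨k, ker_le_subP2 hk⟩ := rfl

include hqN hrel in
theorem psiK_eq_inv (k : ↥(Gamma0 N)) (hk : k ∈ (redQ N q).ker) :
    psiK u₁ ⟨k, hk⟩ = (psi2 u₂ ⟨k, ker_le_subP1 hqN hk⟩)⁻¹ := by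
  rw [psiK_apply]
  exact eq_inv_of_mul_eq_one_left (psi_agree u₁ u₂ hrel k _ _)

include hqN hrel in
/-- `Ψ` is invariant under `Γ₀(N)` -/
theorem psiK_inv (g k : ↥(Gamma0 N)) (hk : k ∈ (redQ N q).ker)
    (h' : g⁻¹ * k * g ∈ (redQ N q).ker) : psiK u₁ ⟨g⁻¹ * k * g, h'⟩ = psiK u₁ ⟨k, hk⟩ := by
  have hnorm : ∀ (g k : ↥(Gamma0 N)), k ∈ (redQ N q).ker → g⁻¹ * k * g ∈ (redQ N q).ker := by
    intro g k hk
    have := (redQ N q).normal_ker.conj_mem k hk g⁻¹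
    simpa using this
  revert k
  refine gamma0_induction (q := q) (fun g => ∀ (k : ↥(Gamma0 N)) (hk : k ∈ (redQ N q).ker)
    (h' : g⁻¹ * k * g ∈ (redQ N q).ker), psiK u₁ ⟨g⁻¹ * k * g, h'⟩ = psiK u₁ ⟨k, hk⟩)
    ?_ ?_ ?_ g
  · intro x y hx hy k hk h'
    have h1 := hnorm x k hk
    have h2 : (⟨(x * y)⁻¹ * k * (x * y), h'⟩ : (redQ N q).ker) =
        ⟨y⁻¹ * (x⁻¹ * k * x) * y, hnorm y _ h1⟩ := Subtype.ext (by group)
    rw [h2, hy _ h1, hx k hk]
  · intro x hx k hk h'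
    have hx1 : x ∈ subP1 N q := (mem_gamma0_mul_iff hqN x).mpr hx
    rw [psiK_eq_inv hqN u₁ u₂ hrel, psiK_eq_inv hqN u₁ u₂ hrel]
    congr 1
    have h3 : (⟨x⁻¹ * k * x, ker_le_subP1 hqN h'⟩ : subP1 N q) =
        (⟨x, hx1⟩ : subP1 N q)⁻¹ * ⟨k, ker_le_subP1 hqN hk⟩ * ⟨x, hx1⟩ := rfl
    rw [h3, map_mul, map_mul, map_inv, mul_comm, mul_inv_cancel_left]
  · intro x hx k hk h'
    have hx2 : x ∈ subP2 N q := (mem_gammaMix_iff x).mpr hx
    rw [psiK_apply, psiK_apply]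
    have h3 : (⟨x⁻¹ * k * x, ker_le_subP2 h'⟩ : subP2 N q) =
        (⟨x, hx2⟩ : subP2 N q)⁻¹ * ⟨k, ker_le_subP2 hk⟩ * ⟨x, hx2⟩ := rfl
    rw [h3, map_mul, map_mul, map_inv, mul_comm, mul_inv_cancel_left]

/-! ### Parabolic elements -/

theorem isPar_conj_pow (g t : ↥(Gamma0 N)) (m : ℕ) (hg : IsPar (g : SL(2, ℤ))) :
    IsPar ((t⁻¹ * g ^ m * t : ↥(Gamma0 N)) : SL(2, ℤ)) := by
  have := isPar_conj ((g : SL(2, ℤ)) ^ m) (t : SL(2, ℤ)) (isPar_pow _ hg m)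
  simpa using this

theorem redQ_pow_of_isPar (x : ↥(Gamma0 N)) (hx : IsPar (x : SL(2, ℤ))) :
    redQ N q x ^ (2 * q) = 1 := by
  rw [pow_mul]
  apply sl2_pow_eq_one_of_trace_two
  have h1 : (((x : SL(2, ℤ)) ^ 2 : SL(2, ℤ)) : Matrix (Fin 2) (Fin 2) ℤ).trace = 2 := by
    have hdet := (x : SL(2, ℤ)).det_coe
    rw [Matrix.det_fin_two] at hdet
    unfold IsPar at hx
    rw [Matrix.trace_fin_two] at hx
    rw [Matrix.SpecialLinearGroup.coe_pow, pow_two, Matrix.trace_fin_two, Matrix.mul_apply,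
      Matrix.mul_apply, Fin.sum_univ_two, Fin.sum_univ_two]
    linear_combination hx - 2 * hdet
  rw [← map_pow, Matrix.trace_fin_two, redQ_apply, redQ_apply, ← Int.cast_add]
  rw [Matrix.trace_fin_two] at h1
  have h2 : ((x ^ 2 : ↥(Gamma0 N)) : SL(2, ℤ)) = (x : SL(2, ℤ)) ^ 2 := rfl
  rw [h2, h1]
  norm_cast

/-! ### The extension -/

include hqN hrel in
theorem psiK_par (hu₂ : IsParabolicHom (Gamma0 (N * q)) u₂) (k : ↥(Gamma0 N))
    (hk : k ∈ (redQ N q).ker) (hpar : IsPar (k : SL(2, ℤ))) : psiK u₁ ⟨k, hk⟩ = 1 := by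
  rw [psiK_eq_inv hqN u₁ u₂ hrel, psi2_apply,
    hu₂ (toP1 N q ⟨k, ker_le_subP1 hqN hk⟩) hpar, ofAdd_zero, inv_one]

include hqN hrel in
/-- **The glued class**, multiplicatively. -/
theorem exists_glue_mul (hp2 : p ≠ 2) (hqp : q ≠ p)
    (hu₂ : IsParabolicHom (Gamma0 (N * q)) u₂) :
    ∃ c : ↥(Gamma0 N) →* AP p,
      (∀ (k : ↥(Gamma0 N)) (hk : k ∈ (redQ N q).ker), c k = psiK u₁ ⟨k, hk⟩) ∧
      ∀ g : ↥(Gamma0 N), IsPar (g : SL(2, ℤ)) → c g = 1 := by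
  have hpp : p.Prime := Fact.out
  have hqq : q.Prime := Fact.out
  have hp1 : 1 < p := hpp.one_lt
  have hinv := psiK_inv hqN u₁ u₂ hrel
  have hnpq : ¬ p ∣ q := fun h => hqp ((Nat.prime_dvd_prime_iff_eq hpp hqq).mp h).symm
  have hnp2 : ¬ p ∣ 2 := fun h => hp2 ((Nat.prime_dvd_prime_iff_eq hpp Nat.prime_two).mp h)
  by_cases hdiv : p ∣ q + 1
  · -- the non-split torus
    obtain ⟨t₀, ht₀⟩ := IsCyclic.exists_generator (α := torus q)
    obtain ⟨s, hs⟩ := redQ_surjective hqN (t₀ : SL(2, ZMod q))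
    obtain ⟨n, hn⟩ := redQ_surjective hqN (torusInv q)
    have hs' : ∀ x : ↥(Gamma0 N), redQ N q x ∈ torus q → ∃ i : ℤ, redQ N q x = redQ N q s ^ i := by
      intro x hx
      obtain ⟨i, hi⟩ := Subgroup.mem_zpowers_iff.mp (ht₀ ⟨redQ N q x, hx⟩)
      refine ⟨i, ?_⟩
      rw [hs]
      have := congrArg Subtype.val hi
      simpa using this.symm
    have hn' : ∀ t ∈ torus q, redQ N q n * t * (redQ N q n)⁻¹ = t⁻¹ := by
      rw [hn]
      exact torusInv_spec q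
    have hodd : 2 * ((p + 1) / 2) = p + 1 := by
      have := hpp.eq_one_or_self_of_dvd 2
      have hodd' : p % 2 = 1 := by
        rcases Nat.mod_two_eq_zero_or_one p with h | h
        · exact absurd (Nat.dvd_of_mod_eq_zero h) (fun h2 => hp2 (by
            rcases this h2 with h3 | h3
            · omega
            · exact h3.symm))
        · exact h
      omega
    have hr : ∀ a : AP p, (a ^ 2) ^ ((p + 1) / 2) = a := by
      intro a
      rw [← pow_mul, hodd, pow_succ, AP_pow_p, one_mul]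
    obtain ⟨ψ', hψ'⟩ := exists_extension_of_inverting (redQ N q) (psiK u₁) hinv (torus q) s n
      hs' hn' ((p + 1) / 2) hr
    have hKP : (redQ N q).ker ≤ (torus q).comap (redQ N q) := by
      intro k hk
      rw [Subgroup.mem_comap, MonoidHom.mem_ker.mp hk]
      exact (torus q).one_mem
    have hidx : ((torus q).comap (redQ N q)).index = q * (q - 1) := by
      rw [Subgroup.index_comap_of_surjective _ (redQ_surjective hqN), index_torus]
    have hq1 : 0 < q - 1 := Nat.sub_pos_of_lt hqq.one_lt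
    have : ((torus q).comap (redQ N q)).FiniteIndex :=
      ⟨by rw [hidx]; exact Nat.mul_ne_zero hqq.ne_zero hq1.ne'⟩
    have hnq1 : ¬ p ∣ q - 1 := by
      intro h
      have h2 : p ∣ (q + 1) - (q - 1) := Nat.dvd_sub hdiv h
      have h3 : (q + 1) - (q - 1) = 2 := by omega
      rw [h3] at h2
      exact hnp2 h2
    have hcop : Nat.Coprime ((torus q).comap (redQ N q)).index p := by
      rw [hidx]
      refine Nat.Coprime.symm ((Nat.Prime.coprime_iff_not_dvd hpp).mpr ?_)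
      intro h
      rcases (Nat.Prime.dvd_mul hpp).mp h with h | h
      · exact hnpq h
      · exact hnq1 h
    have hcop2q : Nat.Coprime (2 * q) p := by
      refine Nat.Coprime.symm ((Nat.Prime.coprime_iff_not_dvd hpp).mpr ?_)
      intro h
      rcases (Nat.Prime.dvd_mul hpp).mp h with h | h
      · exact hnp2 h
      · exact hnpq h
    refine exists_extension_of_index (redQ N q) (psiK u₁) hinv ((torus q).comap (redQ N q)) hKP ψ'
      (fun k hk => hψ' k hk (hKP hk)) p hp1 AP_pow_p hcop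
      (fun g => IsPar (g : SL(2, ℤ))) (fun g t m hg => isPar_conj_pow g t m hg) ?_
    intro x hx
    have h2q : (x : ↥(Gamma0 N)) ^ (2 * q) ∈ (redQ N q).ker := by
      rw [MonoidHom.mem_ker, map_pow, redQ_pow_of_isPar _ hx]
    have h1 : ψ' x ^ (2 * q) = 1 := by
      rw [← map_pow]
      have h3 : x ^ (2 * q) = ⟨(x : ↥(Gamma0 N)) ^ (2 * q), hKP h2q⟩ := Subtype.ext rfl
      rw [h3, hψ' _ h2q, psiK_par hqN u₁ u₂ hrel hu₂ _ h2q (isPar_pow _ hx _)]
    exact AP_eq_one_of_pow _ (2 * q) hcop2q h1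
  · -- the Borel subgroup
    have hidx : (subP1 N q).index = q + 1 := relIndex_gamma0 hqN
    have : (subP1 N q).FiniteIndex := ⟨by rw [hidx]; omega⟩
    have hcop : Nat.Coprime (subP1 N q).index p := by
      rw [hidx]
      exact Nat.Coprime.symm ((Nat.Prime.coprime_iff_not_dvd hpp).mpr hdiv)
    refine exists_extension_of_index (redQ N q) (psiK u₁) hinv (subP1 N q) (ker_le_subP1 hqN)
      (psi2 u₂)⁻¹ (fun k hk => ?_) p hp1 AP_pow_p hcop
      (fun g => IsPar (g : SL(2, ℤ))) (fun g t m hg => isPar_conj_pow g t m hg) ?_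
    · rw [MonoidHom.inv_apply, psiK_eq_inv hqN u₁ u₂ hrel]
    · intro x hx
      rw [MonoidHom.inv_apply, psi2_apply, hu₂ (toP1 N q x) hx, ofAdd_zero, inv_one]

/-! ### The Eisenstein error terms -/

theorem eq_one_of_trace_two (hqp : q ≠ p) (P : Subgroup ↥(Gamma0 N))
    (hKP : (redQ N q).ker ≤ P) (ε : P →* AP p)
    (hε : ∀ (k : ↥(Gamma0 N)) (hk : k ∈ (redQ N q).ker), ε ⟨k, hKP hk⟩ = 1) (x : P)
    (htr : (redQ N q (x : ↥(Gamma0 N)) : Matrix (Fin 2) (Fin 2) (ZMod q)).trace = 2) :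
    ε x = 1 := by
  have hpp : p.Prime := Fact.out
  have hqq : q.Prime := Fact.out
  have hk : (x : ↥(Gamma0 N)) ^ q ∈ (redQ N q).ker := by
    rw [MonoidHom.mem_ker, map_pow, sl2_pow_eq_one_of_trace_two _ htr]
  have h1 : ε x ^ q = 1 := by
    rw [← map_pow]
    have h3 : x ^ q = ⟨(x : ↥(Gamma0 N)) ^ q, hKP hk⟩ := Subtype.ext rfl
    rw [h3, hε _ hk]
  refine AP_eq_one_of_pow _ q ?_ h1
  exact (Nat.coprime_primes hqq hpp).mpr hqp

theorem trace_redQ_of_lowerRight (a b c d : ℤ) (hdet : a * d - b * c = 1) (hc : (q : ℤ) ∣ c)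
    (hd : ((d : ℤ) : ZMod q) = 1) : ((a : ℤ) : ZMod q) + ((d : ℤ) : ZMod q) = 2 := by
  have h1 := congrArg (fun z : ℤ => (z : ZMod q)) hdet
  simp only [Int.cast_sub, Int.cast_mul, Int.cast_one] at h1
  have hc0 : ((c : ℤ) : ZMod q) = 0 := (ZMod.intCast_zmod_eq_zero_iff_dvd _ _).mpr hc
  rw [hd, hc0, mul_one, mul_zero, sub_zero] at h1
  rw [h1, hd]
  norm_num

include hqN hrel in
/-- **The second saturation step, mod `p`.** -/
theorem exists_glue (hp2 : p ≠ 2) (hqp : q ≠ p)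
    (hu₂ : IsParabolicHom (Gamma0 (N * q)) u₂) :
    ∃ c : H (Gamma0 N) (ZMod p), IsParabolicHom (Gamma0 N) c ∧
      (∀ g : ↥(Gamma0 (N * q)), (((g : SL(2, ℤ)) 1 1 : ℤ) : ZMod q) = 1 →
        u₁ (Additive.ofMul g) = deg2 N q (ZMod p) c (Additive.ofMul g)) ∧
      (∀ g : ↥(Gamma0 (N * q)), (((g : SL(2, ℤ)) 1 1 : ℤ) : ZMod q) = 1 →
        u₂ (Additive.ofMul g) + res N q (ZMod p) c (Additive.ofMul g) = 0) := by
  obtain ⟨c, hcK, hcpar⟩ := exists_glue_mul hqN u₁ u₂ hrel hp2 hqp hu₂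
  have hqdvd : ∀ g : ↥(Gamma0 (N * q)), (q : ℤ) ∣ (g : SL(2, ℤ)) 1 0 := by
    intro g
    have h := (ZMod.intCast_zmod_eq_zero_iff_dvd _ _).mp (Gamma0_mem.mp g.2)
    refine dvd_trans ?_ h
    push_cast
    exact Dvd.intro_left _ rfl
  refine ⟨MonoidHom.toAdditiveLeft c, ?_, ?_, ?_⟩
  · intro γ hγ
    show Multiplicative.toAdd (c γ) = 0
    rw [hcpar γ hγ, toAdd_one]
  · intro g hd
    rw [deg2_apply]
    show u₁ (Additive.ofMul g) = Multiplicative.toAdd (c (cdel N q g))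
    have hy2 : cdel N q g ∈ subP2 N q := cdel_mem_gammaMix g
    let ε : subP2 N q →* AP p := psi1 u₁ * (c.comp (subP2 N q).subtype)⁻¹
    have hε : ∀ (k : ↥(Gamma0 N)) (hk : k ∈ (redQ N q).ker), ε ⟨k, ker_le_subP2 hk⟩ = 1 := by
      intro k hk
      show psi1 u₁ ⟨k, _⟩ * (c k)⁻¹ = 1
      rw [hcK k hk, psiK_apply, mul_inv_cancel]
    have htr : (redQ N q (cdel N q g) : Matrix (Fin 2) (Fin 2) (ZMod q)).trace = 2 := by
      rw [Matrix.trace_fin_two, redQ_apply, redQ_apply]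
      have hdet := (g : SL(2, ℤ)).det_coe
      rw [Matrix.det_fin_two] at hdet
      exact trace_redQ_of_lowerRight _ _ _ _ hdet (hqdvd g) hd
    have h1 := eq_one_of_trace_two hqp (subP2 N q) ker_le_subP2 ε hε ⟨cdel N q g, hy2⟩ htr
    have h2 : toP2 N q ⟨cdel N q g, hy2⟩ = cdelMix (M := N) (q := q) g := Subtype.ext rfl
    have h3 : ε ⟨cdel N q g, hy2⟩ =
        Multiplicative.ofAdd (u₁ (Additive.ofMul g)) * (c (cdel N q g))⁻¹ := by
      show psi1 u₁ ⟨cdel N q g, hy2⟩ * (c (cdel N q g))⁻¹ = _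
      rw [psi1_apply, h2, MulEquiv.symm_apply_apply]
    rw [h3] at h1
    have h4 := eq_of_mul_inv_eq_one h1
    rw [← h4, toAdd_ofAdd]
  · intro g hd
    rw [res_apply]
    show u₂ (Additive.ofMul g) + Multiplicative.toAdd (c (inclMul N q g)) = 0
    have hx1 : inclMul N q g ∈ subP1 N q := g.2
    let ε : subP1 N q →* AP p := psi2 u₂ * c.comp (subP1 N q).subtype
    have hε : ∀ (k : ↥(Gamma0 N)) (hk : k ∈ (redQ N q).ker),
        ε ⟨k, ker_le_subP1 hqN hk⟩ = 1 := by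
      intro k hk
      show psi2 u₂ ⟨k, _⟩ * c k = 1
      rw [hcK k hk, psiK_eq_inv hqN u₁ u₂ hrel, mul_inv_cancel]
    have htr : (redQ N q (inclMul N q g) : Matrix (Fin 2) (Fin 2) (ZMod q)).trace = 2 := by
      rw [Matrix.trace_fin_two, redQ_apply, redQ_apply]
      have hdet := (g : SL(2, ℤ)).det_coe
      rw [Matrix.det_fin_two] at hdet
      exact trace_redQ_of_lowerRight _ _ _ _ hdet (hqdvd g) hd
    have h1 := eq_one_of_trace_two hqp (subP1 N q) (ker_le_subP1 hqN) ε hε ⟨inclMul N q g, hx1⟩ htr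
    have h2 : toP1 N q ⟨inclMul N q g, hx1⟩ = g := Subtype.ext rfl
    have h3 : ε ⟨inclMul N q g, hx1⟩ =
        Multiplicative.ofAdd (u₂ (Additive.ofMul g)) * c (inclMul N q g) := by
      show psi2 u₂ ⟨inclMul N q g, hx1⟩ * c (inclMul N q g) = _
      rw [psi2_apply, h2]
    rw [h3] at h1
    have h4 := congrArg Multiplicative.toAdd h1
    rwa [toAdd_mul, toAdd_ofAdd, toAdd_one] at h4

end Main

end Fermat.Agent.S59lib.N3
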