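/-
S59lib / N3 / Sat (helper2): **saturation of `ξ = (ξ₀, ξ₁, ξ₂) : L_N³ → L_{N q²}` up to
Eisenstein**, `q ∤ N`, `p` odd, `p ≠ q`:

`ξ₀ a₀ + ξ₁ a₁ + ξ₂ a₂ ∈ p L_{N q²}  ⇒  (T_ℓ' - ℓ' - 1) (T_ℓ - ℓ - 1) a_i ∈ p L_N`
(`ℓ ∤ N q`, `ℓ' ∤ N` primes), and the same for `j = q ξ₀ - ξ₁ T_q + ξ₂`.

First step (level `N q → N q²`): `Sat2b.exists_glue`; second step (level `N → N q`): main's
`TREE.cspBrick` (Ihara).
-/
import Mathlib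
import Fermat.Agent.S59lib.N3.Sat2b
import Fermat.Agent.S59lib.N3.Gram
import Fermat.Agent.S41lib.TREE.CspBrick

set_option autoImplicit false
set_option linter.unusedSectionVars false
set_option linter.unusedVariables false

noncomputable section

namespace Fermat.Agent.S59lib.N3

open Matrix Matrix.SpecialLinearGroup CongruenceSubgroup ModularCurve.Period
open Fermat.Agent.S41lib.HC Fermat.Agent.S41lib.PD Fermat.Agent.S41lib.BR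
open Fermat.Agent.S41lib.IH Fermat.Agent.S41lib.TREE Fermat.Agent.S31lib.PET
open Fermat.Agent.S16lib.LG Fermat.Agent.S16lib.LH
open scoped MatrixGroups

/-! ### The Eisenstein operator `T_ℓ - (ℓ + 1)` -/

section Eis

variable {M ℓ : ℕ} [NeZero M] [Fact ℓ.Prime] (hℓM : ¬ ℓ ∣ M) (A : Type*) [AddCommGroup A]

/-- `T_ℓ - (ℓ + 1)` on `H(Γ₀(M), A)` -/
def eisOp : H (Gamma0 M) A →+ H (Gamma0 M) A :=
  heckeT hℓM A - (ℓ + 1) • AddMonoidHom.id _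

theorem eisOp_apply (φ : H (Gamma0 M) A) : eisOp hℓM A φ = heckeT hℓM A φ - (ℓ + 1) • φ := rfl

variable {A}

theorem eisOp_isParabolicHom {φ : H (Gamma0 M) A} (hφ : IsParabolicHom (Gamma0 M) φ) :
    IsParabolicHom (Gamma0 M) (eisOp hℓM A φ) := by
  intro γ hγ
  rw [eisOp_apply, AddMonoidHom.sub_apply, AddMonoidHom.nsmul_apply,
    heckeT_isParabolicHom hℓM hφ γ hγ, hφ γ hγ, smul_zero, sub_zero]

/-- a class killing `Γ₁(M)` is killed by `T_ℓ - (ℓ + 1)` -/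
theorem eisOp_eq_zero_of_kills (φ : H (Gamma0 M) A)
    (hφ : ∀ g : ↥(Gamma0 M), Gamma0Map M g = 1 → φ (Additive.ofMul g) = 0) :
    eisOp hℓM A φ = 0 := by
  rw [eisOp_apply, heckeT_eq_smul_of_kills_Gamma1 hℓM φ hφ, sub_self]

theorem eisOp_coeff {A' : Type*} [AddCommGroup A'] (j : A →+ A') (φ : H (Gamma0 M) A) :
    eisOp hℓM A' (coeff _ j φ) = coeff _ j (eisOp hℓM A φ) := by
  rw [eisOp_apply, eisOp_apply, heckeT_coeff, map_sub, map_nsmul]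

end Eis

section Comm

variable {M q ℓ : ℕ} [NeZero M] [Fact q.Prime] [Fact ℓ.Prime] (hℓM : ¬ ℓ ∣ M)
  (hℓMq : ¬ ℓ ∣ M * q) {A : Type*} [AddCommGroup A]

theorem res_eisOp (φ : H (Gamma0 M) A) :
    res M q A (eisOp hℓM A φ) = eisOp hℓMq A (res M q A φ) := by
  rw [eisOp_apply, eisOp_apply, map_sub, map_nsmul, res_heckeT hℓM hℓMq]

theorem deg2_eisOp (φ : H (Gamma0 M) A) :
    deg2 M q A (eisOp hℓM A φ) = eisOp hℓMq A (deg2 M q A φ) := by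
  rw [eisOp_apply, eisOp_apply, map_sub, map_nsmul, deg2_heckeT hℓM hℓMq]

theorem deg2_coeff {A' : Type*} [AddCommGroup A'] (j : A →+ A') (φ : H (Gamma0 M) A) :
    deg2 M q A' (coeff _ j φ) = coeff _ j (deg2 M q A φ) :=
  (CosetData.ofHom (cdel M q)).op_coeff j φ

end Comm

/-! ### Saturation mod `p` -/

section ModP

variable {N q p ℓ ℓ' : ℕ} [NeZero N] [Fact q.Prime] [Fact p.Prime] [Fact ℓ.Prime] [Fact ℓ'.Prime]
  (hqN : ¬ q ∣ N)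

include hqN in
theorem sat_modp (hp2 : p ≠ 2) (hqp : q ≠ p) (hℓN : ¬ ℓ ∣ N) (hℓNq : ¬ ℓ ∣ N * q)
    (hℓ'N : ¬ ℓ' ∣ N) (a₀ a₁ a₂ : H (Gamma0 N) (ZMod p))
    (h₀ : IsParabolicHom (Gamma0 N) a₀) (h₁ : IsParabolicHom (Gamma0 N) a₁)
    (h₂ : IsParabolicHom (Gamma0 N) a₂)
    (hker : res (N * q) q (ZMod p) (res N q (ZMod p) a₀) +
      res (N * q) q (ZMod p) (deg2 N q (ZMod p) a₁) +
      deg2 (N * q) q (ZMod p) (deg2 N q (ZMod p) a₂) = 0) :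
    eisOp hℓ'N (ZMod p) (eisOp hℓN (ZMod p) a₀) = 0 ∧
    eisOp hℓ'N (ZMod p) (eisOp hℓN (ZMod p) a₁) = 0 ∧
    eisOp hℓ'N (ZMod p) (eisOp hℓN (ZMod p) a₂) = 0 := by
  set u₁ : H (Gamma0 (N * q)) (ZMod p) := res N q (ZMod p) a₀ + deg2 N q (ZMod p) a₁ with hu₁
  set u₂ : H (Gamma0 (N * q)) (ZMod p) := deg2 N q (ZMod p) a₂ with hu₂
  have hrel : res (N * q) q (ZMod p) u₁ + deg2 (N * q) q (ZMod p) u₂ = 0 := by
    rw [hu₁, map_add]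
    exact hker
  have hpar₂ : IsParabolicHom (Gamma0 (N * q)) u₂ := deg2_isParabolicHom N q h₂
  obtain ⟨c, hc, he₁, he₂⟩ := exists_glue hqN u₁ u₂ hrel hp2 hqp hpar₂
  -- the error terms are Eisenstein at level `N q`
  have hcast : ∀ g : ↥(Gamma0 (N * q)), Gamma0Map (N * q) g = 1 →
      (((g : SL(2, ℤ)) 1 1 : ℤ) : ZMod q) = 1 := by
    intro g hg
    have h := (gamma0Map_eq_one_iff g).mp hg
    have h2 : (q : ℤ) ∣ (g : SL(2, ℤ)) 1 1 - 1 := by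
      refine dvd_trans ?_ h
      push_cast
      exact Dvd.intro_left _ rfl
    have h3 := (ZMod.intCast_zmod_eq_zero_iff_dvd _ q).mpr h2
    push_cast at h3
    exact sub_eq_zero.mp h3
  have hE₁ : eisOp hℓNq (ZMod p) (u₁ - deg2 N q (ZMod p) c) = 0 := by
    apply eisOp_eq_zero_of_kills
    intro g hg
    rw [AddMonoidHom.sub_apply, he₁ g (hcast g hg), sub_self]
  have hE₂ : eisOp hℓNq (ZMod p) (u₂ + res N q (ZMod p) c) = 0 := by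
    apply eisOp_eq_zero_of_kills
    intro g hg
    rw [AddMonoidHom.add_apply, he₂ g (hcast g hg)]
  -- push the Eisenstein operator to level `N`
  have hF₁ : res N q (ZMod p) (eisOp hℓN (ZMod p) a₀) +
      deg hqN (ZMod p) (eisOp hℓN (ZMod p) (a₁ - c)) = 0 := by
    rw [← deg2_eq_deg hqN, res_eisOp hℓN hℓNq, deg2_eisOp hℓN hℓNq, ← map_add, map_sub,
      ← add_sub_assoc]
    exact hE₁
  have hF₂ : res N q (ZMod p) (eisOp hℓN (ZMod p) c) +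
      deg hqN (ZMod p) (eisOp hℓN (ZMod p) a₂) = 0 := by
    rw [← deg2_eq_deg hqN, res_eisOp hℓN hℓNq, deg2_eisOp hℓN hℓNq, ← map_add, add_comm]
    exact hE₂
  have hcsp : CSPBrick (N := N) hqN p := cspBrick hqN hp2 hqp
  have hpar_sub : IsParabolicHom (Gamma0 N) (a₁ - c) := by
    intro γ hγ
    rw [AddMonoidHom.sub_apply, h₁ γ hγ, hc γ hγ, sub_zero]
  obtain ⟨k₀, k₁⟩ := hcsp _ _ (eisOp_isParabolicHom hℓN h₀) (eisOp_isParabolicHom hℓN hpar_sub) hF₁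
  obtain ⟨kc, k₂⟩ := hcsp _ _ (eisOp_isParabolicHom hℓN hc) (eisOp_isParabolicHom hℓN h₂) hF₂
  have r₀ := eisOp_eq_zero_of_kills hℓ'N _ k₀
  have r₁ := eisOp_eq_zero_of_kills hℓ'N _ k₁
  have rc := eisOp_eq_zero_of_kills hℓ'N _ kc
  have r₂ := eisOp_eq_zero_of_kills hℓ'N _ k₂
  refine ⟨r₀, ?_, r₂⟩
  have : a₁ = (a₁ - c) + c := by abel
  rw [this, map_add, map_add, r₁, rc, add_zero]

end ModP

/-! ### Saturation over `ℤ` -/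

section Integral

/-- `T_ℓ - (ℓ + 1)` on the lattice `L_M` -/
def eisL {M ℓ : ℕ} [NeZero M] (hℓ : ℓ.Prime) (hℓM : ¬ ℓ ∣ M) : Module.End ℤ ↥(VZ (Gamma0 M)) :=
  tL hℓ hℓM - ((ℓ : ℤ) + 1) • (1 : Module.End ℤ ↥(VZ (Gamma0 M)))

theorem eisL_apply {M ℓ : ℕ} [NeZero M] (hℓ : ℓ.Prime) (hℓM : ¬ ℓ ∣ M) (x : ↥(VZ (Gamma0 M))) :
    eisL hℓ hℓM x = tL hℓ hℓM x - ((ℓ : ℤ) + 1) • x := rfl

theorem eisL_coe {M ℓ : ℕ} [NeZero M] [Fact ℓ.Prime] (hℓ : ℓ.Prime) (hℓM : ¬ ℓ ∣ M)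
    (x : ↥(VZ (Gamma0 M))) :
    ((eisL hℓ hℓM x : ↥(VZ (Gamma0 M))) : H (Gamma0 M) ℤ) = eisOp hℓM ℤ x.1 := by
  rw [eisL_apply, Submodule.coe_sub, Submodule.coe_smul, tL_coe, eisOp_apply]
  have hcast : ((ℓ : ℤ) + 1) = ((ℓ + 1 : ℕ) : ℤ) := by push_cast; ring
  rw [hcast, natCast_zsmul]

variable {N q p ℓ ℓ' : ℕ} [NeZero N] [Fact q.Prime] [Fact p.Prime] (hqN : ¬ q ∣ N)

include hqN in
/-- **Saturation of `ξ` up to Eisenstein.** -/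
theorem sat_xi (hp2 : p ≠ 2) (hqp : q ≠ p) (hℓ : ℓ.Prime) (hℓ' : ℓ'.Prime) (hℓN : ¬ ℓ ∣ N)
    (hℓNq : ¬ ℓ ∣ N * q) (hℓ'N : ¬ ℓ' ∣ N) (a₀ a₁ a₂ : ↥(VZ (Gamma0 N)))
    (b : ↥(VZ (Gamma0 (N * q * q))))
    (h : xi0 N q a₀ + xi1 N q a₁ + xi2 N q a₂ = (p : ℤ) • b) :
    (∃ a' : ↥(VZ (Gamma0 N)), eisL hℓ' hℓ'N (eisL hℓ hℓN a₀) = (p : ℤ) • a') ∧
    (∃ a' : ↥(VZ (Gamma0 N)), eisL hℓ' hℓ'N (eisL hℓ hℓN a₁) = (p : ℤ) • a') ∧
    (∃ a' : ↥(VZ (Gamma0 N)), eisL hℓ' hℓ'N (eisL hℓ hℓN a₂) = (p : ℤ) • a') := by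
  have : Fact ℓ.Prime := ⟨hℓ⟩
  have : Fact ℓ'.Prime := ⟨hℓ'⟩
  set j : ℤ →+ ZMod p := Int.castAddHom (ZMod p) with hj
  have hker : res (N * q) q (ZMod p) (res N q (ZMod p) (coeff _ j a₀.1)) +
      res (N * q) q (ZMod p) (deg2 N q (ZMod p) (coeff _ j a₁.1)) +
      deg2 (N * q) q (ZMod p) (deg2 N q (ZMod p) (coeff _ j a₂.1)) = 0 := by
    have h1 := congrArg (fun v : ↥(VZ (Gamma0 (N * q * q))) => coeff _ j v.1) h
    simp only [Submodule.coe_add, xi0_apply, xi1_apply, xi2_apply, resL_coe, deg2L_coe,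
      Submodule.coe_smul, map_add] at h1
    rw [res_coeff, res_coeff, deg2_coeff, res_coeff, deg2_coeff, deg2_coeff, h1]
    refine AddMonoidHom.ext fun γ => ?_
    simp [hj]
  obtain ⟨r₀, r₁, r₂⟩ := sat_modp hqN hp2 hqp hℓN hℓNq hℓ'N _ _ _
    (coeff_isParabolicHom _ j a₀.2) (coeff_isParabolicHom _ j a₁.2)
    (coeff_isParabolicHom _ j a₂.2) hker
  have key : ∀ a : ↥(VZ (Gamma0 N)),
      eisOp hℓ'N (ZMod p) (eisOp hℓN (ZMod p) (coeff _ j a.1)) = 0 →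
      ∃ a' : ↥(VZ (Gamma0 N)), eisL hℓ' hℓ'N (eisL hℓ hℓN a) = (p : ℤ) • a' := by
    intro a ha
    rw [eisOp_coeff, eisOp_coeff] at ha
    obtain ⟨ψ, hψ⟩ := exists_eq_smul_of_coeff_eq_zero (Gamma0 N) _ ha
    have hpar : IsParabolicHom (Gamma0 N) ψ := by
      apply isParabolicHom_of_smul (p := p)
      rw [← hψ]
      exact eisOp_isParabolicHom hℓ'N (eisOp_isParabolicHom hℓN a.2)
    refine ⟨⟨ψ, hpar⟩, ?_⟩
    apply Subtype.ext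
    rw [eisL_coe, eisL_coe, hψ]
    rfl
  exact ⟨key a₀ r₀, key a₁ r₁, key a₂ r₂⟩

include hqN in
/-- **Saturation of `j = q ξ₀ - ξ₁ T_q + ξ₂` up to Eisenstein.** -/
theorem sat_jmap (hp2 : p ≠ 2) (hqp : q ≠ p) (hℓ : ℓ.Prime) (hℓ' : ℓ'.Prime) (hℓN : ¬ ℓ ∣ N)
    (hℓNq : ¬ ℓ ∣ N * q) (hℓ'N : ¬ ℓ' ∣ N) (x : ↥(VZ (Gamma0 N)))
    (b : ↥(VZ (Gamma0 (N * q * q)))) (h : jmap hqN x = (p : ℤ) • b) :
    ∃ x' : ↥(VZ (Gamma0 N)), eisL hℓ' hℓ'N (eisL hℓ hℓN x) = (p : ℤ) • x' := by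
  have h1 : xi0 N q ((q : ℤ) • x) + xi1 N q (-(tL (Fact.out : q.Prime) hqN x)) + xi2 N q x =
      (p : ℤ) • b := by
    rw [← h, jmap_apply, map_smul, map_neg]
    abel
  exact (sat_xi hqN hp2 hqp hℓ hℓ' hℓN hℓNq hℓ'N _ _ _ b h1).2.2

end Integral

end Fermat.Agent.S59lib.N3
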