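/-
S59lib / N3 / Factor (helper2): saturation as an operator identity over `ℤ`.

Abstract: `L, L''` free `ℤ`-modules of finite rank, `j : L → L''`, `E : L → L` with
`j x ∈ p L'' ⇒ E x ∈ p L`; then `E = F ∘ j + p • G` for some `F : L'' → L`, `G : L → L`
(linear algebra over `𝔽_p`).  This form of saturation survives every base change.

Applied to `j = jmap` and `E = (T_ℓ' - ℓ' - 1) (T_ℓ - ℓ - 1)`.
-/
import Mathlib
import Fermat.Agent.S59lib.N3.Sat

set_option autoImplicit false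
set_option linter.unusedSectionVars false
set_option linter.unusedVariables false

noncomputable section

namespace Fermat.Agent.S59lib.N3

open TensorProduct

section Abstract

variable {p : ℕ} [Fact p.Prime]

/-- every element of `𝔽_p ⊗ L` is a pure tensor `1 ⊗ x` -/
theorem exists_one_tmul {L : Type*} [AddCommGroup L] (v : ZMod p ⊗[ℤ] L) :
    ∃ x : L, v = (1 : ZMod p) ⊗ₜ[ℤ] x := by
  induction v using TensorProduct.induction_on with
  | zero => exact ⟨0, by simp⟩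
  | tmul c x =>
    obtain ⟨n, rfl⟩ := ZMod.intCast_surjective c
    refine ⟨n • x, ?_⟩
    rw [← TensorProduct.smul_tmul]
    congr 1
    simp
  | add a b ha hb =>
    obtain ⟨x, rfl⟩ := ha
    obtain ⟨y, rfl⟩ := hb
    exact ⟨x + y, (TensorProduct.tmul_add _ _ _).symm⟩

/-- `1 ⊗ y = 0` in `𝔽_p ⊗ L` iff `y ∈ p L` (`L` free) -/
theorem one_tmul_eq_zero_iff {L : Type*} [AddCommGroup L] [Module.Free ℤ L] (y : L) :
    (1 : ZMod p) ⊗ₜ[ℤ] y = 0 ↔ ∃ y' : L, y = (p : ℤ) • y' := by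
  classical
  let b := Module.Free.chooseBasis ℤ L
  constructor
  · intro h
    have h1 : ∀ i, ((b.repr y i : ℤ) : ZMod p) = 0 := by
      intro i
      have h2 := congrArg (fun v => (b.baseChange (ZMod p)).repr v i) h
      simpa using h2
    have h3 : ∀ i, ∃ c : ℤ, b.repr y i = (p : ℤ) * c := fun i =>
      (ZMod.intCast_zmod_eq_zero_iff_dvd _ p).mp (h1 i)
    refine ⟨b.repr.symm ((b.repr y).mapRange (fun n => n / (p : ℤ)) (by simp)), ?_⟩
    apply b.repr.injective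
    ext i
    rw [map_smul, LinearEquiv.apply_symm_apply, Finsupp.smul_apply, Finsupp.mapRange_apply,
      smul_eq_mul]
    obtain ⟨c, hc⟩ := h3 i
    exact (Int.mul_ediv_cancel' ⟨c, hc⟩).symm
  · rintro ⟨y', rfl⟩
    rw [TensorProduct.tmul_smul, TensorProduct.smul_tmul']
    have : ((p : ℤ) • (1 : ZMod p)) = 0 := by simp
    rw [this, TensorProduct.zero_tmul]

/-- **Saturation as an operator identity.** -/
theorem exists_factor_of_sat {L L'' : Type*} [AddCommGroup L] [AddCommGroup L'']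
    [Module.Free ℤ L] [Module.Free ℤ L''] (j : L →ₗ[ℤ] L'') (E : L →ₗ[ℤ] L)
    (h : ∀ x : L, (∃ b : L'', j x = (p : ℤ) • b) → ∃ x' : L, E x = (p : ℤ) • x') :
    ∃ (F : L'' →ₗ[ℤ] L) (G : L →ₗ[ℤ] L), E = F.comp j + (p : ℤ) • G := by
  classical
  let jb : ZMod p ⊗[ℤ] L →ₗ[ZMod p] ZMod p ⊗[ℤ] L'' := j.baseChange (ZMod p)
  let Eb : ZMod p ⊗[ℤ] L →ₗ[ZMod p] ZMod p ⊗[ℤ] L := E.baseChange (ZMod p)
  have hker : LinearMap.ker jb ≤ LinearMap.ker Eb := by
    intro v hv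
    obtain ⟨x, rfl⟩ := exists_one_tmul v
    rw [LinearMap.mem_ker, LinearMap.baseChange_tmul] at hv ⊢
    obtain ⟨x', hx'⟩ := h x ((one_tmul_eq_zero_iff _).mp hv)
    exact (one_tmul_eq_zero_iff _).mpr ⟨x', hx'⟩
  -- factor over the field
  let h₀ : LinearMap.range jb →ₗ[ZMod p] ZMod p ⊗[ℤ] L :=
    ((LinearMap.ker jb).liftQ Eb hker).comp (LinearMap.quotKerEquivRange jb).symm.toLinearMap
  obtain ⟨Fb, hFb⟩ := LinearMap.exists_extend h₀
  have hFb' : ∀ v, Fb (jb v) = Eb v := by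
    intro v
    have h1 := congrArg (fun g => g ⟨jb v, LinearMap.mem_range_self jb v⟩) hFb
    simp only [LinearMap.comp_apply, Submodule.subtype_apply] at h1
    rw [h1]
    show ((LinearMap.ker jb).liftQ Eb hker)
      ((LinearMap.quotKerEquivRange jb).symm ⟨jb v, LinearMap.mem_range_self jb v⟩) = Eb v
    rw [LinearMap.quotKerEquivRange_symm_apply_image, Submodule.mkQ_apply, Submodule.liftQ_apply]
  -- lift `Fb` to `ℤ`
  let b'' := Module.Free.chooseBasis ℤ L''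
  have hx : ∀ k, ∃ x : L, Fb ((1 : ZMod p) ⊗ₜ[ℤ] b'' k) = (1 : ZMod p) ⊗ₜ[ℤ] x :=
    fun k => exists_one_tmul _
  choose xk hxk using hx
  let F : L'' →ₗ[ℤ] L := b''.constr ℤ xk
  have hF : ∀ y : L'', (1 : ZMod p) ⊗ₜ[ℤ] F y = Fb ((1 : ZMod p) ⊗ₜ[ℤ] y) := by
    intro y
    let φ₁ : L'' →ₗ[ℤ] ZMod p ⊗[ℤ] L :=
      (TensorProduct.mk ℤ (ZMod p) L 1).comp F
    let φ₂ : L'' →ₗ[ℤ] ZMod p ⊗[ℤ] L :=
      (Fb.restrictScalars ℤ).comp (TensorProduct.mk ℤ (ZMod p) L'' 1)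
    have : φ₁ = φ₂ := by
      apply b''.ext
      intro k
      show (1 : ZMod p) ⊗ₜ[ℤ] F (b'' k) = Fb ((1 : ZMod p) ⊗ₜ[ℤ] b'' k)
      rw [hxk k, Module.Basis.constr_basis]
    exact congrArg (fun g => g y) this
  -- the difference is divisible by `p`
  let b := Module.Free.chooseBasis ℤ L
  have hz : ∀ i, ∃ z : L, E (b i) - F (j (b i)) = (p : ℤ) • z := by
    intro i
    apply (one_tmul_eq_zero_iff (p := p) _).mp
    rw [TensorProduct.tmul_sub, hF, ← LinearMap.baseChange_tmul, ← LinearMap.baseChange_tmul]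
    show Eb _ - Fb (jb _) = 0
    rw [hFb', sub_self]
  choose zi hzi using hz
  refine ⟨F, b.constr ℤ zi, ?_⟩
  apply b.ext
  intro i
  rw [LinearMap.add_apply, LinearMap.comp_apply, LinearMap.smul_apply, Module.Basis.constr_basis,
    ← hzi i]
  abel

end Abstract

/-! ### Application to `j` -/

section Apply

open CongruenceSubgroup Fermat.Agent.S41lib.BR Fermat.Agent.S16lib.LG
open scoped MatrixGroups

variable {N q p ℓ ℓ' : ℕ} [NeZero N] [Fact q.Prime] [Fact p.Prime] (hqN : ¬ q ∣ N)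

include hqN in
/-- **Saturation of `j` as an operator identity**:
`(T_ℓ' - ℓ' - 1) (T_ℓ - ℓ - 1) = F ∘ j + p • G`. -/
theorem exists_factor_jmap (hp2 : p ≠ 2) (hqp : q ≠ p) (hℓ : ℓ.Prime) (hℓ' : ℓ'.Prime)
    (hℓN : ¬ ℓ ∣ N) (hℓNq : ¬ ℓ ∣ N * q) (hℓ'N : ¬ ℓ' ∣ N) :
    ∃ (F : ↥(VZ (Gamma0 (N * q * q))) →ₗ[ℤ] ↥(VZ (Gamma0 N)))
      (G : ↥(VZ (Gamma0 N)) →ₗ[ℤ] ↥(VZ (Gamma0 N))),
      (eisL hℓ' hℓ'N).comp (eisL hℓ hℓN) = F.comp (jmap hqN) + (p : ℤ) • G :=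
  exists_factor_of_sat (jmap hqN) ((eisL hℓ' hℓ'N).comp (eisL hℓ hℓN)) (fun x ⟨b, hb⟩ =>
    sat_jmap hqN hp2 hqp hℓ hℓ' hℓN hℓNq hℓ'N x b hb)

end Apply

end Fermat.Agent.S59lib.N3
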