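/-
S59lib / N3 / Fricke (helper2): the Fricke involution `w_M` (conjugation by `(0 -1; M 0)`) on
`H(Γ₀(M), A)` and on the lattice `L_M`: an isometric involution, with

`w_{M q} ∘ res = deg2 ∘ w_M`,  `w_{M q} ∘ deg2 = res ∘ w_M`   (no powers of `q`).
-/
import Mathlib
import Fermat.Agent.S59lib.N3.Lat2

set_option autoImplicit false
set_option linter.unusedSectionVars false
set_option linter.unusedVariables false

noncomputable section

namespace Fermat.Agent.S59lib.N3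

open Matrix.SpecialLinearGroup CongruenceSubgroup
open Fermat.Agent.S16lib.LH Fermat.Agent.S29lib.H Fermat.Agent.S31lib.PET
open Fermat.Agent.S41lib.HC Fermat.Agent.S41lib.BR Fermat.Agent.S41lib.PD
open Fermat.Agent.S43lib.B1 Fermat.Agent.S16lib.LG ModularCurve.Period
open Fermat.Agent.ProgramR.ES
open scoped MatrixGroups

/-- the Fricke matrix `(0 -1; M 0)` -/
def wMat (M : ℕ) : MZ := !![0, -1; (M : ℤ), 0]

theorem wMat_det (M : ℕ) : (wMat M).det = M := by
  rw [wMat, Matrix.det_fin_two_of]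
  ring

theorem wMat_mul_dq (M q : ℕ) : wMat M * dq q = wMat (M * q) := by
  ext i j
  fin_cases i <;> fin_cases j <;> simp [wMat, dq, Matrix.mul_apply, Fin.sum_univ_two]

theorem dq_mul_wMat (M q : ℕ) : dq q * wMat (M * q) = (q : ℤ) • wMat M := by
  ext i j
  fin_cases i <;> fin_cases j <;> simp [wMat, dq, Matrix.mul_apply, Fin.sum_univ_two]
  ring

section Conj

variable (M : ℕ) [NeZero M]

theorem wMat_det_ne_zero : (wMat M).det ≠ 0 := by
  rw [wMat_det]
  exact_mod_cast NeZero.ne M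

theorem dvd_lowerLeft' (γ : ↥(Gamma0 M)) :
    (M : ℤ) ∣ ((γ : SL(2, ℤ)) : Matrix (Fin 2) (Fin 2) ℤ) 1 0 :=
  (ZMod.intCast_zmod_eq_zero_iff_dvd _ _).mp (Gamma0_mem.mp γ.2)

/-- the matrix of `W γ W⁻¹` -/
def frickeMat (γ : ↥(Gamma0 M)) : MZ :=
  !![((γ : SL(2, ℤ)) : Matrix (Fin 2) (Fin 2) ℤ) 1 1,
    -(((γ : SL(2, ℤ)) : Matrix (Fin 2) (Fin 2) ℤ) 1 0 / (M : ℤ));
    -((M : ℤ) * ((γ : SL(2, ℤ)) : Matrix (Fin 2) (Fin 2) ℤ) 0 1),
    ((γ : SL(2, ℤ)) : Matrix (Fin 2) (Fin 2) ℤ) 0 0]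

theorem M_mul_div (γ : ↥(Gamma0 M)) :
    (M : ℤ) * (((γ : SL(2, ℤ)) : Matrix (Fin 2) (Fin 2) ℤ) 1 0 / (M : ℤ)) =
      ((γ : SL(2, ℤ)) : Matrix (Fin 2) (Fin 2) ℤ) 1 0 :=
  Int.mul_ediv_cancel' (dvd_lowerLeft' M γ)

theorem frickeMat_det (γ : ↥(Gamma0 M)) : (frickeMat M γ).det = 1 := by
  have h := (γ : SL(2, ℤ)).det_coe
  rw [Matrix.det_fin_two] at h
  rw [frickeMat, Matrix.det_fin_two_of]
  have h2 := M_mul_div M γ
  linear_combination h - ((γ : SL(2, ℤ)) : Matrix (Fin 2) (Fin 2) ℤ) 0 1 * h2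

theorem frickeMat_10 (γ : ↥(Gamma0 M)) : (M : ℤ) ∣ frickeMat M γ 1 0 := by
  show (M : ℤ) ∣ -((M : ℤ) * ((γ : SL(2, ℤ)) : Matrix (Fin 2) (Fin 2) ℤ) 0 1)
  exact Dvd.dvd.neg_right (Dvd.intro _ rfl)

/-- `W γ W⁻¹` as an element of `Γ₀(M)` -/
def frickeFun (γ : ↥(Gamma0 M)) : ↥(Gamma0 M) :=
  ofMZ (frickeMat M γ) (frickeMat_det M γ) (frickeMat_10 M γ)

@[simp] theorem toMZ_frickeFun (γ : ↥(Gamma0 M)) : toMZ (frickeFun M γ) = frickeMat M γ := rfl

/-- the integral relation `W γ = (W γ W⁻¹) W` -/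
theorem frickeFun_int (γ : ↥(Gamma0 M)) :
    wMat M * toMZ γ = toMZ (frickeFun M γ) * wMat M := by
  rw [toMZ_frickeFun]
  have h2 := M_mul_div M γ
  ext i j
  fin_cases i <;> fin_cases j <;>
    simp [wMat, frickeMat, toMZ, Matrix.mul_apply, Fin.sum_univ_two]
  · linear_combination -h2
  · ring

/-- uniqueness: an element `X` with `W γ = X W` is `W γ W⁻¹` -/
theorem eq_frickeFun_of_int (γ X : ↥(Gamma0 M)) (h : wMat M * toMZ γ = toMZ X * wMat M) :
    X = frickeFun M γ := by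
  apply toMZ_injective
  refine MZ_mul_right_cancel (wMat_det_ne_zero M) ?_
  rw [← h, frickeFun_int]

/-- `γ ↦ W γ W⁻¹`, an automorphism of `Γ₀(M)` -/
def frickeHom : ↥(Gamma0 M) →* ↥(Gamma0 M) :=
  MonoidHom.mk' (frickeFun M) (by
    intro a b
    symm
    apply eq_frickeFun_of_int
    rw [toMZ_mul, toMZ_mul, ← Matrix.mul_assoc, frickeFun_int, Matrix.mul_assoc, frickeFun_int,
      Matrix.mul_assoc])

@[simp] theorem frickeHom_apply (γ : ↥(Gamma0 M)) : frickeHom M γ = frickeFun M γ := rfl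

theorem frickeHom_int (γ : ↥(Gamma0 M)) :
    wMat M * toMZ γ = toMZ (frickeHom M γ) * wMat M := frickeFun_int M γ

theorem wMat_sq : wMat M * wMat M = (-(M : ℤ)) • (1 : MZ) := by
  ext i j
  fin_cases i <;> fin_cases j <;> simp [wMat, Matrix.mul_apply, Fin.sum_univ_two]

theorem frickeHom_frickeHom (γ : ↥(Gamma0 M)) : frickeHom M (frickeHom M γ) = γ := by
  apply toMZ_injective
  refine MZ_mul_right_cancel (B := wMat M * wMat M) ?_ ?_
  · rw [Matrix.det_mul]
    exact mul_ne_zero (wMat_det_ne_zero M) (wMat_det_ne_zero M)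
  · rw [← Matrix.mul_assoc, ← frickeHom_int M (frickeHom M γ), Matrix.mul_assoc,
      ← frickeHom_int M γ, ← Matrix.mul_assoc, wMat_sq, Matrix.smul_mul, Matrix.one_mul,
      Matrix.mul_smul, Matrix.mul_one]

/-- the Fricke automorphism of `Γ₀(M)` -/
def frickeEquiv : ↥(Gamma0 M) ≃* ↥(Gamma0 M) where
  toFun := frickeHom M
  invFun := frickeHom M
  left_inv := frickeHom_frickeHom M
  right_inv := frickeHom_frickeHom M
  map_mul' := map_mul (frickeHom M)

theorem frickeEquiv_apply (γ : ↥(Gamma0 M)) : frickeEquiv M γ = frickeHom M γ := rfl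

theorem trace_frickeHom (γ : ↥(Gamma0 M)) :
    (((frickeHom M γ : ↥(Gamma0 M)) : SL(2, ℤ)) : MZ).trace = ((γ : SL(2, ℤ)) : MZ).trace := by
  rw [Matrix.trace_fin_two, Matrix.trace_fin_two]
  show frickeMat M γ 0 0 + frickeMat M γ 1 1 = _
  simp [frickeMat]
  ring

end Conj

/-! ### The operator -/

section Op

variable (M : ℕ) [NeZero M]

/-- the Fricke involution on `H(Γ₀(M), A)` -/
def fricke (A : Type*) [AddCommGroup A] : H (Gamma0 M) A →+ H (Gamma0 M) A :=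
  (CosetData.ofHom (frickeHom M)).op A

@[simp] theorem fricke_apply {A : Type*} [AddCommGroup A] (φ : H (Gamma0 M) A)
    (γ : ↥(Gamma0 M)) :
    fricke M A φ (Additive.ofMul γ) = φ (Additive.ofMul (frickeHom M γ)) :=
  CosetData.ofHom_op_apply _ φ γ

theorem fricke_fricke {A : Type*} [AddCommGroup A] (φ : H (Gamma0 M) A) :
    fricke M A (fricke M A φ) = φ := by
  refine AddMonoidHom.ext fun γ' => ?_
  obtain ⟨γ, rfl⟩ := Additive.ofMul.surjective γ'
  rw [fricke_apply, fricke_apply, frickeHom_frickeHom]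

theorem fricke_isParabolicHom {A : Type*} [AddCommGroup A] {φ : H (Gamma0 M) A}
    (hφ : IsParabolicHom (Gamma0 M) φ) : IsParabolicHom (Gamma0 M) (fricke M A φ) := by
  intro γ hγ
  rw [fricke_apply]
  apply hφ
  rw [trace_frickeHom]
  exact hγ

/-- the Fricke involution on the lattice `L_M` -/
def frickeL : ↥(VZ (Gamma0 M)) →ₗ[ℤ] ↥(VZ (Gamma0 M)) :=
  ((CosetData.ofHom (frickeHom M)).opₗ ℤ ℤ).restrict (p := VZ (Gamma0 M))
    (q := VZ (Gamma0 M)) (fun _ hφ => fricke_isParabolicHom M hφ)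

@[simp] theorem frickeL_coe (v : ↥(VZ (Gamma0 M))) :
    ((frickeL M v : ↥(VZ (Gamma0 M))) : H (Gamma0 M) ℤ) = fricke M ℤ v.1 := rfl

theorem frickeL_frickeL (v : ↥(VZ (Gamma0 M))) : frickeL M (frickeL M v) = v :=
  Subtype.ext (fricke_fricke M v.1)

/-- `w_M` is an isometry of the form -/
theorem form_frickeL [Fintype (SL(2, ℤ) ⧸ Gamma0 M)] (x y : ↥(VZ (Gamma0 M))) :
    form (Gamma0 M) (frickeL M x) (frickeL M y) = form (Gamma0 M) x y := by
  have hdet : (0 : ℤ) < (wMat M).det := by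
    rw [wMat_det]
    exact_mod_cast Nat.pos_of_ne_zero (NeZero.ne M)
  refine form_conj (gamma0_neg_one_mem _) (gamma0_neg_one_mem _) (wMat M) hdet (frickeEquiv M)
    (fun γ => frickeHom_int M γ) x y (frickeL M x) (frickeL M y) ?_ ?_
  · intro γ
    rw [frickeL_coe, fricke_apply]
    rfl
  · intro γ
    rw [frickeL_coe, fricke_apply]
    rfl

/-- `w_M` is self-adjoint -/
theorem form_frickeL_left [Fintype (SL(2, ℤ) ⧸ Gamma0 M)] (x y : ↥(VZ (Gamma0 M))) :
    form (Gamma0 M) (frickeL M x) y = form (Gamma0 M) x (frickeL M y) := by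
  rw [← form_frickeL M x (frickeL M y), frickeL_frickeL]

end Op

/-! ### Level change -/

section Level

variable (M q : ℕ) [NeZero M] [Fact q.Prime]

theorem inclMul_frickeHom (γ : ↥(Gamma0 (M * q))) :
    inclMul M q (frickeHom (M * q) γ) = frickeHom M (cdel M q γ) := by
  apply eq_frickeFun_of_int
  have h1 := frickeHom_int (M * q) γ
  have h2 := cdel_int M q γ
  have h3 : toMZ (inclMul M q (frickeHom (M * q) γ)) = toMZ (frickeHom (M * q) γ) := rfl
  have hq0 : (dq q).det ≠ 0 := by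
    rw [dq_det]
    exact_mod_cast (Fact.out : q.Prime).ne_zero
  refine MZ_mul_right_cancel hq0 ?_
  rw [h3, Matrix.mul_assoc, ← h2, ← Matrix.mul_assoc, wMat_mul_dq, h1, Matrix.mul_assoc,
    wMat_mul_dq]

theorem cdel_frickeHom (γ : ↥(Gamma0 (M * q))) :
    cdel M q (frickeHom (M * q) γ) = frickeHom M (inclMul M q γ) := by
  apply eq_frickeFun_of_int
  have h1 := frickeHom_int (M * q) γ
  have h2 := cdel_int M q (frickeHom (M * q) γ)
  have h3 : toMZ (inclMul M q γ) = toMZ γ := rfl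
  have hq0 : (q : ℤ) ≠ 0 := by exact_mod_cast (Fact.out : q.Prime).ne_zero
  -- multiply `dq * θ'γ = X * dq` by `W'` on the right
  have h4 : (q : ℤ) • (wMat M * toMZ γ) =
      (q : ℤ) • (toMZ (cdel M q (frickeHom (M * q) γ)) * wMat M) := by
    rw [← Matrix.smul_mul, ← dq_mul_wMat, Matrix.mul_assoc, h1, ← Matrix.mul_assoc, h2,
      Matrix.mul_assoc, dq_mul_wMat, Matrix.mul_smul]
  rw [h3]
  exact smul_right_injective MZ hq0 h4

/-- `w_{M q} ∘ res = deg2 ∘ w_M` -/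
theorem fricke_res {A : Type*} [AddCommGroup A] (φ : H (Gamma0 M) A) :
    fricke (M * q) A (res M q A φ) = deg2 M q A (fricke M A φ) := by
  refine AddMonoidHom.ext fun γ' => ?_
  obtain ⟨γ, rfl⟩ := Additive.ofMul.surjective γ'
  rw [fricke_apply, res_apply, deg2_apply, fricke_apply, inclMul_frickeHom]

/-- `w_{M q} ∘ deg2 = res ∘ w_M` -/
theorem fricke_deg2 {A : Type*} [AddCommGroup A] (φ : H (Gamma0 M) A) :
    fricke (M * q) A (deg2 M q A φ) = res M q A (fricke M A φ) := by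
  refine AddMonoidHom.ext fun γ' => ?_
  obtain ⟨γ, rfl⟩ := Additive.ofMul.surjective γ'
  rw [fricke_apply, deg2_apply, res_apply, fricke_apply, cdel_frickeHom]

theorem frickeL_resL (x : ↥(VZ (Gamma0 M))) :
    frickeL (M * q) (resL M q x) = deg2L M q (frickeL M x) :=
  Subtype.ext (fricke_res M q x.1)

theorem frickeL_deg2L (x : ↥(VZ (Gamma0 M))) :
    frickeL (M * q) (deg2L M q x) = resL M q (frickeL M x) :=
  Subtype.ext (fricke_deg2 M q x.1)

end Level

end Fermat.Agent.S59lib.N3
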