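/-
S59lib / N3 / Twist (helper2): the Fricke involution and the Hecke operators; the `w`-twisted Gram
formula.

* `frickeL_tL`     : `w_N T_ℓ = T_ℓ w_N`  (`ℓ ∤ N`);
* `form_uL_frickeL`: `⟨U_q x, w y⟩ = ⟨x, w U_q y⟩` (`q ∣ M`): `U_q` is self-adjoint for the twisted form
  `⟨x, w y⟩`;
* `frickeL_xi0/1/2`: `w_{N q²} ξ_i = ξ_{2 - i} w_N`;
* `form_jmap_twist`: `⟨j x, w'' (j y)⟩ = (q - 1) ((q + 1)² ⟨x, w y⟩ - ⟨x, T_q² w y⟩)`.
-/
import Mathlib
import Fermat.Agent.S59lib.N3.Gram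
import Fermat.Agent.S59lib.N3.Fricke

set_option autoImplicit false
set_option linter.unusedSectionVars false
set_option linter.unusedVariables false

noncomputable section

namespace Fermat.Agent.S59lib.N3

open Matrix.SpecialLinearGroup CongruenceSubgroup
open Fermat.Agent.S16lib.LH Fermat.Agent.S29lib.H Fermat.Agent.S31lib.PET
open Fermat.Agent.S41lib.HC Fermat.Agent.S41lib.BR Fermat.Agent.S41lib.PD
open Fermat.Agent.S43lib.B1 Fermat.Agent.S16lib.LG ModularCurve.Period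
open Fermat.Agent.ProgramR.ES
open scoped MatrixGroups

/-! ### `w` commutes with `T_ℓ` -/

section CommT

variable {N q : ℕ} [NeZero N] [Fact q.Prime] (hqN : ¬ q ∣ N)
variable [Fintype (SL(2, ℤ) ⧸ Gamma0 N)] [Fintype (SL(2, ℤ) ⧸ Gamma0 (N * q))]

theorem form_tL_eq (b' x : ↥(VZ (Gamma0 N))) :
    form (Gamma0 N) b' (tL (Fact.out : q.Prime) hqN x) =
      form (Gamma0 (N * q)) (resL N q b') (deg2L N q x) := by
  rw [deg2L_eq_degL hqN, form_resL_coresAL hqN, coresAL_degL]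

/-- **`w_N T_q = T_q w_N`**, `q ∤ N` -/
theorem frickeL_tL_self (x : ↥(VZ (Gamma0 N))) :
    frickeL N (tL (Fact.out : q.Prime) hqN x) = tL (Fact.out : q.Prime) hqN (frickeL N x) := by
  rw [← sub_eq_zero]
  apply eq_zero_of_form_eq_zero
  intro b'
  have hneg := gamma0_neg_one_mem N
  have hneg' := gamma0_neg_one_mem (N * q)
  rw [← formBil_apply hneg, map_sub, formBil_apply, formBil_apply, sub_eq_zero]
  -- left side
  have h1 : form (Gamma0 N) b' (frickeL N (tL (Fact.out : q.Prime) hqN x)) =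
      form (Gamma0 (N * q)) (deg2L N q b') (resL N q (frickeL N x)) := by
    rw [← form_frickeL_left, form_tL_eq hqN, ← frickeL_deg2L, form_frickeL_left,
      frickeL_deg2L]
  -- right side
  have h2 : form (Gamma0 N) b' (tL (Fact.out : q.Prime) hqN (frickeL N x)) =
      form (Gamma0 (N * q)) (deg2L N q b') (resL N q (frickeL N x)) := by
    rw [← form_tL_self hqN, form_swap hneg, form_tL_eq hqN, ← form_swap hneg']
  rw [h1, h2]

end CommT

section CommTl

variable {N ℓ : ℕ} [NeZero N]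

theorem frickeL_tL (hℓ : ℓ.Prime) (hℓN : ¬ ℓ ∣ N) (x : ↥(VZ (Gamma0 N))) :
    frickeL N (tL hℓ hℓN x) = tL hℓ hℓN (frickeL N x) := by
  classical
  have : Fact ℓ.Prime := ⟨hℓ⟩
  have : NeZero (N * ℓ) := ⟨Nat.mul_ne_zero (NeZero.ne N) hℓ.ne_zero⟩
  let _ : Fintype (SL(2, ℤ) ⧸ Gamma0 N) := Fintype.ofFinite _
  let _ : Fintype (SL(2, ℤ) ⧸ Gamma0 (N * ℓ)) := Fintype.ofFinite _
  exact frickeL_tL_self hℓN x

end CommTl

/-! ### `U_q` is self-adjoint for the twisted form -/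

section AdjU

variable {M q : ℕ} [NeZero M] [Fact q.Prime] (hqM : q ∣ M)
variable [Fintype (SL(2, ℤ) ⧸ Gamma0 M)] [Fintype (SL(2, ℤ) ⧸ Gamma0 (M * q))]

theorem form_uL_frickeL (x y : ↥(VZ (Gamma0 M))) :
    form (Gamma0 M) (uL hqM x) (frickeL M y) = form (Gamma0 M) x (frickeL M (uL hqM y)) := by
  have hneg := gamma0_neg_one_mem M
  have hneg' := gamma0_neg_one_mem (M * q)
  have h1 : form (Gamma0 M) (uL hqM x) (frickeL M y) =
      form (Gamma0 (M * q)) (resL M q x) (frickeL (M * q) (resL M q y)) := by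
    rw [← cores2BL_resL, form_swap hneg, ← form_deg2L_cores2BL hqM, ← frickeL_resL,
      ← form_swap hneg']
  have h2 : form (Gamma0 M) x (frickeL M (uL hqM y)) =
      form (Gamma0 (M * q)) (resL M q x) (frickeL (M * q) (resL M q y)) := by
    rw [← form_frickeL_left, ← cores2BL_resL, ← form_deg2L_cores2BL hqM, ← frickeL_resL,
      form_frickeL_left]
  rw [h1, h2]

end AdjU

/-! ### The three maps and the twisted Gram formula -/

section Three

variable {N q : ℕ} [NeZero N] [Fact q.Prime] (hqN : ¬ q ∣ N)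

theorem frickeL_xi0 (x : ↥(VZ (Gamma0 N))) :
    frickeL (N * q * q) (xi0 N q x) = xi2 N q (frickeL N x) := by
  rw [xi0_apply, xi2_apply, frickeL_resL, frickeL_resL]

theorem frickeL_xi1 (x : ↥(VZ (Gamma0 N))) :
    frickeL (N * q * q) (xi1 N q x) = xi1 N q (frickeL N x) := by
  rw [xi1_apply, xi1_apply', frickeL_resL, frickeL_deg2L]

theorem frickeL_xi2 (x : ↥(VZ (Gamma0 N))) :
    frickeL (N * q * q) (xi2 N q x) = xi0 N q (frickeL N x) := by
  rw [xi0_apply, xi2_apply, frickeL_deg2L, frickeL_deg2L]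

/-- the reversed combination `j^rev = ξ₀ - ξ₁ T_q + q ξ₂` -/
def jrev : ↥(VZ (Gamma0 N)) →ₗ[ℤ] ↥(VZ (Gamma0 (N * q * q))) :=
  xi0 N q - (xi1 N q).comp (tL (Fact.out : q.Prime) hqN) + (q : ℤ) • xi2 N q

theorem jrev_apply (x : ↥(VZ (Gamma0 N))) :
    jrev hqN x = xi0 N q x - xi1 N q (tL (Fact.out : q.Prime) hqN x) + (q : ℤ) • xi2 N q x := rfl

/-- `w'' ∘ j = j^rev ∘ w` -/
theorem frickeL_jmap (x : ↥(VZ (Gamma0 N))) :
    frickeL (N * q * q) (jmap hqN x) = jrev hqN (frickeL N x) := by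
  rw [jmap_apply, jrev_apply, map_add, map_sub, map_smul, frickeL_xi0, frickeL_xi1, frickeL_xi2,
    frickeL_tL]
  abel

variable [Fintype (SL(2, ℤ) ⧸ Gamma0 N)] [Fintype (SL(2, ℤ) ⧸ Gamma0 (N * q))]
  [Fintype (SL(2, ℤ) ⧸ Gamma0 (N * q * q))]

/-- `⟨j x, j^rev z⟩ = (q - 1) ((q + 1)² ⟨x, z⟩ - ⟨x, T_q² z⟩)` -/
theorem form_jmap_jrev (x z : ↥(VZ (Gamma0 N))) :
    form (Gamma0 (N * q * q)) (jmap hqN x) (jrev hqN z) =
      ((q : ℤ) - 1) * ((((q : ℤ) + 1) ^ 2) * form (Gamma0 N) x z -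
        form (Gamma0 N) x (tL (Fact.out : q.Prime) hqN (tL (Fact.out : q.Prime) hqN z))) := by
  have hneg := gamma0_neg_one_mem (N * q * q)
  rw [jmap_apply, jrev_apply]
  simp only [← formBil_apply hneg, map_add, map_sub, map_smul, LinearMap.add_apply,
    LinearMap.sub_apply, LinearMap.smul_apply]
  simp only [formBil_apply, gram00 hqN, gram01 hqN, gram02 hqN, gram10 hqN, gram11 hqN,
    gram12 hqN, gram20 hqN, gram21 hqN, gram22 hqN, ← form_tL_self hqN, smul_eq_mul]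
  ring

/-- **The twisted Gram formula**:
`⟨j x, w'' (j y)⟩ = (q - 1) ((q + 1)² ⟨x, w y⟩ - ⟨x, T_q² (w y)⟩)`. -/
theorem form_jmap_twist (x y : ↥(VZ (Gamma0 N))) :
    form (Gamma0 (N * q * q)) (jmap hqN x) (frickeL (N * q * q) (jmap hqN y)) =
      ((q : ℤ) - 1) * ((((q : ℤ) + 1) ^ 2) * form (Gamma0 N) x (frickeL N y) -
        form (Gamma0 N) x (tL (Fact.out : q.Prime) hqN
          (tL (Fact.out : q.Prime) hqN (frickeL N y)))) := by
  rw [frickeL_jmap, form_jmap_jrev]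

end Three

end Fermat.Agent.S59lib.N3
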