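/-
S59lib / N3 / Main (helper2): growth of the congruence module under `N → N q²` (`q ∤ N p`).

Model: `MO 𝒪 M = 𝒪 ⊗[ℤ] ↥(VZ (Gamma0 M))`, every operator is `(…).baseChange 𝒪` of the lattice
operator (`tO`, `uO`, `wO`, `eisO`, `jO`), forms `formO` (cup product) and `formOw x y = formO x (w y)`
(twisted: `T_ℓ`, `U_r` self-adjoint, antisymmetric, perfect for odd `p`).

* `inj_of_factor`, `isSat_map_of_factor` : abstract: `E = F ∘ j + π G`, `E = unit` on `Λ`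
  ⇒ `j` injective on `Λ`, `j Λ` saturated (DVR).
* `rightPerfect_baseChange` : a `ℤ`-form unimodular at `p` is perfect over a local ring with `p ∈ 𝔪`.
* `formO_jO`, `formOw_jO` : Gram formulas over `𝒪`; `jO_tO`, `uO_jO`, `wO_tO`, `formOw_tO`,
  `formOw_uO`, `formOw_swap`.
* **`length_cong_jO_twist`**, **`length_cong_jO`** : the growth formula.
* `eq_of_isSat_of_finrank_le` : saturated submodules are determined by their rank.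
-/
import Mathlib
import Fermat.Agent.S59lib.N3.Abs
import Fermat.Agent.S59lib.N3.Twist
import Fermat.Agent.S59lib.N3.Factor

set_option autoImplicit false
set_option linter.unusedSectionVars false
set_option linter.unusedVariables false

noncomputable section

namespace Fermat.Agent.S59lib.N3

open Module IsLocalRing TensorProduct
open Matrix.SpecialLinearGroup CongruenceSubgroup
open Fermat.Agent.S41lib.HC Fermat.Agent.S41lib.BR Fermat.Agent.S41lib.PD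
open Fermat.Agent.S16lib.LG
open scoped MatrixGroups

section AbsFactor

variable {𝒪 : Type*} [CommRing 𝒪] [IsDomain 𝒪] [IsDiscreteValuationRing 𝒪]
variable {M M'' : Type*} [AddCommGroup M] [Module 𝒪 M] [Module.Finite 𝒪 M]
  [AddCommGroup M''] [Module 𝒪 M''] [Module.IsTorsionFree 𝒪 M'']

/-- **Injectivity from a factorisation.**  If `E = F ∘ j + π G` with `π ∈ 𝔪`, and `E` acts on the
saturated `Λ` as a unit scalar, then `j` is injective on `Λ`. -/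
theorem inj_of_factor (j : M →ₗ[𝒪] M'') (E : M →ₗ[𝒪] M) (F : M'' →ₗ[𝒪] M) (G : M →ₗ[𝒪] M)
    (π : 𝒪) (hπ : π ∈ maximalIdeal 𝒪) (hfac : E = F ∘ₗ j + π • G)
    {Λ : Submodule 𝒪 M} (hsat : IsSat Λ) (u : 𝒪) (hu : IsUnit u) (hE : ∀ x ∈ Λ, E x = u • x) :
    ∀ x ∈ Λ, j x = 0 → x = 0 := by
  classical
  obtain ⟨v, hv⟩ := hu.exists_left_inv
  by_cases hπ0 : π = 0
  · intro x hx hjx
    have h1 : u • x = 0 := by
      rw [← hE x hx, hfac, LinearMap.add_apply, LinearMap.comp_apply, hjx, map_zero,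
        LinearMap.smul_apply, hπ0, zero_smul, add_zero]
    have : x = v • (u • x) := by rw [smul_smul, hv, one_smul]
    rw [this, h1, smul_zero]
  · -- the kernel `K` satisfies `K ≤ 𝔪 K`
    let K : Submodule 𝒪 M := Λ ⊓ LinearMap.ker j
    have hKfg : K.FG := IsNoetherian.noetherian K
    have hK : K ≤ maximalIdeal 𝒪 • K := by
      intro x hx
      have hxΛ : x ∈ Λ := hx.1
      have hjx : j x = 0 := hx.2
      have h1 : u • x = π • G x := by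
        rw [← hE x hxΛ, hfac, LinearMap.add_apply, LinearMap.comp_apply, hjx, map_zero,
          LinearMap.smul_apply, zero_add]
      have h2 : x = π • (v • G x) := by
        rw [smul_comm, ← h1, smul_smul, hv, one_smul]
      have h3 : v • G x ∈ Λ := hsat π _ hπ0 (h2 ▸ hxΛ)
      have h4 : j (v • G x) = 0 := by
        have : π • j (v • G x) = 0 := by rw [← map_smul, ← h2, hjx]
        exact (smul_eq_zero.mp this).resolve_left hπ0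
      rw [h2]
      exact Submodule.smul_mem_smul hπ ⟨h3, h4⟩
    have hbot : K = ⊥ := Submodule.eq_bot_of_le_smul_of_le_jacobson_bot _ _ hKfg hK
      (IsLocalRing.maximalIdeal_le_jacobson _)
    intro x hx hjx
    have : x ∈ K := ⟨hx, hjx⟩
    rw [hbot] at this
    exact (Submodule.mem_bot 𝒪).mp this

/-- **Saturation of the image from a factorisation.** -/
theorem isSat_map_of_factor (j : M →ₗ[𝒪] M'') (E : M →ₗ[𝒪] M) (F : M'' →ₗ[𝒪] M) (G : M →ₗ[𝒪] M)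
    (π : 𝒪) (hπ : π ∈ maximalIdeal 𝒪) (hfac : E = F ∘ₗ j + π • G)
    {Λ : Submodule 𝒪 M} (hsat : IsSat Λ) (u : 𝒪) (hu : IsUnit u) (hE : ∀ x ∈ Λ, E x = u • x) :
    IsSat (Λ.map j) := by
  classical
  obtain ⟨v, hv⟩ := hu.exists_left_inv
  obtain ⟨ϖ, hϖ⟩ := IsDiscreteValuationRing.exists_irreducible 𝒪
  have hϖ0 : ϖ ≠ 0 := hϖ.ne_zero
  have hmax : maximalIdeal 𝒪 = Ideal.span {ϖ} := hϖ.maximalIdeal_eq
  obtain ⟨π', hπ'⟩ : ∃ π', π = ϖ * π' := by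
    rw [hmax] at hπ
    exact Ideal.mem_span_singleton'.mp hπ |>.imp fun a ha => by rw [← ha, mul_comm]
  -- one step
  have step : ∀ m : M'', ϖ • m ∈ Λ.map j → m ∈ Λ.map j := by
    intro m hm
    obtain ⟨x, hxΛ, hx⟩ := Submodule.mem_map.mp hm
    have h1 : u • x = ϖ • (F m + π' • G x) := by
      rw [← hE x hxΛ, hfac, LinearMap.add_apply, LinearMap.comp_apply, hx, map_smul,
        LinearMap.smul_apply, hπ', smul_add, smul_smul]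
    have h2 : x = ϖ • (v • (F m + π' • G x)) := by
      rw [smul_comm, ← h1, smul_smul, hv, one_smul]
    have h3 : v • (F m + π' • G x) ∈ Λ := hsat ϖ _ hϖ0 (h2 ▸ hxΛ)
    refine Submodule.mem_map.mpr ⟨_, h3, ?_⟩
    have : ϖ • j (v • (F m + π' • G x)) = ϖ • m := by rw [← map_smul, ← h2, hx]
    exact smul_right_injective M'' hϖ0 this
  have steps : ∀ (n : ℕ) (m : M''), ϖ ^ n • m ∈ Λ.map j → m ∈ Λ.map j := by
    intro n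
    induction n with
    | zero => intro m hm; simpa using hm
    | succ n ih =>
      intro m hm
      apply ih
      apply step
      rwa [smul_smul, ← pow_succ']
  intro c m hc hm
  obtain ⟨n, w, hw⟩ := IsDiscreteValuationRing.eq_unit_mul_pow_irreducible hc hϖ
  apply steps n
  have : ϖ ^ n • m = ((w⁻¹ : 𝒪ˣ) : 𝒪) • (c • m) := by
    rw [smul_smul, hw, ← mul_assoc, Units.inv_mul, one_mul]
  rw [this]
  exact Submodule.smul_mem _ _ hm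

end AbsFactor

section Perfect

variable {L : Type*} [AddCommGroup L] [Module.Free ℤ L] [Module.Finite ℤ L]
variable {p : ℕ} [Fact p.Prime]

/-- the Gram determinant of a form unimodular at `p` is prime to `p` -/
theorem not_dvd_det_of_unimodular {ι : Type*} [Fintype ι] [DecidableEq ι] (b : Basis ι ℤ L)
    (B : LinearMap.BilinForm ℤ L)
    (h : ∀ y : L, (∀ x : L, (p : ℤ) ∣ B x y) → ∃ y' : L, y = (p : ℤ) • y') :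
    ¬ (p : ℤ) ∣ (Matrix.of fun i k => B (b i) (b k)).det := by
  intro hdvd
  set G : Matrix ι ι ℤ := Matrix.of fun i k => B (b i) (b k) with hG
  have hdet : (G.map (Int.castRingHom (ZMod p))).det = 0 := by
    rw [← RingHom.mapMatrix_apply, ← RingHom.map_det]
    exact (ZMod.intCast_zmod_eq_zero_iff_dvd _ p).mpr hdvd
  obtain ⟨v, hv0, hv⟩ := Matrix.exists_mulVec_eq_zero_iff.mpr hdet
  -- lift `v`
  have hlift : ∀ k, ∃ n : ℤ, (n : ZMod p) = v k := fun k => ZMod.intCast_surjective (v k)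
  choose vt hvt using hlift
  obtain ⟨y, hydef⟩ : ∃ y : L, y = ∑ k, vt k • b k := ⟨_, rfl⟩
  have hyb : ∀ i, (p : ℤ) ∣ B (b i) y := by
    intro i
    rw [hydef, map_sum]
    apply (ZMod.intCast_zmod_eq_zero_iff_dvd _ p).mp
    have h1 := congrFun hv i
    simp only [Matrix.mulVec, dotProduct, Matrix.map_apply, Pi.zero_apply] at h1
    push_cast
    rw [← h1]
    apply Finset.sum_congr rfl
    intro k _
    rw [map_smul, smul_eq_mul, Int.cast_mul, hvt k, mul_comm]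
    rfl
  have hy : ∀ x : L, (p : ℤ) ∣ B x y := by
    intro x
    have hx : B x y = ∑ i, b.repr x i * B (b i) y := by
      conv_lhs => rw [← b.sum_repr x]
      rw [map_sum, LinearMap.sum_apply]
      apply Finset.sum_congr rfl
      intro i _
      rw [map_smul, LinearMap.smul_apply, smul_eq_mul]
    rw [hx]
    apply Finset.dvd_sum
    intro i _
    exact Dvd.dvd.mul_left (hyb i) _
  obtain ⟨y', hy'⟩ := h y hy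
  apply hv0
  funext k
  have h2 : b.repr y k = vt k := by
    simp only [hydef, map_sum, map_smul, Module.Basis.repr_self, Finsupp.coe_finsetSum,
      Finset.sum_apply, Finsupp.smul_apply, Finsupp.single_apply, smul_eq_mul, mul_ite, mul_one,
      mul_zero, Finset.sum_ite_eq', Finset.mem_univ, if_true]
  have h3 : b.repr y k = (p : ℤ) * b.repr y' k := by
    rw [hy', map_smul, Finsupp.smul_apply, smul_eq_mul]
  rw [Pi.zero_apply, ← hvt k, ← h2, h3]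
  simp

/-- an integer prime to `p` is a unit in a local ring with `p ∈ 𝔪` -/
theorem isUnit_intCast_of_not_dvd {𝒪 : Type*} [CommRing 𝒪] [IsLocalRing 𝒪]
    (hp : (p : 𝒪) ∈ maximalIdeal 𝒪) (n : ℤ) (hn : ¬ (p : ℤ) ∣ n) : IsUnit (n : 𝒪) := by
  have hcop : IsCoprime (p : ℤ) n :=
    (Prime.coprime_iff_not_dvd (Nat.prime_iff_prime_int.mp (Fact.out : p.Prime))).mpr hn
  obtain ⟨a, c, hac⟩ := hcop
  have h1 : (c : 𝒪) * (n : 𝒪) = 1 - (a : 𝒪) * (p : 𝒪) := by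
    have := congrArg (Int.cast : ℤ → 𝒪) hac
    push_cast at this
    rw [← this]
    ring
  have h2 : IsUnit ((c : 𝒪) * (n : 𝒪)) := by
    rw [h1]
    have hmem : (a : 𝒪) * (p : 𝒪) ∈ maximalIdeal 𝒪 := Ideal.mul_mem_left _ _ hp
    by_contra hnu
    have h3 : (1 - (a : 𝒪) * (p : 𝒪)) ∈ maximalIdeal 𝒪 := (IsLocalRing.mem_maximalIdeal _).mpr hnu
    have h4 : (1 : 𝒪) ∈ maximalIdeal 𝒪 := by
      have := Ideal.add_mem _ h3 hmem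
      simp at this
    exact (Ideal.ne_top_iff_one _).mp (IsLocalRing.maximalIdeal.isMaximal 𝒪).ne_top h4
  exact isUnit_of_mul_isUnit_right h2

/-- **Perfectness after base change**: a `ℤ`-form unimodular at `p` becomes (right) perfect over any
local ring in which `p` is not a unit. -/
theorem rightPerfect_baseChange (𝒪 : Type*) [CommRing 𝒪] [IsLocalRing 𝒪]
    (hp : (p : 𝒪) ∈ maximalIdeal 𝒪) (B : LinearMap.BilinForm ℤ L)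
    (h : ∀ y : L, (∀ x : L, (p : ℤ) ∣ B x y) → ∃ y' : L, y = (p : ℤ) • y')
    (f : (𝒪 ⊗[ℤ] L) →ₗ[𝒪] 𝒪) :
    ∃ m : 𝒪 ⊗[ℤ] L, ∀ x, B.baseChange 𝒪 x m = f x := by
  classical
  let b := Module.finBasis ℤ L
  let bO : Basis (Fin (finrank ℤ L)) 𝒪 (𝒪 ⊗[ℤ] L) := b.baseChange 𝒪
  have hbO : ∀ i, bO i = (1 : 𝒪) ⊗ₜ[ℤ] b i := fun i => Module.Basis.baseChange_apply _ _ _
  let G : Matrix (Fin (finrank ℤ L)) (Fin (finrank ℤ L)) ℤ := Matrix.of fun i k => B (b i) (b k)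
  let GO : Matrix (Fin (finrank ℤ L)) (Fin (finrank ℤ L)) 𝒪 := G.map (Int.castRingHom 𝒪)
  have hdet : IsUnit GO.det := by
    have h1 : GO.det = ((G.det : ℤ) : 𝒪) := by
      show (G.map (Int.castRingHom 𝒪)).det = _
      rw [← RingHom.mapMatrix_apply, ← RingHom.map_det]
      rfl
    rw [h1]
    exact isUnit_intCast_of_not_dvd hp _ (not_dvd_det_of_unimodular b B h)
  have hGO : IsUnit GO := (Matrix.isUnit_iff_isUnit_det GO).mpr hdet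
  let w : Fin (finrank ℤ L) → 𝒪 := fun i => f (bO i)
  let c : Fin (finrank ℤ L) → 𝒪 := GO⁻¹.mulVec w
  have hc : GO.mulVec c = w := by
    show GO.mulVec (GO⁻¹.mulVec w) = w
    rw [Matrix.mulVec_mulVec, Matrix.mul_nonsing_inv _ hdet, Matrix.one_mulVec]
  refine ⟨∑ k, c k • bO k, ?_⟩
  have hpair : ∀ i k, B.baseChange 𝒪 (bO i) (bO k) = GO i k := by
    intro i k
    rw [hbO, hbO, LinearMap.BilinForm.baseChange_tmul, mul_one]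
    show (B (b i) (b k)) • (1 : 𝒪) = ((B (b i) (b k) : ℤ) : 𝒪)
    simp
  have key : LinearMap.flip (B.baseChange 𝒪) (∑ k, c k • bO k) = f := by
    apply bO.ext
    intro i
    rw [LinearMap.flip_apply, map_sum]
    have : ∀ k, B.baseChange 𝒪 (bO i) (c k • bO k) = GO i k * c k := by
      intro k
      rw [map_smul, hpair, smul_eq_mul, mul_comm]
    rw [Finset.sum_congr rfl fun k _ => this k]
    exact congrFun hc i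
  intro x
  have := LinearMap.congr_fun key x
  rwa [LinearMap.flip_apply] at this

end Perfect

section TensorExt

variable {𝒪 : Type*} [CommRing 𝒪]

theorem lin_ext_one_tmul {L P : Type*} [AddCommGroup L] [AddCommGroup P] [Module 𝒪 P]
    (f g : 𝒪 ⊗[ℤ] L →ₗ[𝒪] P) (h : ∀ x : L, f ((1 : 𝒪) ⊗ₜ[ℤ] x) = g ((1 : 𝒪) ⊗ₜ[ℤ] x)) : f = g := by
  apply LinearMap.ext
  intro v
  induction v using TensorProduct.induction_on with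
  | zero => simp
  | tmul a x =>
    have : a ⊗ₜ[ℤ] x = a • ((1 : 𝒪) ⊗ₜ[ℤ] x) := by
      rw [TensorProduct.smul_tmul', smul_eq_mul, mul_one]
    rw [this, map_smul, map_smul, h]
  | add v w hv hw => rw [map_add, map_add, hv, hw]

theorem bilin_ext_one_tmul {L₁ L₂ P : Type*} [AddCommGroup L₁] [AddCommGroup L₂] [AddCommGroup P]
    [Module 𝒪 P] (B₁ B₂ : 𝒪 ⊗[ℤ] L₁ →ₗ[𝒪] 𝒪 ⊗[ℤ] L₂ →ₗ[𝒪] P)
    (h : ∀ (x : L₁) (y : L₂), B₁ ((1 : 𝒪) ⊗ₜ[ℤ] x) ((1 : 𝒪) ⊗ₜ[ℤ] y) =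
      B₂ ((1 : 𝒪) ⊗ₜ[ℤ] x) ((1 : 𝒪) ⊗ₜ[ℤ] y)) : B₁ = B₂ := by
  apply lin_ext_one_tmul
  intro x
  apply lin_ext_one_tmul
  intro y
  exact h x y

end TensorExt

section Concrete

variable (𝒪 : Type*) [CommRing 𝒪]

/-- the lattice `𝒪 ⊗ L_M` -/
abbrev MO (M : ℕ) [NeZero M] : Type _ := 𝒪 ⊗[ℤ] ↥(VZ (Gamma0 M))

/-- the form on `𝒪 ⊗ L_M` -/
def formO (M : ℕ) [NeZero M] [Fintype (SL(2, ℤ) ⧸ Gamma0 M)] : LinearMap.BilinForm 𝒪 (MO 𝒪 M) :=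
  (formBil (Gamma0 M) (gamma0_neg_one_mem M)).baseChange 𝒪

/-- the Fricke involution on `𝒪 ⊗ L_M` -/
def wO (M : ℕ) [NeZero M] : MO 𝒪 M →ₗ[𝒪] MO 𝒪 M := (frickeL M).baseChange 𝒪

/-- the twisted form `⟨x, w y⟩` on `𝒪 ⊗ L_M` -/
def formOw (M : ℕ) [NeZero M] [Fintype (SL(2, ℤ) ⧸ Gamma0 M)] : LinearMap.BilinForm 𝒪 (MO 𝒪 M) :=
  (formO 𝒪 M).compl₂ (wO 𝒪 M)

/-- `T_ℓ` on `𝒪 ⊗ L_M`, `ℓ ∤ M` -/
def tO {M ℓ : ℕ} [NeZero M] (hℓ : ℓ.Prime) (hℓM : ¬ ℓ ∣ M) : MO 𝒪 M →ₗ[𝒪] MO 𝒪 M :=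
  (tL hℓ hℓM).baseChange 𝒪

/-- `U_q` on `𝒪 ⊗ L_M`, `q ∣ M` -/
def uO {M q : ℕ} [NeZero M] [Fact q.Prime] (hqM : q ∣ M) : MO 𝒪 M →ₗ[𝒪] MO 𝒪 M :=
  (uL hqM).baseChange 𝒪

/-- `T_ℓ - ℓ - 1` on `𝒪 ⊗ L_M` -/
def eisO {M ℓ : ℕ} [NeZero M] (hℓ : ℓ.Prime) (hℓM : ¬ ℓ ∣ M) : MO 𝒪 M →ₗ[𝒪] MO 𝒪 M :=
  (eisL hℓ hℓM).baseChange 𝒪

/-- the level-raising map `j` on `𝒪 ⊗ L_N` -/
def jO {N q : ℕ} [NeZero N] [Fact q.Prime] (hqN : ¬ q ∣ N) : MO 𝒪 N →ₗ[𝒪] MO 𝒪 (N * q * q) :=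
  (jmap hqN).baseChange 𝒪

variable {𝒪}

@[simp] theorem formO_tmul {M : ℕ} [NeZero M] [Fintype (SL(2, ℤ) ⧸ Gamma0 M)] (a b : 𝒪)
    (x y : ↥(VZ (Gamma0 M))) :
    formO 𝒪 M (a ⊗ₜ[ℤ] x) (b ⊗ₜ[ℤ] y) = (form (Gamma0 M) x y) • (a * b) := rfl

@[simp] theorem wO_tmul {M : ℕ} [NeZero M] (a : 𝒪) (x : ↥(VZ (Gamma0 M))) :
    wO 𝒪 M (a ⊗ₜ[ℤ] x) = a ⊗ₜ[ℤ] frickeL M x := rfl

@[simp] theorem formOw_apply {M : ℕ} [NeZero M] [Fintype (SL(2, ℤ) ⧸ Gamma0 M)] (x y : MO 𝒪 M) :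
    formOw 𝒪 M x y = formO 𝒪 M x (wO 𝒪 M y) := rfl

@[simp] theorem tO_tmul {M ℓ : ℕ} [NeZero M] (hℓ : ℓ.Prime) (hℓM : ¬ ℓ ∣ M) (a : 𝒪)
    (x : ↥(VZ (Gamma0 M))) : tO 𝒪 hℓ hℓM (a ⊗ₜ[ℤ] x) = a ⊗ₜ[ℤ] tL hℓ hℓM x := rfl

@[simp] theorem uO_tmul {M q : ℕ} [NeZero M] [Fact q.Prime] (hqM : q ∣ M) (a : 𝒪)
    (x : ↥(VZ (Gamma0 M))) : uO 𝒪 hqM (a ⊗ₜ[ℤ] x) = a ⊗ₜ[ℤ] uL hqM x := rfl

@[simp] theorem jO_tmul {N q : ℕ} [NeZero N] [Fact q.Prime] (hqN : ¬ q ∣ N) (a : 𝒪)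
    (x : ↥(VZ (Gamma0 N))) : jO 𝒪 hqN (a ⊗ₜ[ℤ] x) = a ⊗ₜ[ℤ] jmap hqN x := rfl

theorem eisO_eq {M ℓ : ℕ} [NeZero M] (hℓ : ℓ.Prime) (hℓM : ¬ ℓ ∣ M) :
    eisO 𝒪 hℓ hℓM = tO 𝒪 hℓ hℓM - ((ℓ : 𝒪) + 1) • LinearMap.id := by
  apply lin_ext_one_tmul
  intro x
  show (1 : 𝒪) ⊗ₜ[ℤ] (eisL hℓ hℓM x) = _
  rw [eisL_apply, TensorProduct.tmul_sub, LinearMap.sub_apply, LinearMap.smul_apply,
    LinearMap.id_apply, tO_tmul, TensorProduct.tmul_smul, TensorProduct.smul_tmul']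
  congr 2
  simp

theorem eisO_apply {M ℓ : ℕ} [NeZero M] (hℓ : ℓ.Prime) (hℓM : ¬ ℓ ∣ M) (x : MO 𝒪 M) :
    eisO 𝒪 hℓ hℓM x = tO 𝒪 hℓ hℓM x - ((ℓ : 𝒪) + 1) • x := by
  rw [eisO_eq]; rfl

end Concrete

section Relations

variable {𝒪 : Type*} [CommRing 𝒪]
variable {N q : ℕ} [NeZero N] [Fact q.Prime] (hqN : ¬ q ∣ N)

/-- `w² = 1` -/
theorem wO_wO {M : ℕ} [NeZero M] (x : MO 𝒪 M) : wO 𝒪 M (wO 𝒪 M x) = x := by
  have : (wO 𝒪 M) ∘ₗ (wO 𝒪 M) = LinearMap.id := by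
    apply lin_ext_one_tmul
    intro x
    show (1 : 𝒪) ⊗ₜ[ℤ] frickeL M (frickeL M x) = (1 : 𝒪) ⊗ₜ[ℤ] x
    rw [frickeL_frickeL]
  exact LinearMap.congr_fun this x

/-- `w T_ℓ = T_ℓ w` -/
theorem wO_tO {M ℓ : ℕ} [NeZero M] (hℓ : ℓ.Prime) (hℓM : ¬ ℓ ∣ M) (x : MO 𝒪 M) :
    wO 𝒪 M (tO 𝒪 hℓ hℓM x) = tO 𝒪 hℓ hℓM (wO 𝒪 M x) := by
  have : (wO 𝒪 M) ∘ₗ (tO 𝒪 hℓ hℓM) = (tO 𝒪 hℓ hℓM) ∘ₗ (wO 𝒪 M) := by
    apply lin_ext_one_tmul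
    intro x
    show (1 : 𝒪) ⊗ₜ[ℤ] frickeL M (tL hℓ hℓM x) = (1 : 𝒪) ⊗ₜ[ℤ] tL hℓ hℓM (frickeL M x)
    rw [frickeL_tL]
  exact LinearMap.congr_fun this x

/-- `j T_ℓ = T_ℓ j`, `ℓ ∤ N q` -/
theorem jO_tO {ℓ : ℕ} (hℓ : ℓ.Prime) (hℓN : ¬ ℓ ∣ N) (hℓNq : ¬ ℓ ∣ N * q)
    (hℓNqq : ¬ ℓ ∣ N * q * q) (x : MO 𝒪 N) :
    jO 𝒪 hqN (tO 𝒪 hℓ hℓN x) = tO 𝒪 hℓ hℓNqq (jO 𝒪 hqN x) := by
  have : (jO 𝒪 hqN) ∘ₗ (tO 𝒪 hℓ hℓN) = (tO 𝒪 hℓ hℓNqq) ∘ₗ (jO 𝒪 hqN) := by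
    apply lin_ext_one_tmul
    intro x
    show (1 : 𝒪) ⊗ₜ[ℤ] jmap hqN (tL hℓ hℓN x) = (1 : 𝒪) ⊗ₜ[ℤ] tL hℓ hℓNqq (jmap hqN x)
    rw [jmap_tL hqN hℓ hℓN hℓNq hℓNqq]
  exact LinearMap.congr_fun this x

/-- `U_q j = 0` -/
theorem uO_jO (x : MO 𝒪 N) : uO 𝒪 (dvd_mul_left q (N * q)) (jO 𝒪 hqN x) = 0 := by
  have : (uO 𝒪 (dvd_mul_left q (N * q))) ∘ₗ (jO 𝒪 hqN) = 0 := by
    apply lin_ext_one_tmul
    intro x
    show (1 : 𝒪) ⊗ₜ[ℤ] uL (dvd_mul_left q (N * q)) (jmap hqN x) = 0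
    rw [uL_jmap, TensorProduct.tmul_zero]
  exact LinearMap.congr_fun this x

variable [Fintype (SL(2, ℤ) ⧸ Gamma0 N)] [Fintype (SL(2, ℤ) ⧸ Gamma0 (N * q))]
  [Fintype (SL(2, ℤ) ⧸ Gamma0 (N * q * q))]

/-- **the Gram formula over `𝒪`** -/
theorem formO_jO (x y : MO 𝒪 N) :
    formO 𝒪 (N * q * q) (jO 𝒪 hqN x) (jO 𝒪 hqN y) =
      ((q : 𝒪) * ((q : 𝒪) - 1)) * ((((q : 𝒪) + 1) ^ 2) * formO 𝒪 N x y -
        formO 𝒪 N x (tO 𝒪 (Fact.out : q.Prime) hqN (tO 𝒪 (Fact.out : q.Prime) hqN y))) := by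
  have key : (formO 𝒪 (N * q * q)).compl₁₂ (jO 𝒪 hqN) (jO 𝒪 hqN) =
      ((q : 𝒪) * ((q : 𝒪) - 1)) • ((((q : 𝒪) + 1) ^ 2) • formO 𝒪 N -
        (formO 𝒪 N).compl₂ ((tO 𝒪 (Fact.out : q.Prime) hqN) ∘ₗ
          (tO 𝒪 (Fact.out : q.Prime) hqN))) := by
    apply bilin_ext_one_tmul
    intro x y
    simp only [LinearMap.compl₁₂_apply, jO_tmul, formO_tmul, LinearMap.smul_apply,
      LinearMap.sub_apply, LinearMap.compl₂_apply, LinearMap.comp_apply, tO_tmul, form_jmap hqN,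
      mul_one, smul_eq_mul, zsmul_eq_mul]
    push_cast
    ring
  have := LinearMap.congr_fun₂ key x y
  simpa only [LinearMap.compl₁₂_apply, LinearMap.smul_apply, LinearMap.sub_apply,
    LinearMap.compl₂_apply, LinearMap.comp_apply, smul_eq_mul] using this

/-- **the twisted Gram formula over `𝒪`** -/
theorem formOw_jO (x y : MO 𝒪 N) :
    formOw 𝒪 (N * q * q) (jO 𝒪 hqN x) (jO 𝒪 hqN y) =
      ((q : 𝒪) - 1) * ((((q : 𝒪) + 1) ^ 2) * formOw 𝒪 N x y -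
        formOw 𝒪 N x (tO 𝒪 (Fact.out : q.Prime) hqN (tO 𝒪 (Fact.out : q.Prime) hqN y))) := by
  have key : (formOw 𝒪 (N * q * q)).compl₁₂ (jO 𝒪 hqN) (jO 𝒪 hqN) =
      ((q : 𝒪) - 1) • ((((q : 𝒪) + 1) ^ 2) • formOw 𝒪 N -
        (formO 𝒪 N).compl₂ ((tO 𝒪 (Fact.out : q.Prime) hqN) ∘ₗ
          (tO 𝒪 (Fact.out : q.Prime) hqN) ∘ₗ (wO 𝒪 N))) := by
    apply bilin_ext_one_tmul
    intro x y
    simp only [LinearMap.compl₁₂_apply, jO_tmul, formOw_apply, wO_tmul, formO_tmul,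
      LinearMap.smul_apply, LinearMap.sub_apply, LinearMap.compl₂_apply, LinearMap.comp_apply,
      tO_tmul, form_jmap_twist hqN, mul_one, smul_eq_mul, zsmul_eq_mul]
    push_cast
    ring
  have := LinearMap.congr_fun₂ key x y
  simp only [LinearMap.compl₁₂_apply, LinearMap.smul_apply, LinearMap.sub_apply,
    LinearMap.compl₂_apply, LinearMap.comp_apply, smul_eq_mul] at this
  rw [this, formOw_apply (M := N) x (tO 𝒪 _ hqN (tO 𝒪 _ hqN y)), wO_tO, wO_tO]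

/-- the twisted form is antisymmetric -/
theorem formOw_swap {M : ℕ} [NeZero M] [Fintype (SL(2, ℤ) ⧸ Gamma0 M)] (x y : MO 𝒪 M) :
    formOw 𝒪 M x y = - formOw 𝒪 M y x := by
  have key : formOw 𝒪 M = - LinearMap.flip (formOw 𝒪 M) := by
    apply bilin_ext_one_tmul
    intro x y
    simp only [formOw_apply, wO_tmul, formO_tmul, LinearMap.neg_apply, LinearMap.flip_apply]
    rw [← form_frickeL_left, form_swap (gamma0_neg_one_mem M), neg_smul]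
  have := LinearMap.congr_fun₂ key x y
  simpa only [LinearMap.neg_apply, LinearMap.flip_apply] using this

/-- `T_ℓ` is self-adjoint for the twisted form -/
theorem formOw_tO {M ℓ : ℕ} [NeZero M] [Fintype (SL(2, ℤ) ⧸ Gamma0 M)] (hℓ : ℓ.Prime)
    (hℓM : ¬ ℓ ∣ M) (x y : MO 𝒪 M) :
    formOw 𝒪 M (tO 𝒪 hℓ hℓM x) y = formOw 𝒪 M x (tO 𝒪 hℓ hℓM y) := by
  classical
  have : Fact ℓ.Prime := ⟨hℓ⟩
  let _ : Fintype (SL(2, ℤ) ⧸ Gamma0 (M * ℓ)) := Fintype.ofFinite _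
  have key : (formOw 𝒪 M).compl₁₂ (tO 𝒪 hℓ hℓM) LinearMap.id =
      (formOw 𝒪 M).compl₂ (tO 𝒪 hℓ hℓM) := by
    apply bilin_ext_one_tmul
    intro x y
    simp only [LinearMap.compl₁₂_apply, LinearMap.compl₂_apply, LinearMap.id_apply, formOw_apply,
      wO_tmul, tO_tmul, formO_tmul]
    rw [form_tL_self hℓM, frickeL_tL]
  have := LinearMap.congr_fun₂ key x y
  simpa only [LinearMap.compl₁₂_apply, LinearMap.compl₂_apply, LinearMap.id_apply] using this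

/-- `U_q` is self-adjoint for the twisted form -/
theorem formOw_uO {M r : ℕ} [NeZero M] [Fact r.Prime] [Fintype (SL(2, ℤ) ⧸ Gamma0 M)]
    (hrM : r ∣ M) (x y : MO 𝒪 M) :
    formOw 𝒪 M (uO 𝒪 hrM x) y = formOw 𝒪 M x (uO 𝒪 hrM y) := by
  classical
  let _ : Fintype (SL(2, ℤ) ⧸ Gamma0 (M * r)) := Fintype.ofFinite _
  have key : (formOw 𝒪 M).compl₁₂ (uO 𝒪 hrM) LinearMap.id =
      (formOw 𝒪 M).compl₂ (uO 𝒪 hrM) := by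
    apply bilin_ext_one_tmul
    intro x y
    simp only [LinearMap.compl₁₂_apply, LinearMap.compl₂_apply, LinearMap.id_apply, formOw_apply,
      wO_tmul, uO_tmul, formO_tmul]
    rw [form_uL_frickeL hrM]
  have := LinearMap.congr_fun₂ key x y
  simpa only [LinearMap.compl₁₂_apply, LinearMap.compl₂_apply, LinearMap.id_apply] using this

end Relations

section MainThm

variable {𝒪 : Type*} [CommRing 𝒪] [IsDomain 𝒪] [IsDiscreteValuationRing 𝒪]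
variable {p : ℕ} [Fact p.Prime]

/-- the form on `𝒪 ⊗ L_M` is (right) perfect, `p` odd -/
theorem rightPerfect_formO (hp2 : p ≠ 2) (hp : (p : 𝒪) ∈ maximalIdeal 𝒪) (M : ℕ) [NeZero M]
    [Fintype (SL(2, ℤ) ⧸ Gamma0 M)] (f : MO 𝒪 M →ₗ[𝒪] 𝒪) :
    ∃ m : MO 𝒪 M, ∀ x, formO 𝒪 M x m = f x :=
  rightPerfect_baseChange 𝒪 hp (formBil (Gamma0 M) (gamma0_neg_one_mem M))
    (fun y hy => form_unimodular hp2 y hy) f

/-- the twisted form on `𝒪 ⊗ L_M` is (right) perfect, `p` odd -/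
theorem rightPerfect_formOw (hp2 : p ≠ 2) (hp : (p : 𝒪) ∈ maximalIdeal 𝒪) (M : ℕ) [NeZero M]
    [Fintype (SL(2, ℤ) ⧸ Gamma0 M)] (f : MO 𝒪 M →ₗ[𝒪] 𝒪) :
    ∃ m : MO 𝒪 M, ∀ x, formOw 𝒪 M x m = f x := by
  obtain ⟨m, hm⟩ := rightPerfect_formO hp2 hp M f
  refine ⟨wO 𝒪 M m, fun x => ?_⟩
  rw [formOw_apply, wO_wO, hm]

variable {N q : ℕ} [NeZero N] [Fact q.Prime] (hqN : ¬ q ∣ N)

include hqN in
/-- saturation of `j` over `𝒪`: `(T_ℓ' - ℓ' - 1)(T_ℓ - ℓ - 1) = F ∘ j + p G` -/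
theorem exists_factor_jO (hp2 : p ≠ 2) (hqp : q ≠ p) {ℓ ℓ' : ℕ} (hℓ : ℓ.Prime) (hℓ' : ℓ'.Prime)
    (hℓN : ¬ ℓ ∣ N) (hℓNq : ¬ ℓ ∣ N * q) (hℓ'N : ¬ ℓ' ∣ N) :
    ∃ (F : MO 𝒪 (N * q * q) →ₗ[𝒪] MO 𝒪 N) (G : MO 𝒪 N →ₗ[𝒪] MO 𝒪 N),
      (eisO 𝒪 hℓ' hℓ'N) ∘ₗ (eisO 𝒪 hℓ hℓN) = F ∘ₗ (jO 𝒪 hqN) + (p : 𝒪) • G := by
  obtain ⟨F, G, hFG⟩ := exists_factor_jmap (p := p) hqN hp2 hqp hℓ hℓ' hℓN hℓNq hℓ'N
  refine ⟨F.baseChange 𝒪, G.baseChange 𝒪, ?_⟩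
  apply lin_ext_one_tmul
  intro x
  have h := congrArg (fun f => (1 : 𝒪) ⊗ₜ[ℤ] f x) hFG
  simp only [LinearMap.comp_apply, LinearMap.add_apply, LinearMap.smul_apply,
    TensorProduct.tmul_add] at h
  simp only [LinearMap.comp_apply, LinearMap.add_apply, LinearMap.smul_apply, eisO, jO,
    LinearMap.baseChange_tmul]
  rw [h, TensorProduct.tmul_smul, TensorProduct.smul_tmul']
  congr 2
  simp

variable [Fintype (SL(2, ℤ) ⧸ Gamma0 N)] [Fintype (SL(2, ℤ) ⧸ Gamma0 (N * q))]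
  [Fintype (SL(2, ℤ) ⧸ Gamma0 (N * q * q))]

/-- **N3, twisted form**: growth of the congruence module under `N → N q²` for the twisted
pairing `⟨x, w y⟩`:
`length Ω'' = length Ω + rank Λ · length 𝒪/((q - 1)((q + 1)² - a²))`. -/
theorem length_cong_jO_twist (hp2 : p ≠ 2) (hqp : q ≠ p) (hp : (p : 𝒪) ∈ maximalIdeal 𝒪)
    {ℓ ℓ' : ℕ} (hℓ : ℓ.Prime) (hℓ' : ℓ'.Prime)
    (hℓN : ¬ ℓ ∣ N) (hℓNq : ¬ ℓ ∣ N * q) (hℓ'N : ¬ ℓ' ∣ N)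
    {Λ : Submodule 𝒪 (MO 𝒪 N)} (hsat : IsSat Λ)
    (a : 𝒪) (hTq : ∀ x ∈ Λ, tO 𝒪 (Fact.out : q.Prime) hqN x = a • x)
    (u : 𝒪) (hu : IsUnit u)
    (hE : ∀ x ∈ Λ, eisO 𝒪 hℓ' hℓ'N (eisO 𝒪 hℓ hℓN x) = u • x)
    (hc₀ : ((q : 𝒪) - 1) * (((q : 𝒪) + 1) ^ 2 - a ^ 2) ≠ 0) :
    Module.length 𝒪 (MO 𝒪 (N * q * q) ⧸
        ((Λ.map (jO 𝒪 hqN)) ⊔ rorth (formOw 𝒪 (N * q * q)) (Λ.map (jO 𝒪 hqN)))) =
      Module.length 𝒪 (MO 𝒪 N ⧸ (Λ ⊔ rorth (formOw 𝒪 N) Λ)) +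
        Module.finrank 𝒪 Λ * Module.length 𝒪
          (𝒪 ⧸ (Ideal.span {((q : 𝒪) - 1) * (((q : 𝒪) + 1) ^ 2 - a ^ 2)} : Ideal 𝒪)) := by
  obtain ⟨F, G, hFG⟩ := exists_factor_jO (𝒪 := 𝒪) hqN hp2 hqp hℓ hℓ' hℓN hℓNq hℓ'N
  have hE' : ∀ x ∈ Λ, ((eisO 𝒪 hℓ' hℓ'N) ∘ₗ (eisO 𝒪 hℓ hℓN)) x = u • x := hE
  refine length_cong_growth (rightPerfect_formOw hp2 hp N) (rightPerfect_formOw hp2 hp (N * q * q))
    hsat (jO 𝒪 hqN)
    (inj_of_factor _ _ F G (p : 𝒪) hp hFG hsat u hu hE')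
    (isSat_map_of_factor _ _ F G (p : 𝒪) hp hFG hsat u hu hE') _ hc₀ ?_
  intro x hx y hy
  rw [formOw_jO, hTq y hy, map_smul, hTq y hy, smul_smul, map_smul, smul_eq_mul]
  ring

/-- **N3, plain form**: growth of the congruence module under `N → N q²`:
`length Ω'' = length Ω + rank Λ · length 𝒪/(q (q - 1)((q + 1)² - a²))`. -/
theorem length_cong_jO (hp2 : p ≠ 2) (hqp : q ≠ p) (hp : (p : 𝒪) ∈ maximalIdeal 𝒪)
    {ℓ ℓ' : ℕ} (hℓ : ℓ.Prime) (hℓ' : ℓ'.Prime)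
    (hℓN : ¬ ℓ ∣ N) (hℓNq : ¬ ℓ ∣ N * q) (hℓ'N : ¬ ℓ' ∣ N)
    {Λ : Submodule 𝒪 (MO 𝒪 N)} (hsat : IsSat Λ)
    (a : 𝒪) (hTq : ∀ x ∈ Λ, tO 𝒪 (Fact.out : q.Prime) hqN x = a • x)
    (u : 𝒪) (hu : IsUnit u)
    (hE : ∀ x ∈ Λ, eisO 𝒪 hℓ' hℓ'N (eisO 𝒪 hℓ hℓN x) = u • x)
    (hc₀ : ((q : 𝒪) * ((q : 𝒪) - 1)) * (((q : 𝒪) + 1) ^ 2 - a ^ 2) ≠ 0) :
    Module.length 𝒪 (MO 𝒪 (N * q * q) ⧸
        ((Λ.map (jO 𝒪 hqN)) ⊔ rorth (formO 𝒪 (N * q * q)) (Λ.map (jO 𝒪 hqN)))) =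
      Module.length 𝒪 (MO 𝒪 N ⧸ (Λ ⊔ rorth (formO 𝒪 N) Λ)) +
        Module.finrank 𝒪 Λ * Module.length 𝒪
          (𝒪 ⧸ (Ideal.span {((q : 𝒪) * ((q : 𝒪) - 1)) * (((q : 𝒪) + 1) ^ 2 - a ^ 2)} :
            Ideal 𝒪)) := by
  obtain ⟨F, G, hFG⟩ := exists_factor_jO (𝒪 := 𝒪) hqN hp2 hqp hℓ hℓ' hℓN hℓNq hℓ'N
  have hE' : ∀ x ∈ Λ, ((eisO 𝒪 hℓ' hℓ'N) ∘ₗ (eisO 𝒪 hℓ hℓN)) x = u • x := hE
  refine length_cong_growth (rightPerfect_formO hp2 hp N) (rightPerfect_formO hp2 hp (N * q * q))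
    hsat (jO 𝒪 hqN)
    (inj_of_factor _ _ F G (p : 𝒪) hp hFG hsat u hu hE')
    (isSat_map_of_factor _ _ F G (p : 𝒪) hp hFG hsat u hu hE') _ hc₀ ?_
  intro x hx y hy
  rw [formO_jO, hTq y hy, map_smul, hTq y hy, smul_smul, map_smul, smul_eq_mul]
  ring

/-- on a common eigenspace, `(T_ℓ' - ℓ' - 1)(T_ℓ - ℓ - 1)` is the scalar
`(a_ℓ' - ℓ' - 1)(a_ℓ - ℓ - 1)` -/
theorem eisO_eisO_of_eigen {M ℓ ℓ' : ℕ} [NeZero M] (hℓ : ℓ.Prime) (hℓ' : ℓ'.Prime)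
    (hℓM : ¬ ℓ ∣ M) (hℓ'M : ¬ ℓ' ∣ M) {Λ : Submodule 𝒪 (MO 𝒪 M)} (aℓ aℓ' : 𝒪)
    (hT : ∀ x ∈ Λ, tO 𝒪 hℓ hℓM x = aℓ • x) (hT' : ∀ x ∈ Λ, tO 𝒪 hℓ' hℓ'M x = aℓ' • x) :
    ∀ x ∈ Λ, eisO 𝒪 hℓ' hℓ'M (eisO 𝒪 hℓ hℓM x) =
      ((aℓ' - ((ℓ' : 𝒪) + 1)) * (aℓ - ((ℓ : 𝒪) + 1))) • x := by
  intro x hx
  have h1 : eisO 𝒪 hℓ hℓM x = (aℓ - ((ℓ : 𝒪) + 1)) • x := by
    rw [eisO_apply, hT x hx, sub_smul]
  have h2 : eisO 𝒪 hℓ' hℓ'M x = (aℓ' - ((ℓ' : 𝒪) + 1)) • x := by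
    rw [eisO_apply, hT' x hx, sub_smul]
  rw [h1, map_smul, h2, smul_smul, mul_comm]

end MainThm

section Rank

variable {𝒪 : Type*} [CommRing 𝒪] [IsDomain 𝒪]
variable {M : Type*} [AddCommGroup M] [Module 𝒪 M] [IsNoetherian 𝒪 M]

/-- a saturated submodule is determined by its rank: `Λ₁ ≤ Λ₂`, `Λ₁` saturated,
`rank Λ₂ ≤ rank Λ₁` ⇒ `Λ₁ = Λ₂` -/
theorem eq_of_isSat_of_finrank_le {Λ₁ Λ₂ : Submodule 𝒪 M} (hsat : IsSat Λ₁) (hle : Λ₁ ≤ Λ₂)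
    (hrk : Module.finrank 𝒪 Λ₂ ≤ Module.finrank 𝒪 Λ₁) : Λ₁ = Λ₂ := by
  classical
  apply le_antisymm hle
  intro x hx
  let Λ₁' : Submodule 𝒪 Λ₂ := Λ₁.comap Λ₂.subtype
  have e : Λ₁' ≃ₗ[𝒪] Λ₁ := Submodule.comapSubtypeEquivOfLe hle
  have h1 : Module.finrank 𝒪 (Λ₂ ⧸ Λ₁') + Module.finrank 𝒪 Λ₁' = Module.finrank 𝒪 Λ₂ :=
    Submodule.finrank_quotient_add_finrank Λ₁'
  have h2 : Module.finrank 𝒪 (Λ₂ ⧸ Λ₁') = 0 := by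
    rw [e.finrank_eq] at h1
    omega
  have h3 : Module.IsTorsion 𝒪 (Λ₂ ⧸ Λ₁') := Module.finrank_eq_zero_iff_isTorsion.mp h2
  obtain ⟨a, ha⟩ := @h3 (Λ₁'.mkQ ⟨x, hx⟩)
  have h4 : ((a : 𝒪) • (⟨x, hx⟩ : Λ₂)) ∈ Λ₁' := by
    rw [← Submodule.Quotient.mk_eq_zero, Submodule.Quotient.mk_smul]
    exact ha
  exact hsat (a : 𝒪) x (nonZeroDivisors.ne_zero a.2) h4

end Rank

end Fermat.Agent.S59lib.N3
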