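/-
S59lib / N3 / UEquiv (helper2): the operators `U_r` (`r ∣ M` prime) and the degeneracy maps.

* `heckeU_res_ne`  : `U_r ∘ res_q = res_q ∘ U_r` (any prime `q`);
* `uCoc_unique`    : uniqueness of the `U_r`-cocycle;
* `heckeU_deg2_ne` : `U_r ∘ deg2_q = deg2_q ∘ U_r` (`q ≠ r`);
* `heckeU_heckeT_comm`, `uL_tL_comm` : `U_r T_ℓ = T_ℓ U_r` (from `S43lib.B1.commStmt`);
* `uL_jmap_ne`     : `U_r ∘ j = j ∘ U_r` for `r ∣ N`.
-/
import Mathlib
import Fermat.Agent.S59lib.N3.Gram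
import Fermat.Agent.S43lib.B1.Comm

set_option autoImplicit false
set_option linter.unusedSectionVars false
set_option linter.unusedVariables false

noncomputable section

namespace Fermat.Agent.S59lib.N3

open UpperHalfPlane Matrix.SpecialLinearGroup CongruenceSubgroup ModularForm
open Fermat.Agent.S16lib.LH Fermat.Agent.S29lib.H Fermat.Agent.S31lib.PET
open Fermat.Agent.S41lib.HC Fermat.Agent.S41lib.BR Fermat.Agent.S43lib.B1 ModularCurve.Period
open Fermat.Agent.S16lib.LG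
open P2MW.S_ModularForm_heckeT_slash_eq_self_of_mem_Gamma0.ModularForm.HeckeSlashInvariance
open scoped MatrixGroups

/-! ### `U_r ∘ res = res ∘ U_r` -/

section ResU

variable {M q r : ℕ} [NeZero M] [Fact q.Prime] [Fact r.Prime] (hrM : r ∣ M)

theorem inclMul_uCoc_ne (γ' : ↥(Gamma0 (M * q))) (y : ZMod r) :
    inclMul M q (uCoc (hrM.mul_right q) γ' y) = uCoc hrM (inclMul M q γ') y := by
  apply toMZ_injective
  have h1 := uCoc_rel_int (hrM.mul_right q) γ' y
  have h2 := uCoc_rel_int hrM (inclMul M q γ') y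
  have h3 : uPerm (hrM.mul_right q) γ' y = uPerm hrM (inclMul M q γ') y := rfl
  have h4 : toMZ (inclMul M q γ') = toMZ γ' := rfl
  have h5 : toMZ (inclMul M q (uCoc (hrM.mul_right q) γ' y)) =
      toMZ (uCoc (hrM.mul_right q) γ' y) := rfl
  rw [h4, h1, h3] at h2
  rw [h5]
  refine MZ_mul_right_cancel (B := finRep r (uPerm hrM (inclMul M q γ') y).val) ?_ h2
  rw [finRep_det]
  exact_mod_cast (Fact.out : r.Prime).ne_zero

/-- `U_r ∘ res = res ∘ U_r` for `r ∣ M` -/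
theorem heckeU_res_ne {A : Type*} [AddCommGroup A] (φ : H (Gamma0 M) A) :
    heckeU (hrM.mul_right q) A (res M q A φ) = res M q A (heckeU hrM A φ) := by
  ext γ
  show heckeU (hrM.mul_right q) A (res M q A φ) (Additive.ofMul γ) =
    res M q A (heckeU hrM A φ) (Additive.ofMul γ)
  rw [heckeU_apply, res_apply, heckeU_apply]
  refine Finset.sum_congr rfl fun x _ => ?_
  rw [res_apply, inclMul_uCoc_ne hrM]

end ResU

/-! ### Uniqueness of the `U`-cocycle -/

section Unique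

variable {M r : ℕ} [NeZero r] (hrM : r ∣ M)

theorem uCoc_unique (γ : ↥(Gamma0 M)) (x y : ZMod r) (c : ↥(Gamma0 M))
    (h : finRep r x.val * toMZ γ = toMZ c * finRep r y.val) :
    y = uPerm hrM γ x ∧ c = uCoc hrM γ x := by
  have h0 := uCoc_rel_int hrM γ x
  rw [h] at h0
  set A := toMZ c with hA
  set B := toMZ (uCoc hrM γ x) with hB
  set y' := uPerm hrM γ x with hy'
  have hr0 : (r : ℤ) ≠ 0 := by exact_mod_cast NeZero.ne r
  have e00 := congrFun (congrFun h0 0) 0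
  have e01 := congrFun (congrFun h0 0) 1
  have e10 := congrFun (congrFun h0 1) 0
  have e11 := congrFun (congrFun h0 1) 1
  simp only [finRep, Matrix.mul_apply, Fin.sum_univ_two, Matrix.of_apply, Matrix.cons_val',
    Matrix.cons_val_zero, Matrix.cons_val_one, Matrix.empty_val', Matrix.cons_val_fin_one,
    mul_one, mul_zero, add_zero] at e00 e01 e10 e11
  have hdetA : A 0 0 * A 1 1 - A 0 1 * A 1 0 = 1 := by
    have := toMZ_det c
    rw [Matrix.det_fin_two] at this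
    exact this
  -- `r ∣ y - y'`
  have hdvd : (r : ℤ) ∣ ((y.val : ℤ) - (y'.val : ℤ)) := by
    refine ⟨A 1 1 * (B 0 1 - A 0 1) - A 0 1 * (B 1 1 - A 1 1), ?_⟩
    linear_combination ((y.val : ℤ) - (y'.val : ℤ)) * (-hdetA) + A 1 1 * e01 - A 0 1 * e11 +
      (A 0 1 * (y'.val : ℤ)) * e10 - (A 1 1 * (y'.val : ℤ)) * e00
  have hyy : y = y' := by
    have h1 : ((y.val : ℤ) : ZMod r) = ((y'.val : ℤ) : ZMod r) := by
      rw [← sub_eq_zero, ← Int.cast_sub]
      exact (ZMod.intCast_zmod_eq_zero_iff_dvd _ r).mpr hdvd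
    simpa using h1
  refine ⟨hyy, ?_⟩
  apply toMZ_injective
  rw [hyy] at h0
  refine MZ_mul_right_cancel (B := finRep r y'.val) ?_ h0
  rw [finRep_det]
  exact hr0

end Unique

/-! ### `U_r ∘ deg2 = deg2 ∘ U_r`, `r ≠ q` -/

section DegU

variable {M q r : ℕ} [NeZero M] [Fact q.Prime] [Fact r.Prime] (hrM : r ∣ M) (hqr : q ≠ r)

/-- `δ h_n = h_{q n} δ` -/
theorem dq_mul_finRep_ne (n : ℕ) : dq q * finRep r n = finRep r (q * n) * dq q := by
  ext a b
  fin_cases a <;> fin_cases b <;>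
    simp [dq, finRep, Matrix.mul_apply, Fin.sum_univ_two]

theorem finRep_add_mul (M m k : ℕ) :
    finRep r (m + r * k) = toMZ (unipT M (k : ℤ)) * finRep r m := by
  ext a b
  fin_cases a <;> fin_cases b <;>
    simp [finRep, toMZ, unipT, Matrix.mul_apply, Fin.sum_univ_two]
  ring

/-- the carry of `q x` modulo `r` -/
def kq (q : ℕ) {r : ℕ} (x : ZMod r) : ℕ := (q * x.val) / r

/-- `q x` modulo `r` -/
def yq (q : ℕ) {r : ℕ} (x : ZMod r) : ZMod r := ((q * x.val : ℕ) : ZMod r)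

theorem yq_spec (x : ZMod r) : q * x.val = (yq q x).val + r * kq q x := by
  rw [yq, kq, ZMod.val_natCast, Nat.mod_add_div]

theorem yq_eq (x : ZMod r) : yq q x = (q : ZMod r) * x := by
  rw [yq, Nat.cast_mul, ZMod.natCast_zmod_val]

include hqr in
theorem natCast_ne_zero_of_ne : ((q : ℕ) : ZMod r) ≠ 0 := by
  intro h0
  rw [ZMod.natCast_eq_zero_iff] at h0
  exact hqr ((Nat.prime_dvd_prime_iff_eq (Fact.out : r.Prime) (Fact.out : q.Prime)).mp h0).symm

/-- the relation `h_{q x} (δ γ δ⁻¹) = g h_{q σ x}` -/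
theorem cdel_uCoc_rel (γ : ↥(Gamma0 (M * q))) (x : ZMod r) :
    finRep r (yq q x).val * toMZ (cdel M q γ) =
      toMZ ((unipT M (kq q x : ℤ))⁻¹ * (cdel M q (uCoc (hrM.mul_right q) γ x) *
        unipT M (kq q (uPerm (hrM.mul_right q) γ x) : ℤ))) *
        finRep r (yq q (uPerm (hrM.mul_right q) γ x)).val := by
  set c := uCoc (hrM.mul_right q) γ x with hc
  set x' := uPerm (hrM.mul_right q) γ x with hx'
  have hq0 : (dq q).det ≠ 0 := by
    rw [dq_det]
    exact_mod_cast (Fact.out : q.Prime).ne_zero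
  have h1 : finRep r (q * x.val) * toMZ (cdel M q γ) =
      toMZ (cdel M q c * unipT M (kq q x' : ℤ)) * finRep r (yq q x').val := by
    refine MZ_mul_right_cancel hq0 ?_
    rw [Matrix.mul_assoc, ← cdel_int, ← Matrix.mul_assoc, ← dq_mul_finRep_ne, Matrix.mul_assoc,
      uCoc_rel_int (hrM.mul_right q) γ x, ← Matrix.mul_assoc, cdel_int, Matrix.mul_assoc,
      dq_mul_finRep_ne, yq_spec x', finRep_add_mul M, toMZ_mul]
    simp only [Matrix.mul_assoc]
    rfl
  rw [yq_spec x, finRep_add_mul M, Matrix.mul_assoc] at h1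
  have h2 := congrArg (fun X => toMZ (unipT M (kq q x : ℤ))⁻¹ * X) h1
  simp only [← Matrix.mul_assoc, toMZ_inv_mul, Matrix.one_mul] at h2
  rw [h2, toMZ_mul (unipT M (kq q x : ℤ))⁻¹]

theorem cdel_uCoc_ne (γ : ↥(Gamma0 (M * q))) (x : ZMod r) :
    yq q (uPerm (hrM.mul_right q) γ x) = uPerm hrM (cdel M q γ) (yq q x) ∧
    cdel M q (uCoc (hrM.mul_right q) γ x) =
      unipT M (kq q x : ℤ) * uCoc hrM (cdel M q γ) (yq q x) *
        (unipT M (kq q (uPerm (hrM.mul_right q) γ x) : ℤ))⁻¹ := by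
  have h := uCoc_unique hrM (cdel M q γ) (yq q x) (yq q (uPerm (hrM.mul_right q) γ x)) _
    (cdel_uCoc_rel hrM γ x)
  refine ⟨h.1, ?_⟩
  rw [← h.2]
  group

include hqr in
/-- **`U_r ∘ deg2 = deg2 ∘ U_r`** for `r ∣ M`, `r ≠ q` -/
theorem heckeU_deg2_ne {A : Type*} [AddCommGroup A] (φ : H (Gamma0 M) A) :
    heckeU (hrM.mul_right q) A (deg2 M q A φ) = deg2 M q A (heckeU hrM A φ) := by
  ext γ
  show heckeU (hrM.mul_right q) A (deg2 M q A φ) (Additive.ofMul γ) =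
    deg2 M q A (heckeU hrM A φ) (Additive.ofMul γ)
  rw [heckeU_apply, deg2_apply, heckeU_apply]
  simp_rw [deg2_apply, (cdel_uCoc_ne hrM γ _).2, ofMul_mul, ofMul_inv, map_add, map_neg]
  rw [Finset.sum_add_distrib, Finset.sum_add_distrib, Finset.sum_neg_distrib,
    Equiv.sum_comp (uPerm (hrM.mul_right q) γ)
      (fun x : ZMod r => φ (Additive.ofMul (unipT M (kq q x : ℤ))))]
  have hbij : ∑ x : ZMod r, φ (Additive.ofMul (uCoc hrM (cdel M q γ) (yq q x))) =
      ∑ y : ZMod r, φ (Additive.ofMul (uCoc hrM (cdel M q γ) y)) := by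
    have := Equiv.sum_comp (Equiv.mulLeft₀ ((q : ℕ) : ZMod r) (natCast_ne_zero_of_ne hqr))
      (fun y : ZMod r => φ (Additive.ofMul (uCoc hrM (cdel M q γ) y)))
    rw [← this]
    refine Finset.sum_congr rfl fun x _ => ?_
    rw [yq_eq]
    rfl
  rw [hbij]
  abel

end DegU

/-! ### `T_ℓ` and `U_r` commute -/

section CommTU

variable {M ℓ r : ℕ} [NeZero M] [Fact ℓ.Prime] [Fact r.Prime] (hℓM : ¬ ℓ ∣ M) (hrM : r ∣ M)

/-- conjugate composites induce commuting operators on `Hom(Γ, A)` -/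
theorem op_comm_of_conjRel {Γ G ι κ : Type*} [Group Γ] [Group G] [Fintype ι] [Fintype κ]
    (π : Γ →* G) (D₁ : CosetData Γ Γ ι) (D₂ : CosetData Γ Γ κ) (h : ConjRel π D₁ D₂)
    (A : Type*) [AddCommGroup A] :
    (D₂.op A).comp (D₁.op A) = (D₁.op A).comp (D₂.op A) := by
  obtain ⟨e, d, -, hc⟩ := h
  rw [← CosetData.comp_op, ← CosetData.comp_op]
  exact CosetData.op_eq_of_conj (D₁.comp D₂) (D₂.comp D₁) e d hc A

/-- `U_r T_ℓ = T_ℓ U_r` on `H(Γ₀(M), A)` -/
theorem heckeU_heckeT_comm {A : Type*} [AddCommGroup A] (φ : H (Gamma0 M) A) :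
    heckeU hrM A (heckeT hℓM A φ) = heckeT hℓM A (heckeU hrM A φ) := by
  have h := commStmt M (Sum.inl (Sum.inl ⟨ℓ, (Fact.out : ℓ.Prime), hℓM⟩))
    (Sum.inl (Sum.inr ⟨r, (Fact.out : r.Prime), hrM⟩))
  have h2 := op_comm_of_conjRel (unitHom M) (nData hℓM) (uData hrM) h A
  rw [nData_op] at h2
  exact congrArg (fun f => f φ) h2

/-- `U_r T_ℓ = T_ℓ U_r` on the lattice -/
theorem uL_tL_comm (hℓ : ℓ.Prime) (x : ↥(VZ (Gamma0 M))) :
    uL hrM (tL hℓ hℓM x) = tL hℓ hℓM (uL hrM x) :=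
  Subtype.ext (heckeU_heckeT_comm hℓM hrM x.1)

end CommTU

/-! ### Lattice versions and `U_r ∘ j = j ∘ U_r` -/

section LatU

variable {M q r : ℕ} [NeZero M] [Fact q.Prime] [Fact r.Prime] (hrM : r ∣ M)

theorem uL_resL_ne (x : ↥(VZ (Gamma0 M))) :
    uL (hrM.mul_right q) (resL M q x) = resL M q (uL hrM x) :=
  Subtype.ext (heckeU_res_ne hrM x.1)

theorem uL_deg2L_ne (hqr : q ≠ r) (x : ↥(VZ (Gamma0 M))) :
    uL (hrM.mul_right q) (deg2L M q x) = deg2L M q (uL hrM x) :=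
  Subtype.ext (heckeU_deg2_ne hrM hqr x.1)

end LatU

section JU

variable {N q r : ℕ} [NeZero N] [Fact q.Prime] [Fact r.Prime] (hqN : ¬ q ∣ N) (hrN : r ∣ N)

include hqN hrN in
theorem ne_of_dvd_of_not_dvd : q ≠ r := by
  rintro rfl
  exact hqN hrN

/-- **`U_r ∘ j = j ∘ U_r`** for a prime `r ∣ N` -/
theorem uL_jmap_ne (x : ↥(VZ (Gamma0 N))) :
    uL ((hrN.mul_right q).mul_right q) (jmap hqN x) = jmap hqN (uL hrN x) := by
  have hqr : q ≠ r := ne_of_dvd_of_not_dvd hqN hrN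
  have h0 : uL ((hrN.mul_right q).mul_right q) (xi0 N q x) = xi0 N q (uL hrN x) := by
    rw [xi0_apply, xi0_apply, uL_resL_ne (hrN.mul_right q), uL_resL_ne hrN]
  have h1 : ∀ y, uL ((hrN.mul_right q).mul_right q) (xi1 N q y) = xi1 N q (uL hrN y) := by
    intro y
    rw [xi1_apply, xi1_apply, uL_resL_ne (hrN.mul_right q), uL_deg2L_ne hrN hqr]
  have h2 : uL ((hrN.mul_right q).mul_right q) (xi2 N q x) = xi2 N q (uL hrN x) := by
    rw [xi2_apply, xi2_apply, uL_deg2L_ne (hrN.mul_right q) hqr, uL_deg2L_ne hrN hqr]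
  rw [jmap_apply, jmap_apply, map_add, map_sub, map_smul, h0, h1, h2,
    uL_tL_comm hqN hrN (Fact.out : q.Prime)]

end JU

end Fermat.Agent.S59lib.N3
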