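/-
S59lib / N3 / MainU (helper2): `U_r`-equivariance of `j` over `𝒪` (model of `N3/Main`).
-/
import Mathlib
import Fermat.Agent.S59lib.N3.Main
import Fermat.Agent.S59lib.N3.UEquiv

set_option autoImplicit false
set_option linter.unusedSectionVars false
set_option linter.unusedVariables false

noncomputable section

namespace Fermat.Agent.S59lib.N3

open TensorProduct CongruenceSubgroup
open Fermat.Agent.S41lib.BR Fermat.Agent.S16lib.LG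
open scoped MatrixGroups

variable {𝒪 : Type*} [CommRing 𝒪]

/-- `U_r T_ℓ = T_ℓ U_r` over `𝒪` -/
theorem uO_tO_comm {M ℓ r : ℕ} [NeZero M] [Fact r.Prime] (hℓ : ℓ.Prime) (hℓM : ¬ ℓ ∣ M)
    (hrM : r ∣ M) (x : MO 𝒪 M) :
    uO 𝒪 hrM (tO 𝒪 hℓ hℓM x) = tO 𝒪 hℓ hℓM (uO 𝒪 hrM x) := by
  have : Fact ℓ.Prime := ⟨hℓ⟩
  have h : (uO 𝒪 hrM) ∘ₗ (tO 𝒪 hℓ hℓM) = (tO 𝒪 hℓ hℓM) ∘ₗ (uO 𝒪 hrM) := by
    apply lin_ext_one_tmul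
    intro x
    show (1 : 𝒪) ⊗ₜ[ℤ] uL hrM (tL hℓ hℓM x) = (1 : 𝒪) ⊗ₜ[ℤ] tL hℓ hℓM (uL hrM x)
    rw [uL_tL_comm hℓM hrM hℓ]
  exact LinearMap.congr_fun h x

/-- **`U_r ∘ j = j ∘ U_r`** over `𝒪`, `r ∣ N` prime -/
theorem uO_jO_ne {N q r : ℕ} [NeZero N] [Fact q.Prime] [Fact r.Prime] (hqN : ¬ q ∣ N)
    (hrN : r ∣ N) (x : MO 𝒪 N) :
    uO 𝒪 ((hrN.mul_right q).mul_right q) (jO 𝒪 hqN x) = jO 𝒪 hqN (uO 𝒪 hrN x) := by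
  have h : (uO 𝒪 ((hrN.mul_right q).mul_right q)) ∘ₗ (jO 𝒪 hqN) =
      (jO 𝒪 hqN) ∘ₗ (uO 𝒪 hrN) := by
    apply lin_ext_one_tmul
    intro x
    show (1 : 𝒪) ⊗ₜ[ℤ] uL ((hrN.mul_right q).mul_right q) (jmap hqN x) =
      (1 : 𝒪) ⊗ₜ[ℤ] jmap hqN (uL hrN x)
    rw [uL_jmap_ne hqN hrN]
  exact LinearMap.congr_fun h x

end Fermat.Agent.S59lib.N3
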