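/-
S59lib / N3 / Step (helper2): the Hecke side of the `Σ`-step, packaged.

* `eigO 𝒪 M P a` : the eigenspace in `MO 𝒪 M = 𝒪 ⊗ L_M` of the system `a` (`T_ℓ = a ℓ`, `ℓ ∤ M`;
  `U_r = a r`, `r ∣ M`; primes in `P` dropped); `isSat_eigO`;
* `map_jO_le_eigO` : `j (eigO N P a) ≤ eigO (N q²) P a'`, `a' = a` with `a' q = 0`;
* `eigO_step_eq` : equality as soon as `rank (eigO (N q²) P a') ≤ rank (eigO N P a)`;
* **`length_cong_eigO_step`** : `Ω(eigO (N q²) P a') = Ω(eigO N P a) + rank · length 𝒪/(c_q)`.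
-/
import Mathlib
import Fermat.Agent.S59lib.N3.MainU
import Fermat.Agent.S59lib.N3.Bound

set_option autoImplicit false
set_option linter.unusedSectionVars false
set_option linter.unusedVariables false

noncomputable section

namespace Fermat.Agent.S59lib.N3

open Module IsLocalRing TensorProduct CongruenceSubgroup
open Fermat.Agent.S41lib.BR Fermat.Agent.S16lib.LG
open scoped MatrixGroups

section Eig

variable (𝒪 : Type*) [CommRing 𝒪]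

/-- **The eigenspace** of a system `a` of Hecke eigenvalues in `𝒪 ⊗ L_M`: `T_ℓ = a ℓ` for the
primes `ℓ ∤ M`, `U_r = a r` for the primes `r ∣ M`, the primes in `P` being dropped. -/
def eigO (M : ℕ) [NeZero M] (P : ℕ → Prop) (a : ℕ → 𝒪) : Submodule 𝒪 (MO 𝒪 M) where
  carrier := {x | (∀ (ℓ : ℕ) (hℓ : ℓ.Prime) (hℓM : ¬ ℓ ∣ M), ¬ P ℓ → tO 𝒪 hℓ hℓM x = a ℓ • x) ∧
    (∀ (r : ℕ) (hr : r.Prime) (hrM : r ∣ M), ¬ P r →
      @uO 𝒪 _ M r _ ⟨hr⟩ hrM x = a r • x)}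
  zero_mem' := by
    refine ⟨fun ℓ hℓ hℓM _ => ?_, fun r hr hrM _ => ?_⟩ <;> simp
  add_mem' := by
    rintro x y ⟨hx1, hx2⟩ ⟨hy1, hy2⟩
    refine ⟨fun ℓ hℓ hℓM hP => ?_, fun r hr hrM hP => ?_⟩
    · rw [map_add, hx1 ℓ hℓ hℓM hP, hy1 ℓ hℓ hℓM hP, smul_add]
    · rw [map_add, hx2 r hr hrM hP, hy2 r hr hrM hP, smul_add]
  smul_mem' := by
    rintro c x ⟨hx1, hx2⟩
    refine ⟨fun ℓ hℓ hℓM hP => ?_, fun r hr hrM hP => ?_⟩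
    · rw [map_smul, hx1 ℓ hℓ hℓM hP, smul_comm]
    · rw [map_smul, hx2 r hr hrM hP, smul_comm]

variable {𝒪}

theorem mem_eigO {M : ℕ} [NeZero M] {P : ℕ → Prop} {a : ℕ → 𝒪} {x : MO 𝒪 M} :
    x ∈ eigO 𝒪 M P a ↔
      (∀ (ℓ : ℕ) (hℓ : ℓ.Prime) (hℓM : ¬ ℓ ∣ M), ¬ P ℓ → tO 𝒪 hℓ hℓM x = a ℓ • x) ∧
      (∀ (r : ℕ) (hr : r.Prime) (hrM : r ∣ M), ¬ P r → @uO 𝒪 _ M r _ ⟨hr⟩ hrM x = a r • x) :=
  Iff.rfl

/-- the eigenspaces are saturated -/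
theorem isSat_eigO [IsDomain 𝒪] (M : ℕ) [NeZero M] (P : ℕ → Prop) (a : ℕ → 𝒪) :
    IsSat (eigO 𝒪 M P a) := by
  rintro c m hc ⟨h1, h2⟩
  refine ⟨fun ℓ hℓ hℓM hP => ?_, fun r hr hrM hP => ?_⟩
  · have := h1 ℓ hℓ hℓM hP
    rw [map_smul, smul_comm] at this
    exact smul_right_injective _ hc this
  · have := h2 r hr hrM hP
    rw [map_smul, smul_comm] at this
    exact smul_right_injective _ hc this

variable {N q : ℕ} [NeZero N] [Fact q.Prime] (hqN : ¬ q ∣ N)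

/-- `j` maps the eigenspace of level `N` into the eigenspace of level `N q²` with `U_q = 0` -/
theorem map_jO_le_eigO (P : ℕ → Prop) (a : ℕ → 𝒪) (hPq : ¬ P q) :
    (eigO 𝒪 N P a).map (jO 𝒪 hqN) ≤ eigO 𝒪 (N * q * q) P (Function.update a q 0) := by
  rintro _ ⟨x, ⟨hx1, hx2⟩, rfl⟩
  refine ⟨fun ℓ hℓ hℓM hP => ?_, fun r hr hrM hP => ?_⟩
  · have hℓNq : ¬ ℓ ∣ N * q := fun h => hℓM (h.mul_right q)
    have hℓN : ¬ ℓ ∣ N := fun h => hℓNq (h.mul_right q)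
    have hℓq : ℓ ≠ q := by
      rintro rfl
      exact hℓNq (dvd_mul_left _ _)
    rw [Function.update_of_ne hℓq, ← jO_tO hqN hℓ hℓN hℓNq hℓM, hx1 ℓ hℓ hℓN hP, map_smul]
  · by_cases hrq : r = q
    · subst hrq
      rw [Function.update_self, zero_smul]
      exact uO_jO hqN x
    · rw [Function.update_of_ne hrq]
      have hrN : r ∣ N := by
        have h1 : r ∣ N * q := (hr.dvd_mul.mp hrM).resolve_right
          (fun h => hrq ((Nat.prime_dvd_prime_iff_eq hr (Fact.out : q.Prime)).mp h))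
        exact (hr.dvd_mul.mp h1).resolve_right
          (fun h => hrq ((Nat.prime_dvd_prime_iff_eq hr (Fact.out : q.Prime)).mp h))
      have : Fact r.Prime := ⟨hr⟩
      have := uO_jO_ne (𝒪 := 𝒪) hqN hrN x
      rw [hx2 r hr hrN hP, map_smul] at this
      exact this

end Eig

section StepThm

variable {𝒪 : Type*} [CommRing 𝒪] [IsDomain 𝒪] [IsDiscreteValuationRing 𝒪]
variable {p : ℕ} [Fact p.Prime]
variable {N q : ℕ} [NeZero N] [Fact q.Prime] (hqN : ¬ q ∣ N)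

/-- the rank of the image of a submodule under a map injective on it -/
theorem finrank_map_of_inj {M M' : Type*} [AddCommGroup M] [Module 𝒪 M] [AddCommGroup M']
    [Module 𝒪 M'] (j : M →ₗ[𝒪] M') (Λ : Submodule 𝒪 M) (hinj : ∀ x ∈ Λ, j x = 0 → x = 0) :
    Module.finrank 𝒪 (Λ.map j) = Module.finrank 𝒪 Λ := by
  have h1 : Function.Injective (j.domRestrict Λ) := by
    rw [← LinearMap.ker_eq_bot, LinearMap.ker_eq_bot']
    intro x hx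
    exact Subtype.ext (hinj x x.2 hx)
  have h2 : LinearMap.range (j.domRestrict Λ) = Λ.map j := LinearMap.range_domRestrict Λ j
  rw [← h2, LinearMap.finrank_range_of_inj h1]

include hqN in
/-- **Identification of the eigenspace at level `N q²`**: if its rank is at most the rank at level
`N` (strong multiplicity one) and the system is not Eisenstein, then it is `j` of the eigenspace at
level `N`. -/
theorem eigO_step_eq (hp2 : p ≠ 2) (hqp : q ≠ p) (hp : (p : 𝒪) ∈ maximalIdeal 𝒪)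
    (P : ℕ → Prop) (a : ℕ → 𝒪) (hPq : ¬ P q)
    {ℓ ℓ' : ℕ} (hℓ : ℓ.Prime) (hℓ' : ℓ'.Prime) (hℓNq : ¬ ℓ ∣ N * q) (hℓ'N : ¬ ℓ' ∣ N)
    (hPℓ : ¬ P ℓ) (hPℓ' : ¬ P ℓ')
    (hu : IsUnit ((a ℓ' - ((ℓ' : 𝒪) + 1)) * (a ℓ - ((ℓ : 𝒪) + 1))))
    (hrk : Module.finrank 𝒪 (eigO 𝒪 (N * q * q) P (Function.update a q 0)) ≤
      Module.finrank 𝒪 (eigO 𝒪 N P a)) :
    eigO 𝒪 (N * q * q) P (Function.update a q 0) = (eigO 𝒪 N P a).map (jO 𝒪 hqN) := by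
  have hℓN : ¬ ℓ ∣ N := fun h => hℓNq (h.mul_right q)
  obtain ⟨F, G, hFG⟩ := exists_factor_jO (𝒪 := 𝒪) hqN hp2 hqp hℓ hℓ' hℓN hℓNq hℓ'N
  have hE : ∀ x ∈ eigO 𝒪 N P a, ((eisO 𝒪 hℓ' hℓ'N) ∘ₗ (eisO 𝒪 hℓ hℓN)) x =
      ((a ℓ' - ((ℓ' : 𝒪) + 1)) * (a ℓ - ((ℓ : 𝒪) + 1))) • x :=
    eisO_eisO_of_eigen hℓ hℓ' hℓN hℓ'N (a ℓ) (a ℓ')
      (fun x hx => hx.1 ℓ hℓ hℓN hPℓ) (fun x hx => hx.1 ℓ' hℓ' hℓ'N hPℓ')
  have hsat := isSat_eigO (𝒪 := 𝒪) N P a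
  have hinj := inj_of_factor _ _ F G (p : 𝒪) hp hFG hsat _ hu hE
  have hsat' := isSat_map_of_factor _ _ F G (p : 𝒪) hp hFG hsat _ hu hE
  refine (eq_of_isSat_of_finrank_le hsat' (map_jO_le_eigO hqN P a hPq) ?_).symm
  rw [finrank_map_of_inj _ _ hinj]
  exact hrk

variable [Fintype (SL(2, ℤ) ⧸ Gamma0 N)] [Fintype (SL(2, ℤ) ⧸ Gamma0 (N * q))]
  [Fintype (SL(2, ℤ) ⧸ Gamma0 (N * q * q))]

include hqN in
/-- **The Hecke side of the `Σ`-step**: growth of the congruence module of the eigenspace under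
`N → N q²` (twisted form). -/
theorem length_cong_eigO_step (hp2 : p ≠ 2) (hqp : q ≠ p) (hp : (p : 𝒪) ∈ maximalIdeal 𝒪)
    (P : ℕ → Prop) (a : ℕ → 𝒪) (hPq : ¬ P q)
    {ℓ ℓ' : ℕ} (hℓ : ℓ.Prime) (hℓ' : ℓ'.Prime) (hℓNq : ¬ ℓ ∣ N * q) (hℓ'N : ¬ ℓ' ∣ N)
    (hPℓ : ¬ P ℓ) (hPℓ' : ¬ P ℓ')
    (hu : IsUnit ((a ℓ' - ((ℓ' : 𝒪) + 1)) * (a ℓ - ((ℓ : 𝒪) + 1))))
    (hrk : Module.finrank 𝒪 (eigO 𝒪 (N * q * q) P (Function.update a q 0)) ≤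
      Module.finrank 𝒪 (eigO 𝒪 N P a))
    (hc₀ : ((q : 𝒪) - 1) * (((q : 𝒪) + 1) ^ 2 - a q ^ 2) ≠ 0) :
    Module.length 𝒪 (MO 𝒪 (N * q * q) ⧸
        (eigO 𝒪 (N * q * q) P (Function.update a q 0) ⊔
          rorth (formOw 𝒪 (N * q * q)) (eigO 𝒪 (N * q * q) P (Function.update a q 0)))) =
      Module.length 𝒪 (MO 𝒪 N ⧸ (eigO 𝒪 N P a ⊔ rorth (formOw 𝒪 N) (eigO 𝒪 N P a))) +
        Module.finrank 𝒪 (eigO 𝒪 N P a) * Module.length 𝒪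
          (𝒪 ⧸ (Ideal.span {((q : 𝒪) - 1) * (((q : 𝒪) + 1) ^ 2 - a q ^ 2)} : Ideal 𝒪)) := by
  have hℓN : ¬ ℓ ∣ N := fun h => hℓNq (h.mul_right q)
  rw [eigO_step_eq hqN hp2 hqp hp P a hPq hℓ hℓ' hℓNq hℓ'N hPℓ hPℓ' hu hrk]
  exact length_cong_jO_twist hqN hp2 hqp hp hℓ hℓ' hℓN hℓNq hℓ'N (isSat_eigO N P a) (a q)
    (fun x hx => hx.1 q (Fact.out : q.Prime) hqN hPq) _ hu
    (eisO_eisO_of_eigen hℓ hℓ' hℓN hℓ'N (a ℓ) (a ℓ')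
      (fun x hx => hx.1 ℓ hℓ hℓN hPℓ) (fun x hx => hx.1 ℓ' hℓ' hℓ'N hPℓ')) hc₀

end StepThm

end Fermat.Agent.S59lib.N3
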