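/-
S59lib / N3 / Char (helper2): from a Hecke eigenvector in `MO 𝒪 N = 𝒪 ⊗ L_N` to a character of the
Hecke algebra of the cusp forms.

`exists_char_of_eigen` : `S ⊇` primes of `N`, `x ≠ 0` in `MO 𝒪 N` with `T_ℓ x = a ℓ • x` for all
primes `ℓ ∤ N`, `ℓ ∉ S` ⇒ there is `χ : heckeAlgebra N 2 S →+* 𝒪` with `χ (T_ℓ) = a ℓ`
(the relations of the Hecke algebra hold on the integral parabolic classes: main's
`S43lib.B2.Bridge.evalCoh_int_eq_zero`, Eichler–Shimura).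
-/
import Mathlib
import Fermat.Agent.S59lib.N3.Main
import Fermat.Agent.S43lib.B2.Bridge.Points

set_option autoImplicit false
set_option linter.unusedSectionVars false
set_option linter.unusedVariables false

noncomputable section

namespace Fermat.Agent.S59lib.N3

open Module TensorProduct CongruenceSubgroup CuspForm
open Fermat.Agent.S41lib.HC Fermat.Agent.S41lib.BR Fermat.Agent.S16lib.LG
open Fermat.Agent.S43lib.B2.Bridge
open scoped MatrixGroups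

variable {N : ℕ} [NeZero N] {S : Set ℕ}

/-- evaluation of a non-commutative polynomial at the lattice operators `tL` -/
def evalL : FreeAlgebra ℤ (GoodPrime N S) →ₐ[ℤ] Module.End ℤ ↥(VZ (Gamma0 N)) :=
  FreeAlgebra.lift ℤ (fun ℓ : GoodPrime N S => tL ℓ.2.1 ℓ.2.2.1)

theorem evalL_coe (P : FreeAlgebra ℤ (GoodPrime N S)) (v : ↥(VZ (Gamma0 N))) :
    ((evalL P v : ↥(VZ (Gamma0 N))) : H (Gamma0 N) ℤ) = evalCoh ℤ P v.1 := by
  refine lift_intertwine (fun ℓ : GoodPrime N S => tL ℓ.2.1 ℓ.2.2.1) (heckeOp ℤ)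
    (VZ (Gamma0 N)).subtype.toAddMonoidHom ?_ P v
  intro ℓ v
  have : Fact ℓ.1.Prime := ⟨ℓ.2.1⟩
  rfl

/-- the relations of the Hecke algebra of the cusp forms hold on the lattice -/
theorem evalL_eq_zero (P : FreeAlgebra ℤ (GoodPrime N S))
    (hP : (evalForms P : ↥(heckeAlgebra N 2 S)) = 0) : evalL P = 0 := by
  apply LinearMap.ext
  intro v
  apply Subtype.ext
  rw [evalL_coe, evalCoh_int_eq_zero P hP v.2]
  rfl

variable {𝒪 : Type*} [CommRing 𝒪]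

/-- on an eigenvector, `P(T)` is the scalar `P(a)` -/
theorem baseChange_evalL_eigen (a : ℕ → 𝒪) (x : MO 𝒪 N)
    (hx : ∀ (ℓ : ℕ) (hℓ : ℓ.Prime) (hℓN : ¬ ℓ ∣ N), ℓ ∉ S → tO 𝒪 hℓ hℓN x = a ℓ • x)
    (P : FreeAlgebra ℤ (GoodPrime N S)) :
    (evalL P).baseChange 𝒪 x =
      (FreeAlgebra.lift ℤ (fun ℓ : GoodPrime N S => a ℓ.1) P) • x := by
  induction P using FreeAlgebra.induction with
  | grade0 r =>
    rw [AlgHom.commutes, AlgHom.commutes]
    have h1 : (algebraMap ℤ (Module.End ℤ ↥(VZ (Gamma0 N))) r) = r • LinearMap.id := by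
      ext v
      simp
    rw [h1, LinearMap.baseChange_smul, LinearMap.baseChange_id, LinearMap.smul_apply,
      LinearMap.id_apply, algebraMap_int_eq, eq_intCast, Int.cast_smul_eq_zsmul]
  | grade1 ℓ =>
    show (evalL (FreeAlgebra.ι ℤ ℓ)).baseChange 𝒪 x = _
    rw [evalL, FreeAlgebra.lift_ι_apply, FreeAlgebra.lift_ι_apply]
    exact hx ℓ.1 ℓ.2.1 ℓ.2.2.1 ℓ.2.2.2
  | mul p q hp hq =>
    rw [map_mul, map_mul, Module.End.mul_eq_comp, LinearMap.baseChange_comp, LinearMap.comp_apply,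
      hq, map_smul, hp, smul_smul, mul_comm]
  | add p q hp hq =>
    rw [map_add, map_add, LinearMap.baseChange_add, LinearMap.add_apply, hp, hq, add_smul]

/-- **From an eigenvector to a character of the Hecke algebra.** -/
theorem exists_char_of_eigen [IsDomain 𝒪] (hS : ∀ q : ℕ, q.Prime → q ∣ N → q ∈ S)
    (a : ℕ → 𝒪) (x : MO 𝒪 N) (hx0 : x ≠ 0)
    (hx : ∀ (ℓ : ℕ) (hℓ : ℓ.Prime) (hℓN : ¬ ℓ ∣ N), ℓ ∉ S → tO 𝒪 hℓ hℓN x = a ℓ • x) :
    ∃ χ : heckeAlgebra N 2 S →+* 𝒪, ∀ (ℓ : ℕ) (hℓ : ℓ.Prime) (hℓN : ¬ ℓ ∣ N) (hℓS : ℓ ∉ S),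
      χ (heckeAlgebra.T hℓ hℓN hℓS) = a ℓ := by
  obtain ⟨χ, hχ⟩ := exists_heckeAlgebra_ringHom N S hS 𝒪 (fun ℓ : GoodPrime N S => a ℓ.1) (by
    intro P hP
    have h1 := baseChange_evalL_eigen (S := S) a x hx P
    rw [evalL_eq_zero P hP, LinearMap.baseChange_zero, LinearMap.zero_apply] at h1
    exact (smul_eq_zero.mp h1.symm).resolve_right hx0)
  exact ⟨χ, fun ℓ hℓ hℓN hℓS => hχ ⟨ℓ, hℓ, hℓN, hℓS⟩⟩

end Fermat.Agent.S59lib.N3
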