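/-
S59lib / N3 / Beta (helper2): the `δ`-twisted transfer and `U_q` for `q ∣ M`.

For `q ∣ M` the cocycle `uCoc γ x` of `U_q` (`γ ∈ Γ₀(M)`) lies in `Γ₀(M q)`; this gives the coset
datum `betaData : Γ₀(M) ⇝ Γ₀(M q)` and `cores2B : H(Γ₀(M q)) → H(Γ₀(M))` with
`cores2B ∘ res = U_q`, `cores2B ∘ deg2 = q`, and, at level `M q`, `U_q = res ∘ cores2B`,
`U_q ∘ deg2 = q • res`.  For `q ∤ N`: `U_q ∘ res = res ∘ T_q - deg` on `H(Γ₀(N)) → H(Γ₀(N q))`.
-/
import Mathlib
import Fermat.Agent.S59lib.N3.Cdel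

set_option autoImplicit false
set_option linter.unusedSectionVars false
set_option linter.unusedVariables false

noncomputable section

namespace Fermat.Agent.S59lib.N3

open UpperHalfPlane Matrix.SpecialLinearGroup CongruenceSubgroup ModularForm
open Fermat.Agent.S16lib.LH Fermat.Agent.S29lib.H Fermat.Agent.S31lib.PET
open Fermat.Agent.S41lib.HC Fermat.Agent.S43lib.B1 ModularCurve.Period
open P2MW.S_ModularForm_heckeT_slash_eq_self_of_mem_Gamma0.ModularForm.HeckeSlashInvariance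
open scoped MatrixGroups

/-! ### Integral identities -/

theorem dq_mul_finRep (M q : ℕ) (j : ℕ) :
    dq q * finRep q j = (q : ℤ) • toMZ (unipT M (j : ℤ)) := by
  rw [dq, finRep]
  ext a b
  fin_cases a <;> fin_cases b <;> simp [toMZ, unipT, Matrix.mul_apply, Fin.sum_univ_two]

/-- if `h_x g = c h_{x'}` then `δ c δ⁻¹ = τ^x g τ^{-x'}` -/
theorem cdel_of_finRep_rel {M q : ℕ} [NeZero q] (c : ↥(Gamma0 (M * q))) (g : ↥(Gamma0 M))
    (x x' : ℕ) (h : finRep q x * toMZ g = toMZ c * finRep q x') :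
    cdel M q c = unipT M (x : ℤ) * g * (unipT M (x' : ℤ))⁻¹ := by
  apply eq_mul_inv_of_mul_eq
  apply toMZ_injective
  rw [toMZ_mul, toMZ_mul]
  have hq0 : (q : ℤ) ≠ 0 := by exact_mod_cast NeZero.ne q
  have h2 := cdel_int M q c
  have h3 : (q : ℤ) • (toMZ (cdel M q c) * toMZ (unipT M (x' : ℤ))) =
      (q : ℤ) • (toMZ (unipT M (x : ℤ)) * toMZ g) := by
    rw [← Matrix.mul_smul, ← dq_mul_finRep M q x', ← Matrix.mul_assoc, ← h2,
      Matrix.mul_assoc, ← h, ← Matrix.mul_assoc, dq_mul_finRep M q x, Matrix.smul_mul]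
  exact smul_right_injective _ hq0 h3

/-! ### The cocycle of `U_q` lands in `Γ₀(M q)` -/

section Beta

variable {M q : ℕ} [NeZero M] [Fact q.Prime] (hqM : q ∣ M)

theorem uCoc_lowerLeft (γ : ↥(Gamma0 M)) (x : ZMod q) :
    toMZ (uCoc hqM γ x) 1 0 = (q : ℤ) * toMZ γ 1 0 := by
  have h := uCoc_rel_int hqM γ x
  have h10 := congrFun (congrFun h 1) 0
  simp only [finRep, Matrix.mul_apply, Fin.sum_univ_two, Matrix.of_apply, Matrix.cons_val',
    Matrix.cons_val_zero, Matrix.cons_val_one, Matrix.empty_val', Matrix.cons_val_fin_one] at h10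
  linarith

theorem uCoc_mem_mul (γ : ↥(Gamma0 M)) (x : ZMod q) :
    ((uCoc hqM γ x : ↥(Gamma0 M)) : SL(2, ℤ)) ∈ Gamma0 (M * q) := by
  rw [Gamma0_mem]
  apply (ZMod.intCast_zmod_eq_zero_iff_dvd _ _).mpr
  have h := uCoc_lowerLeft hqM γ x
  have h' : ((uCoc hqM γ x : ↥(Gamma0 M)) : SL(2, ℤ)) 1 0 = (q : ℤ) * toMZ γ 1 0 := h
  rw [h']
  obtain ⟨k, hk⟩ := toMZ_10 γ
  rw [hk]
  push_cast
  exact ⟨k, by ring⟩

/-- the coset datum of the `δ`-twisted transfer `H(Γ₀(M q)) → H(Γ₀(M))`, `q ∣ M` -/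
def betaData : CosetData ↥(Gamma0 M) ↥(Gamma0 (M * q)) (ZMod q) where
  σ := uPerm hqM
  c γ x := ⟨((uCoc hqM γ x : ↥(Gamma0 M)) : SL(2, ℤ)), uCoc_mem_mul hqM γ x⟩
  σ_mul := uPerm_mul hqM
  c_mul := by
    intro γ γ' x
    apply Subtype.ext
    show ((uCoc hqM (γ * γ') x : ↥(Gamma0 M)) : SL(2, ℤ)) =
      ((uCoc hqM γ x : ↥(Gamma0 M)) : SL(2, ℤ)) *
        ((uCoc hqM γ' (uPerm hqM γ x) : ↥(Gamma0 M)) : SL(2, ℤ))
    rw [← Subgroup.coe_mul]
    exact congrArg _ ((uDatum hqM).c_mul γ γ' x)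

theorem inclMul_betaData_c (γ : ↥(Gamma0 M)) (x : ZMod q) :
    inclMul M q ((betaData hqM).c γ x) = uCoc hqM γ x := rfl

theorem toMZ_betaData_c (γ : ↥(Gamma0 M)) (x : ZMod q) :
    toMZ ((betaData hqM).c γ x) = toMZ (uCoc hqM γ x) := rfl

/-- the `δ`-twisted transfer -/
def cores2B (A : Type*) [AddCommGroup A] : H (Gamma0 (M * q)) A →+ H (Gamma0 M) A :=
  (betaData hqM).op A

theorem cores2B_apply {A : Type*} [AddCommGroup A] (ψ : H (Gamma0 (M * q)) A) (γ : ↥(Gamma0 M)) :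
    cores2B hqM A ψ (Additive.ofMul γ) = ∑ x, ψ (Additive.ofMul ((betaData hqM).c γ x)) := rfl

/-- `U_q` on `H(Γ₀(M))`, `q ∣ M` -/
def heckeU (A : Type*) [AddCommGroup A] : H (Gamma0 M) A →+ H (Gamma0 M) A :=
  (uData hqM).op A

theorem heckeU_apply {A : Type*} [AddCommGroup A] (φ : H (Gamma0 M) A) (γ : ↥(Gamma0 M)) :
    heckeU hqM A φ (Additive.ofMul γ) = ∑ x, φ (Additive.ofMul (uCoc hqM γ x)) := rfl

/-- `U_q = cores2B ∘ res` -/
theorem cores2B_res {A : Type*} [AddCommGroup A] (φ : H (Gamma0 M) A) :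
    cores2B hqM A (res M q A φ) = heckeU hqM A φ := by
  ext γ
  show cores2B hqM A (res M q A φ) (Additive.ofMul γ) = heckeU hqM A φ (Additive.ofMul γ)
  rw [cores2B_apply, heckeU_apply]
  refine Finset.sum_congr rfl fun x _ => ?_
  rw [res_apply, inclMul_betaData_c]

/-- `δ (c_x γ) δ⁻¹ = τ^x γ τ^{-x'}` -/
theorem cdel_betaData_c (γ : ↥(Gamma0 M)) (x : ZMod q) :
    cdel M q ((betaData hqM).c γ x) =
      unipT M (x.val : ℤ) * γ * (unipT M ((uPerm hqM γ x).val : ℤ))⁻¹ :=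
  cdel_of_finRep_rel _ γ x.val (uPerm hqM γ x).val (uCoc_rel_int hqM γ x)

/-- `cores2B ∘ deg2 = q` -/
theorem cores2B_deg2 {A : Type*} [AddCommGroup A] (φ : H (Gamma0 M) A) :
    cores2B hqM A (deg2 M q A φ) = q • φ := by
  ext γ
  show cores2B hqM A (deg2 M q A φ) (Additive.ofMul γ) = (q • φ) (Additive.ofMul γ)
  rw [cores2B_apply]
  simp_rw [deg2_apply, cdel_betaData_c, ofMul_mul, ofMul_inv, map_add, map_neg]
  rw [Finset.sum_add_distrib, Finset.sum_add_distrib, Finset.sum_neg_distrib,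
    Equiv.sum_comp (uPerm hqM γ) (fun x : ZMod q => φ (Additive.ofMul (unipT M (x.val : ℤ)))),
    Finset.sum_const, Finset.card_univ, ZMod.card, AddMonoidHom.smul_apply]
  abel

theorem betaData_rel (γ : ↥(Gamma0 M)) (x : ZMod q) :
    heckeMatrix q x.val * (mapGL ℝ (γ : SL(2, ℤ)) : GL (Fin 2) ℝ) =
      (mapGL ℝ ((((betaData hqM).c γ x : ↥(Gamma0 (M * q)))) : SL(2, ℤ)) : GL (Fin 2) ℝ) *
        heckeMatrix q ((betaData hqM).σ γ x).val :=
  uCoc_rel hqM γ x

theorem cores2B_isParabolicHom {A : Type*} [AddCommGroup A] {ψ : H (Gamma0 (M * q)) A}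
    (hψ : IsParabolicHom (Gamma0 (M * q)) ψ) : IsParabolicHom (Gamma0 M) (cores2B hqM A ψ) :=
  (betaData hqM).op_isParabolicHom (fun x : ZMod q => heckeMatrix q x.val)
    (betaData_rel hqM) hψ

theorem heckeU_isParabolicHom {A : Type*} [AddCommGroup A] {φ : H (Gamma0 M) A}
    (hφ : IsParabolicHom (Gamma0 M) φ) : IsParabolicHom (Gamma0 M) (heckeU hqM A φ) :=
  (uData hqM).op_isParabolicHom (fun x : ZMod q => heckeMatrix q x.val)
    (fun γ x => uCoc_rel hqM γ x) hφ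

end Beta

/-! ### `U_q` at level `M q` -/

section UpperLevel

variable {M q : ℕ} [NeZero M] [Fact q.Prime]

instance neZero_mul_inst : NeZero (M * q) :=
  ⟨Nat.mul_ne_zero (NeZero.ne M) (Fact.out : q.Prime).ne_zero⟩

/-- `U_q ∘ deg2 = q • res` on `H(Γ₀(M)) → H(Γ₀(M q))`, any `M` -/
theorem heckeU_deg2 {A : Type*} [AddCommGroup A] (φ : H (Gamma0 M) A) :
    heckeU (dvd_mul_left q M) A (deg2 M q A φ) = q • res M q A φ := by
  ext γ
  show heckeU (dvd_mul_left q M) A (deg2 M q A φ) (Additive.ofMul γ) =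
    (q • res M q A φ) (Additive.ofMul γ)
  rw [heckeU_apply]
  have hc : ∀ x : ZMod q, cdel M q (uCoc (dvd_mul_left q M) γ x) =
      unipT M (x.val : ℤ) * inclMul M q γ *
        (unipT M ((uPerm (dvd_mul_left q M) γ x).val : ℤ))⁻¹ := fun x =>
    cdel_of_finRep_rel _ (inclMul M q γ) x.val (uPerm (dvd_mul_left q M) γ x).val
      (uCoc_rel_int (dvd_mul_left q M) γ x)
  simp_rw [deg2_apply, hc, ofMul_mul, ofMul_inv, map_add, map_neg]
  rw [Finset.sum_add_distrib, Finset.sum_add_distrib, Finset.sum_neg_distrib,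
    Equiv.sum_comp (uPerm (dvd_mul_left q M) γ)
      (fun x : ZMod q => φ (Additive.ofMul (unipT M (x.val : ℤ)))),
    Finset.sum_const, Finset.card_univ, ZMod.card, AddMonoidHom.smul_apply, res_apply]
  abel

end UpperLevel

/-! ### `U_q ∘ res = res ∘ T_q - deg` for `q ∤ N` -/

section Old

variable {N q : ℕ} [NeZero N] [Fact q.Prime] (hqN : ¬ q ∣ N)

theorem tCoc_inclMul_coe (γ' : ↥(Gamma0 (N * q))) (j : ZMod q) :
    tPerm q (inclMul N q γ') (j : OnePoint (ZMod q)) =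
      ((uPerm (dvd_mul_left q N) γ' j : ZMod q) : OnePoint (ZMod q)) ∧
    tCoc hqN (inclMul N q γ') (j : OnePoint (ZMod q)) =
      inclMul N q (uCoc (dvd_mul_left q N) γ' j) := by
  have h := tCoc_unique hqN (inclMul N q γ') (j : OnePoint (ZMod q))
    ((uPerm (dvd_mul_left q N) γ' j : ZMod q) : OnePoint (ZMod q))
    ((uCoc (dvd_mul_left q N) γ' j : ↥(Gamma0 (N * q))) : SL(2, ℤ))
    (uCoc_rel (dvd_mul_left q N) γ' j)
  exact ⟨h.1.symm, Subtype.ext h.2.symm⟩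

/-- `res ∘ T_q = U_q ∘ res + deg` -/
theorem res_heckeT_self {A : Type*} [AddCommGroup A] (φ : H (Gamma0 N) A) :
    res N q A (heckeT hqN A φ) =
      heckeU (dvd_mul_left q N) A (res N q A φ) + deg hqN A φ := by
  ext γ
  show res N q A (heckeT hqN A φ) (Additive.ofMul γ) =
    heckeU (dvd_mul_left q N) A (res N q A φ) (Additive.ofMul γ) + deg hqN A φ (Additive.ofMul γ)
  rw [res_apply, Fermat.Agent.S41lib.HC.heckeT_apply, heckeU_apply, deg_apply]
  have hsplit : ∑ y : OnePoint (ZMod q), φ (Additive.ofMul (tCoc hqN (inclMul N q γ) y)) =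
      φ (Additive.ofMul (tCoc hqN (inclMul N q γ) OnePoint.infty)) +
        ∑ j : ZMod q, φ (Additive.ofMul (tCoc hqN (inclMul N q γ) (j : OnePoint (ZMod q)))) :=
    Fintype.sum_option _
  rw [hsplit, add_comm]
  congr 1
  refine Finset.sum_congr rfl fun j _ => ?_
  rw [res_apply, (tCoc_inclMul_coe hqN γ j).2]

end Old

/-! ### `U_q` commutes with restriction when `q` divides both levels -/

section ResU

variable {M q : ℕ} [NeZero M] [Fact q.Prime] (hqM : q ∣ M)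

theorem inclMul_uCoc (γ' : ↥(Gamma0 (M * q))) (y : ZMod q) :
    inclMul M q (uCoc (dvd_mul_left q M) γ' y) = uCoc hqM (inclMul M q γ') y := by
  apply toMZ_injective
  have h1 := uCoc_rel_int (dvd_mul_left q M) γ' y
  have h2 := uCoc_rel_int hqM (inclMul M q γ') y
  have h3 : uPerm (dvd_mul_left q M) γ' y = uPerm hqM (inclMul M q γ') y := rfl
  have h4 : toMZ (inclMul M q γ') = toMZ γ' := rfl
  have h5 : toMZ (inclMul M q (uCoc (dvd_mul_left q M) γ' y)) =
      toMZ (uCoc (dvd_mul_left q M) γ' y) := rfl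
  rw [h4, h1, h3] at h2
  rw [h5]
  refine MZ_mul_right_cancel (B := finRep q (uPerm hqM (inclMul M q γ') y).val) ?_ h2
  rw [finRep_det]
  exact_mod_cast (Fact.out : q.Prime).ne_zero

/-- `U_q ∘ res = res ∘ U_q` for `q ∣ M` -/
theorem heckeU_res {A : Type*} [AddCommGroup A] (φ : H (Gamma0 M) A) :
    heckeU (dvd_mul_left q M) A (res M q A φ) = res M q A (heckeU hqM A φ) := by
  ext γ
  show heckeU (dvd_mul_left q M) A (res M q A φ) (Additive.ofMul γ) =
    res M q A (heckeU hqM A φ) (Additive.ofMul γ)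
  rw [heckeU_apply, res_apply, heckeU_apply]
  refine Finset.sum_congr rfl fun x _ => ?_
  rw [res_apply, inclMul_uCoc hqM]

end ResU

end Fermat.Agent.S59lib.N3
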